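import Fermat.Agent.CasselsHurwitz.Tools
import Fermat.Agent.KroneckerApprox.Zeta
import Fermat.Agent.Tau.AlmostAll
import Fermat.Agent.Brouwer.Basic

/-!
# A twist of a combination of `L`-functions with a zero

The logarithms of the twisted `L (σ, χ ε)` are, up to a small error, the linear forms
`∑ χ a Z a` in the class sums `Z a = ∑_{p ≡ a} ε p p^(-σ)`, which are arbitrary once `σ` is near
one. Brouwer's theorem in one complex unknown removes the error.
-/

set_option autoImplicit false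

noncomputable section

namespace FA.CasselsHurwitz

open Finset Filter Complex
open scoped Topology Real

/-- A first phase closing a triangle with sides `A`, `B`. -/
def triOne (A B : ℝ) (z : ℂ) : ℂ :=
  z / ‖z‖ * (((A ^ 2 + ‖z‖ ^ 2 - B ^ 2) / (2 * A * ‖z‖) : ℝ) +
    (Real.sqrt (1 - ((A ^ 2 + ‖z‖ ^ 2 - B ^ 2) / (2 * A * ‖z‖)) ^ 2) : ℝ) * I)

/-- The second phase. -/
def triTwo (A B : ℝ) (z : ℂ) : ℂ := (z - A * triOne A B z) / B

theorem tri_spec {A B : ℝ} (hA : 0 < A) (hB : 0 < B) {z : ℂ} (hz : 0 < ‖z‖) (h1 : |A - B| ≤ ‖z‖)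
    (h2 : ‖z‖ ≤ A + B) :
    ‖triOne A B z‖ = 1 ∧ ‖triTwo A B z‖ = 1 ∧ A * triOne A B z + B * triTwo A B z = z := by
  obtain ⟨m, hm⟩ : ∃ m, m = ‖z‖ := ⟨_, rfl⟩
  obtain ⟨co, hco⟩ : ∃ co, co = (A ^ 2 + m ^ 2 - B ^ 2) / (2 * A * m) := ⟨_, rfl⟩
  rw [← hm] at hz h1 h2
  have hden : 0 < 2 * A * m := by positivity
  obtain ⟨h1a, h1b⟩ := abs_le.1 h1
  have hco1 : co ≤ 1 := by
    rw [hco, div_le_one hden]
    nlinarith [mul_nonneg (show 0 ≤ B - (A - m) by linarith) (show 0 ≤ B + (A - m) by linarith)]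
  have hco2 : -1 ≤ co := by
    rw [hco, le_div_iff₀ hden]
    nlinarith [mul_nonneg (show 0 ≤ A + m - B by linarith) (show 0 ≤ A + m + B by linarith)]
  obtain ⟨si, hsi⟩ : ∃ si, si = Real.sqrt (1 - co ^ 2) := ⟨_, rfl⟩
  have hsi2 : si ^ 2 = 1 - co ^ 2 := by
    rw [hsi, Real.sq_sqrt]
    nlinarith
  have h1e : triOne A B z = z / m * ((co : ℂ) + (si : ℂ) * I) := by rw [triOne, hsi, hco, hm]
  have hn : ‖triOne A B z‖ = 1 := by
    rw [h1e, norm_mul, norm_div, Complex.norm_real, Real.norm_of_nonneg hz.le, ← hm,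
      div_self hz.ne', one_mul, Complex.norm_add_mul_I, hsi2, add_sub_cancel, Real.sqrt_one]
  refine ⟨hn, ?_, ?_⟩
  · have hdiff : z - A * triOne A B z =
        z / m * (((m - A * co : ℝ) : ℂ) + ((-(A * si) : ℝ) : ℂ) * I) := by
      rw [h1e]
      have hm0 : (m : ℂ) ≠ 0 := Complex.ofReal_ne_zero.2 hz.ne'
      field_simp
      push_cast
      ring
    have hB2 : (m - A * co) ^ 2 + (-(A * si)) ^ 2 = B ^ 2 := by
      have h3 : co * (2 * A * m) = A ^ 2 + m ^ 2 - B ^ 2 := by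
        rw [hco, div_mul_cancel₀ _ hden.ne']
      linear_combination (A ^ 2) * hsi2 - h3
    rw [triTwo, norm_div, hdiff, norm_mul, norm_div, Complex.norm_real, Complex.norm_real,
      Real.norm_of_nonneg hz.le, Real.norm_of_nonneg hB.le, ← hm, div_self hz.ne', one_mul,
      Complex.norm_add_mul_I, hB2, Real.sqrt_sq hB.le, div_self hB.ne']
  · rw [triTwo, mul_div_cancel₀ _ (Complex.ofReal_ne_zero.2 hB.ne')]
    ring

theorem continuousOn_triOne {A : ℝ} (hA : 0 < A) (B : ℝ) :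
    ContinuousOn (triOne A B) {z | z ≠ 0} := by
  have hn : ∀ z ∈ {z : ℂ | z ≠ 0}, (‖z‖ : ℂ) ≠ 0 := fun z hz =>
    Complex.ofReal_ne_zero.2 (norm_ne_zero_iff.2 hz)
  have hd : ContinuousOn (fun z : ℂ => (A ^ 2 + ‖z‖ ^ 2 - B ^ 2) / (2 * A * ‖z‖)) {z | z ≠ 0} :=
    ContinuousOn.div (by fun_prop) (by fun_prop) fun z hz => by
      have := norm_pos_iff.2 (show z ≠ 0 from hz)
      positivity
  unfold triOne
  refine (continuousOn_id.div (by fun_prop) hn).mul
    ((Complex.continuous_ofReal.comp_continuousOn hd).add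
    ((Complex.continuous_ofReal.comp_continuousOn
      (Real.continuous_sqrt.comp_continuousOn (continuousOn_const.sub (hd.pow 2)))).mul
      continuousOn_const))

theorem continuousOn_triTwo {A : ℝ} (hA : 0 < A) (B : ℝ) :
    ContinuousOn (triTwo A B) {z | z ≠ 0} := by
  unfold triTwo
  exact (continuousOn_id.sub (continuousOn_const.mul (continuousOn_triOne hA B))).div_const _

/-- The weight `n ^ (-σ)`. -/
def powWt (σ : ℝ) (n : ℕ) : ℝ := ((n : ℝ) ^ σ)⁻¹

theorem powWt_nonneg (σ : ℝ) (n : ℕ) : 0 ≤ powWt σ n := by unfold powWt; positivity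

theorem summable_powWt {σ : ℝ} (hσ : 1 < σ) : Summable (powWt σ) :=
  Real.summable_nat_rpow_inv.2 hσ

theorem powWt_anti {σ : ℝ} (hσ : 0 ≤ σ) {m n : ℕ} (hm : 1 ≤ m) (h : m ≤ n) :
    powWt σ n ≤ powWt σ m :=
  inv_anti₀ (Real.rpow_pos_of_pos (Nat.cast_pos.2 hm) _)
    (Real.rpow_le_rpow (Nat.cast_nonneg _) (Nat.cast_le.2 h) hσ)

theorem powWt_le_inv {σ : ℝ} (hσ : 1 ≤ σ) {n : ℕ} (hn : 1 ≤ n) : powWt σ n ≤ (n : ℝ)⁻¹ :=
  inv_anti₀ (Nat.cast_pos.2 hn) (by
    conv_lhs => rw [← Real.rpow_one (n : ℝ)]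
    exact Real.rpow_le_rpow_of_exponent_le (by exact_mod_cast hn) hσ)

variable {q : ℕ} [NeZero q]

/-- The primes above `y` in a class. -/
def classP (y : ℕ) (a : (ZMod q)ˣ) (p : ℕ) : Prop := p.Prime ∧ y < p ∧ (p : ZMod q) = a

theorem classP_infinite (y : ℕ) (a : (ZMod q)ˣ) : (Set.ofPred (classP y a)).Infinite := by
  refine ((Nat.infinite_setOfPred_prime_and_eq_mod a.isUnit).diff (Set.finite_le_nat y)).mono ?_
  rintro p ⟨⟨hp, hpa⟩, hpy⟩
  simp only [Set.mem_ofPred_eq, not_le] at hpy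
  exact ⟨hp, hpy, hpa⟩

/-- The `j`th of them. -/
def classE (y : ℕ) (a : (ZMod q)ˣ) (j : ℕ) : ℕ := Nat.nth (classP y a) j

theorem classE_spec (y : ℕ) (a : (ZMod q)ˣ) (j : ℕ) :
    (classE y a j).Prime ∧ y < classE y a j ∧ (classE y a j : ZMod q) = a :=
  Nat.nth_mem_of_infinite (classP_infinite y a) j

/-- Their three shares. -/
def classShare (σ : ℝ) (y : ℕ) (a : (ZMod q)ˣ) (r : ℕ) : ℝ :=
  ∑' j, powWt σ (classE y a (r + 3 * j))

theorem summable_powWt_classE {σ : ℝ} (hσ : 1 < σ) (y : ℕ) (a : (ZMod q)ˣ) :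
    Summable fun j => powWt σ (classE y a j) :=
  (summable_powWt hσ).comp_injective (Nat.nth_strictMono (classP_infinite y a)).injective

/-- The primes of a class are many. -/
theorem eventually_shares_large (hq : 1 < q) (y : ℕ) (a : (ZMod q)ˣ) (B : ℝ) :
    ∀ᶠ σ : ℝ in 𝓝[>] 1, B ≤ ∑' j, powWt σ (classE y a j) := by
  have : Fact (1 < q) := ⟨hq⟩
  have hns : ¬Summable fun j => ((classE y a j : ℕ) : ℝ)⁻¹ := by
    intro hs
    refine FA.Tau.not_summable_residueClass q a ?_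
    have hinj := (Nat.nth_strictMono (classP_infinite y a)).injective
    have h1 : Summable (Set.indicator (Set.range (classE y a)) fun n : ℕ => (1 : ℝ) / n) := by
      refine (hinj.summable_iff (fun n hn => Set.indicator_of_notMem hn _)).1 (hs.congr fun j => ?_)
      rw [Function.comp_apply]
      rw [Set.indicator_of_mem (Set.mem_range_self (f := Nat.nth (classP y a)) j)]
      exact (one_div _).symm
    refine h1.congr_cofinite ((Set.finite_le_nat y).subset ?_)
    intro n hn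
    simp only [Set.mem_compl_iff, Set.mem_ofPred_eq, _root_.not_imp] at hn ⊢
    by_contra hny
    refine hn ?_
    have hiff : n ∈ Set.range (classE y a) ↔ n ∈ {p : ℕ | p.Prime ∧ (p : ZMod q) = a} := by
      rw [show classE y a = Nat.nth (classP y a) from rfl,
        Nat.range_nth_of_infinite (classP_infinite y a)]
      simp only [Set.mem_ofPred_eq, classP]
      exact ⟨fun h => ⟨h.1, h.2.2⟩, fun h => ⟨h.1, by omega, h.2⟩⟩
    by_cases hmem : n ∈ Set.range (classE y a)
    · rw [Set.indicator_of_mem hmem, Set.indicator_of_mem (hiff.1 hmem)]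
    · rw [Set.indicator_of_notMem hmem, Set.indicator_of_notMem (mt hiff.2 hmem)]
  obtain ⟨n, hn⟩ := ((not_summable_iff_tendsto_nat_atTop_of_nonneg fun j => by positivity).1
    hns |>.eventually_gt_atTop B).exists
  have hc : Tendsto (fun σ : ℝ => ∑ j ∈ range n, powWt σ (classE y a j)) (𝓝 1)
      (𝓝 (∑ j ∈ range n, ((classE y a j : ℕ) : ℝ)⁻¹)) := by
    refine tendsto_finsetSum _ fun j _ => ?_
    have h0 : (classE y a j : ℝ) ≠ 0 := Nat.cast_ne_zero.2 (classE_spec y a j).1.ne_zero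
    have h := ((Real.continuousAt_const_rpow (b := (1 : ℝ)) h0).inv₀
      (by rw [Real.rpow_one]; exact h0)).tendsto
    rwa [Pi.inv_apply, Real.rpow_one] at h
  filter_upwards [(hc.eventually (lt_mem_nhds hn)).filter_mono nhdsWithin_le_nhds,
    self_mem_nhdsWithin] with σ h1 h2
  exact h1.le.trans ((summable_powWt_classE h2 y a).sum_le_tsum _ fun j _ => powWt_nonneg σ _)

theorem shares_spec {σ : ℝ} (hσ : 1 < σ) (y : ℕ) (a : (ZMod q)ˣ) :
    classShare σ y a 1 ≤ classShare σ y a 0 ∧ classShare σ y a 2 ≤ classShare σ y a 1 ∧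
      classShare σ y a 0 ≤ classShare σ y a 2 + 1 ∧
      ∑' j, powWt σ (classE y a j) =
        classShare σ y a 0 + classShare σ y a 1 + classShare σ y a 2 := by
  have hs := summable_powWt_classE hσ y a
  have hanti : ∀ i j, i ≤ j → powWt σ (classE y a j) ≤ powWt σ (classE y a i) := fun i j h =>
    powWt_anti (by linarith) (classE_spec y a i).1.one_le
      ((Nat.nth_strictMono (classP_infinite y a)).monotone h)
  have hsr : ∀ r, Summable fun j => powWt σ (classE y a (r + 3 * j)) := fun r =>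
    hs.comp_injective fun i j (h : r + 3 * i = r + 3 * j) => by omega
  refine ⟨(hsr 1).tsum_le_tsum (fun j => hanti _ _ (by omega)) (hsr 0),
    (hsr 2).tsum_le_tsum (fun j => hanti _ _ (by omega)) (hsr 1), ?_, ?_⟩
  · rw [classShare, (hsr 0).tsum_eq_zero_add, add_comm]
    refine add_le_add (((summable_nat_add_iff 1).2 (hsr 0)).tsum_le_tsum
      (fun j => hanti _ _ (by omega)) (hsr 2)) ?_
    exact (powWt_le_inv hσ.le (classE_spec y a _).1.one_le).trans
      (inv_le_one_of_one_le₀ (Nat.one_le_cast.2 (classE_spec y a _).1.one_le))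
  · rw [Nat.sumByResidueClasses hs 3]
    exact Fin.sum_univ_three _

open Classical in
/-- The phase of `p` for the class targets `Z`. -/
def phaseOf (σ : ℝ) (y : ℕ) (Z : (ZMod q)ˣ → ℂ) (p : ℕ) : ℂ :=
  if h : p.Prime ∧ y < p ∧ IsUnit (p : ZMod q) then
    if Nat.count (classP y h.2.2.unit) p % 3 = 0 then
      triOne (classShare σ y h.2.2.unit 0) (classShare σ y h.2.2.unit 1)
        (Z h.2.2.unit - classShare σ y h.2.2.unit 2)
    else if Nat.count (classP y h.2.2.unit) p % 3 = 1 then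
      triTwo (classShare σ y h.2.2.unit 0) (classShare σ y h.2.2.unit 1)
        (Z h.2.2.unit - classShare σ y h.2.2.unit 2)
    else 1
  else 1

theorem phaseOf_classE (σ : ℝ) (y : ℕ) (Z : (ZMod q)ˣ → ℂ) (a : (ZMod q)ˣ) (j : ℕ) :
    phaseOf σ y Z (classE y a j) =
      if j % 3 = 0 then triOne (classShare σ y a 0) (classShare σ y a 1)
        (Z a - classShare σ y a 2)
      else if j % 3 = 1 then triTwo (classShare σ y a 0) (classShare σ y a 1)
        (Z a - classShare σ y a 2)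
      else 1 := by
  classical
  obtain ⟨hp, hy, ha⟩ := classE_spec y a j
  have hu : IsUnit (classE y a j : ZMod q) := ha ▸ a.isUnit
  have hua : hu.unit = a := Units.ext (by rw [IsUnit.unit_spec, ha])
  rw [phaseOf, dif_pos ⟨hp, hy, hu⟩]
  simp only [hua]
  rw [show classE y a j = Nat.nth (classP y a) j from rfl,
    Nat.count_nth_of_infinite (classP_infinite y a)]

/-- The hypothesis under which the triangles close. -/
def Reachable' (σ : ℝ) (y : ℕ) (Z : (ZMod q)ˣ → ℂ) : Prop :=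
  ∀ a, 0 < classShare σ y a 0 ∧ 0 < classShare σ y a 1 ∧
    0 < ‖Z a - classShare σ y a 2‖ ∧
    |classShare σ y a 0 - classShare σ y a 1| ≤ ‖Z a - classShare σ y a 2‖ ∧
    ‖Z a - classShare σ y a 2‖ ≤ classShare σ y a 0 + classShare σ y a 1

theorem norm_phaseOf {σ : ℝ} {y : ℕ} {Z : (ZMod q)ˣ → ℂ} (hZ : Reachable' σ y Z) (p : ℕ) :
    ‖phaseOf σ y Z p‖ = 1 := by
  unfold phaseOf
  split_ifs with h h0 h1
  · obtain ⟨a1, a2, a3, a4, a5⟩ := hZ h.2.2.unit
    exact (tri_spec a1 a2 a3 a4 a5).1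
  · obtain ⟨a1, a2, a3, a4, a5⟩ := hZ h.2.2.unit
    exact (tri_spec a1 a2 a3 a4 a5).2.1
  · simp
  · simp

theorem continuousOn_phaseOf {X : Type} [TopologicalSpace X] {K : Set X} {σ : ℝ} {y : ℕ}
    {Z : X → (ZMod q)ˣ → ℂ} (hZc : ∀ a, ContinuousOn (fun x => Z x a) K)
    (hZ : ∀ x ∈ K, Reachable' σ y (Z x)) (p : ℕ) :
    ContinuousOn (fun x => phaseOf σ y (Z x) p) K := by
  rcases K.eq_empty_or_nonempty with rfl | ⟨x₀, hx₀⟩
  · exact continuousOn_empty _
  unfold phaseOf
  split_ifs with h h0 h1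
  · exact (continuousOn_triOne (hZ x₀ hx₀ h.2.2.unit).1 _).comp
      ((hZc h.2.2.unit).sub continuousOn_const) fun x hx =>
        norm_pos_iff.1 (hZ x hx h.2.2.unit).2.2.1
  · exact (continuousOn_triTwo (hZ x₀ hx₀ h.2.2.unit).1 _).comp
      ((hZc h.2.2.unit).sub continuousOn_const) fun x hx =>
        norm_pos_iff.1 (hZ x hx h.2.2.unit).2.2.1
  · exact continuousOn_const
  · exact continuousOn_const

theorem class_tsum {σ : ℝ} (hσ : 1 < σ) {y : ℕ} {Z : (ZMod q)ˣ → ℂ} (hZ : Reachable' σ y Z)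
    (a : (ZMod q)ˣ) :
    HasSum (fun n : ℕ => Set.indicator (Set.range (classE y a))
      (fun n => phaseOf σ y Z n * (powWt σ n : ℂ)) n) (Z a) := by
  have hinj := (Nat.nth_strictMono (classP_infinite y a)).injective
  refine (Function.Injective.hasSum_iff hinj fun n hn => Set.indicator_of_notMem hn _).1 ?_
  suffices h : HasSum (fun j => phaseOf σ y Z (classE y a j) * (powWt σ (classE y a j) : ℂ))
      (Z a) from h.congr_fun fun j => by
    rw [Function.comp_apply,
      Set.indicator_of_mem (Set.mem_range_self (f := Nat.nth (classP y a)) j)]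
    rfl
  have hs : Summable fun j => phaseOf σ y Z (classE y a j) * (powWt σ (classE y a j) : ℂ) :=
    .of_norm_bounded (summable_powWt_classE hσ y a) fun j => by
      rw [norm_mul, norm_phaseOf hZ, one_mul, Complex.norm_real,
        Real.norm_of_nonneg (powWt_nonneg σ _)]
  obtain ⟨a1, a2, a3, a4, a5⟩ := hZ a
  have key := (tri_spec a1 a2 a3 a4 a5).2.2
  have hr : ∀ (r : ℕ) (v : ℂ), r < 3 →
      (∀ m, phaseOf σ y Z (classE y a (r + 3 * m)) = v) →
      ∑' m, phaseOf σ y Z (classE y a (r + 3 * m)) * (powWt σ (classE y a (r + 3 * m)) : ℂ) =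
        v * (classShare σ y a r : ℂ) := fun r v _ hv => by
    rw [classShare, Complex.ofReal_tsum, ← tsum_mul_left]
    exact tsum_congr fun m => by rw [hv]
  have htot : ∑' j, phaseOf σ y Z (classE y a j) * (powWt σ (classE y a j) : ℂ) = Z a := by
    rw [Nat.sumByResidueClasses hs 3]
    refine (Fin.sum_univ_three _).trans ?_
    refine (congrArg₂ (· + ·) (congrArg₂ (· + ·)
      (hr 0 (triOne (classShare σ y a 0) (classShare σ y a 1) (Z a - classShare σ y a 2))
        (by omega) fun m => ?_)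
      (hr 1 (triTwo (classShare σ y a 0) (classShare σ y a 1) (Z a - classShare σ y a 2))
        (by omega) fun m => ?_))
      (hr 2 1 (by omega) fun m => ?_)).trans ?_
    · rw [phaseOf_classE, if_pos (by omega)]
    · rw [phaseOf_classE, if_neg (by omega), if_pos (by omega)]
    · rw [phaseOf_classE, if_neg (by omega), if_neg (by omega)]
    · linear_combination key
  exact htot ▸ hs.hasSum

theorem sum_units_char (χ ψ : DirichletCharacter ℂ q) :
    ∑ a : (ZMod q)ˣ, χ a * ψ ((a⁻¹ : (ZMod q)ˣ) : ZMod q) =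
      if χ = ψ then (q.totient : ℂ) else 0 := by
  classical
  have e : ∀ a : (ZMod q)ˣ, χ a * ψ ((a⁻¹ : (ZMod q)ˣ) : ZMod q) = (χ * ψ⁻¹) a := fun a => by
    rw [MulChar.mul_apply, MulChar.inv_apply, Ring.inverse_unit]
  rw [sum_congr rfl fun a _ => e a]
  rcases eq_or_ne χ ψ with rfl | h
  · simp [MulChar.one_apply_coe, ZMod.card_units_eq_totient]
  · rw [if_neg h]
    have h0 := MulChar.sum_eq_zero_of_ne_one (show χ * ψ⁻¹ ≠ 1 by
      rw [Ne, mul_inv_eq_one]; exact h)
    rw [← sum_filter_of_ne (p := fun x : ZMod q => IsUnit x) (fun x _ hx => by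
      by_contra hu
      exact hx (MulChar.map_nonunit _ hu))] at h0
    refine Eq.trans (sum_bij (fun a _ => (a : ZMod q)) (fun a _ => mem_filter.2
      ⟨mem_univ _, a.isUnit⟩) (fun a _ b _ h => Units.ext h)
      (fun x hx => ⟨(mem_filter.1 hx).2.unit, mem_univ _, IsUnit.unit_spec _⟩) fun a _ => rfl) h0

/-- A linear map over `ℚ` with given values at the logarithms of the primes. -/
theorem exists_linear_log_primes (θ : Nat.Primes → ℝ) :
    ∃ Λ : ℝ →ₗ[ℚ] ℝ, ∀ p : Nat.Primes, Λ (Real.log (p : ℕ)) = θ p := by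
  classical
  have hli : LinearIndependent ℚ fun p : Nat.Primes => Real.log (p : ℕ) := by
    rw [← LinearIndependent.iff_fractionRing ℤ ℚ, linearIndependent_iff']
    intro s g hg i hi
    have h := FA.KroneckerApprox.log_primes_independent
      (pr := fun j => ((s.equivFin.symm j : Nat.Primes) : ℕ))
      (fun j => (s.equivFin.symm j : Nat.Primes).2)
      (fun j k hjk => s.equivFin.symm.injective (Subtype.ext (Subtype.ext hjk)))
      (fun j => g (s.equivFin.symm j)) (by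
        rw [← hg, ← sum_coe_sort s, ← s.equivFin.symm.sum_comp]
        exact sum_congr rfl fun j _ => (zsmul_eq_mul _ _).symm)
    simpa using congrFun h (s.equivFin ⟨i, hi⟩)
  obtain ⟨Λ, hΛ⟩ := LinearMap.exists_extend
    ((Finsupp.linearCombination ℚ θ).comp hli.repr)
  refine ⟨Λ, fun p => ?_⟩
  have h := congrArg
    (fun g => g ⟨Real.log (p : ℕ), Submodule.subset_span (Set.mem_range_self p)⟩) hΛ
  simp only [LinearMap.comp_apply, Submodule.subtype_apply] at h
  rw [h, hli.repr_eq_single p _ rfl, Finsupp.linearCombination_single, one_smul]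

/-- The coefficients of the combination at `n + 1`. -/
def combCoef (c : DirichletCharacter ℂ q → ℂ) (n : ℕ) : ℂ := ∑ χ, c χ * χ ((n + 1 : ℕ) : ZMod q)

/-- The frequencies `log (n + 1)`. -/
def natLog' (n : ℕ) : ℝ := Real.log ((n + 1 : ℕ) : ℝ)

theorem exp_natLog' (σ : ℝ) (n : ℕ) : Real.exp (-(σ * natLog' n)) = powWt σ (n + 1) := by
  rw [powWt, natLog', Real.rpow_def_of_pos (by positivity), ← Real.exp_neg]
  congr 1
  ring

theorem strictMono_natLog' : StrictMono natLog' := fun m n h =>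
  Real.log_lt_log (by positivity) (Nat.cast_lt.2 (Nat.succ_lt_succ h))

theorem norm_combCoef_le (c : DirichletCharacter ℂ q → ℂ) (n : ℕ) :
    ‖combCoef c n‖ ≤ ∑ χ, ‖c χ‖ :=
  norm_sum_le_of_le _ fun χ _ => by
    rw [norm_mul]
    exact mul_le_of_le_one_right (norm_nonneg _) (χ.norm_le_one _)

theorem majorised_comb (c : DirichletCharacter ℂ q → ℂ) : Majorised (combCoef c) natLog' :=
  fun σ hσ => Summable.of_nonneg_of_le (fun n => by positivity) (fun n => by
    rw [exp_natLog']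
    exact mul_le_mul_of_nonneg_right (norm_combCoef_le c n) (powWt_nonneg σ _))
    (((summable_nat_add_iff 1).2 (summable_powWt hσ)).mul_left _)

theorem exists_combCoef_ne_zero {c : DirichletCharacter ℂ q → ℂ} {χ₀ : DirichletCharacter ℂ q}
    (h0 : c χ₀ ≠ 0) : ∃ n, combCoef c n ≠ 0 := by
  classical
  by_contra hz
  push Not at hz
  have hall : ∀ x : ZMod q, ∑ χ : DirichletCharacter ℂ q, c χ * χ x = 0 := fun x => by
    have := hz (x.val + q - 1)
    rw [combCoef, Nat.sub_add_cancel (by have := NeZero.pos q; omega)] at this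
    simpa using this
  have h : ∑ a : (ZMod q)ˣ, (∑ χ : DirichletCharacter ℂ q, c χ * χ a) *
      χ₀ ((a⁻¹ : (ZMod q)ˣ) : ZMod q) = c χ₀ * q.totient := by
    simp only [sum_mul, mul_assoc]
    rw [sum_comm]
    simp only [← mul_sum, sum_units_char, mul_ite, mul_zero, sum_ite_eq', mem_univ, if_true]
  rw [sum_eq_zero fun (a : (ZMod q)ˣ) _ => by rw [hall, zero_mul]] at h
  exact mul_ne_zero h0 (Nat.cast_ne_zero.2 (Nat.totient_pos.2 (NeZero.pos q)).ne') h.symm

/-- **A twist of a combination with a zero.** -/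
theorem exists_twist_zero_comb {c : DirichletCharacter ℂ q → ℂ}
    {χ₀ χ₁ : DirichletCharacter ℂ q} (h01 : χ₀ ≠ χ₁) (h0 : c χ₀ ≠ 0) (h1 : c χ₁ ≠ 0) {δ : ℝ}
    (hδ : 0 < δ) :
    ∃ (σ : ℝ) (tw : ℕ → ℂ), 1 < σ ∧ σ < 1 + δ ∧ (∀ n, ‖tw n‖ = 1) ∧
      Approachable natLog' tw ∧ twSeries (combCoef c) natLog' tw σ = 0 := by
  classical
  have hq : 1 < q := by
    by_contra h
    have hq1 : q = 1 := by have := NeZero.pos q; omega
    subst hq1
    exact h01 (Subsingleton.elim _ _)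
  obtain ⟨S, hS⟩ : ∃ S : Finset (DirichletCharacter ℂ q), S = univ.erase χ₀ := ⟨_, rfl⟩
  obtain ⟨wt, hwt0, hwtne⟩ : ∃ wt : DirichletCharacter ℂ q → ℂ, wt χ₀ = 0 ∧
      ∑ χ ∈ S, c χ * exp (wt χ) ≠ 0 := by
    have h1S : χ₁ ∈ S := hS ▸ mem_erase.2 ⟨h01.symm, mem_univ _⟩
    by_cases hz : ∑ χ ∈ S, c χ * exp 0 = 0
    · refine ⟨fun χ => if χ = χ₁ then 1 else 0, if_neg h01, fun hne => ?_⟩
      have h2 : ∑ χ ∈ S, (c χ * exp (if χ = χ₁ then 1 else 0) - c χ * exp 0) = 0 := by
        rw [sum_sub_distrib, hne, hz, sub_zero]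
      rw [sum_eq_single χ₁ (fun χ _ hne' => by rw [if_neg hne', sub_self])
        (fun h => absurd h1S h), if_pos rfl, exp_zero, ← mul_sub] at h2
      have h3 := congrArg norm (sub_eq_zero.1 ((mul_eq_zero.1 h2).resolve_left h1))
      rw [Complex.norm_exp, norm_one, Complex.one_re] at h3
      exact one_ne_zero ((Real.exp_eq_one_iff _).1 h3)
    · exact ⟨fun _ => 0, rfl, hz⟩
  obtain ⟨Q₀, hQ₀⟩ : ∃ Q₀, Q₀ = -(∑ χ ∈ S, c χ * exp (wt χ)) / c χ₀ := ⟨_, rfl⟩
  have hQ₀0 : Q₀ ≠ 0 := hQ₀ ▸ div_ne_zero (neg_ne_zero.2 hwtne) h0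
  obtain ⟨W₀, hW₀⟩ : ∃ W₀, W₀ = log Q₀ := ⟨_, rfl⟩
  obtain ⟨ratio, hratio⟩ : ∃ ratio : (DirichletCharacter ℂ q → ℂ) → ℂ,
      ratio = fun r => -(∑ χ ∈ S, c χ * exp (wt χ + r χ)) / c χ₀ / Q₀ := ⟨_, rfl⟩
  have hratio0 : ratio 0 = 1 := by
    rw [hratio]
    simp only [Pi.zero_apply, add_zero, ← hQ₀, div_self hQ₀0]
  have hratioC : Continuous ratio := by
    rw [hratio]
    fun_prop
  obtain ⟨η, hη, hη'⟩ : ∃ η > (0 : ℝ), ∀ r : DirichletCharacter ℂ q → ℂ, (∀ χ, ‖r χ‖ ≤ η) →
      ratio r ∈ slitPlane ∧ ‖log (ratio r) - r χ₀‖ ≤ 1 := by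
    have hs1 : ratio 0 ∈ slitPlane := by rw [hratio0]; exact one_mem_slitPlane
    have hcont : ContinuousAt (fun r : DirichletCharacter ℂ q → ℂ => log (ratio r) - r χ₀) 0 :=
      (hratioC.continuousAt.clog hs1).sub (continuous_apply χ₀).continuousAt
    have h2 : ∀ᶠ r in 𝓝 (0 : DirichletCharacter ℂ q → ℂ),
        ‖log (ratio r) - r χ₀‖ < 1 := by
      refine hcont.norm.eventually (gt_mem_nhds ?_)
      simp only [hratio0, log_one, Pi.zero_apply, sub_zero, norm_zero]
      exact one_pos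
    obtain ⟨ρ, hρ, hρ'⟩ := Metric.eventually_nhds_iff.1
      ((hratioC.continuousAt.eventually_mem (isOpen_slitPlane.mem_nhds hs1)).and h2)
    refine ⟨ρ / 2, half_pos hρ, fun r hr => ?_⟩
    have := @hρ' r (by
      rw [dist_zero_right]
      exact lt_of_le_of_lt ((pi_norm_le_iff_of_nonneg (by positivity)).2 hr) (half_lt_self hρ))
    exact ⟨this.1, this.2.le⟩
  -- the threshold
  have hsq : Summable fun n : ℕ => ((n : ℝ) ^ 2)⁻¹ := Real.summable_nat_pow_inv.2 one_lt_two
  obtain ⟨y, hy⟩ := (Metric.tendsto_atTop.1 (tendsto_sum_nat_add fun n : ℕ => ((n : ℝ) ^ 2)⁻¹)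
    η hη)
  obtain ⟨bound, hbound⟩ : ∃ bound : ℕ → ℝ, bound = fun n => if y < n then ((n : ℝ) ^ 2)⁻¹ else 0 :=
    ⟨_, rfl⟩
  have hboundS : Summable bound := by
    rw [hbound]
    exact hsq.of_nonneg_of_le (fun n => by split_ifs <;> positivity)
      fun n => by split_ifs <;> simp
  have hboundη : ∑' n, bound n ≤ η := by
    have h1 := hy (y + 1) (Nat.le_succ y)
    rw [dist_zero_right, Real.norm_eq_abs] at h1
    rw [← hboundS.sum_add_tsum_nat_add (y + 1), sum_eq_zero fun n hn => by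
      rw [hbound]; exact if_neg (by rw [mem_range] at hn; omega), zero_add]
    refine le_trans (le_of_eq (tsum_congr fun n => ?_)) ((le_abs_self _).trans h1.le)
    rw [hbound]
    exact if_pos (by omega)
  -- the sizes
  obtain ⟨Zmax, hZmax⟩ : ∃ Zmax : ℝ,
      Zmax = ∑ χ : DirichletCharacter ℂ q, (‖wt χ‖ + ‖W₀‖ + 1 + (y + 1)) := ⟨_, rfl⟩
  have hZmax0 : 0 ≤ Zmax := hZmax ▸ sum_nonneg fun _ _ => by positivity
  obtain ⟨σ, ⟨hshare, hσδ⟩, hσ1⟩ := (((eventually_all.2 fun a =>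
    eventually_shares_large hq y a (3 * Zmax + 12)).and
    ((eventually_lt_nhds (show (1 : ℝ) < 1 + δ by linarith)).filter_mono nhdsWithin_le_nhds)).and
    (self_mem_nhdsWithin (a := (1 : ℝ)) (s := Set.Ioi 1))).exists
  replace hσ1 : 1 < σ := hσ1
  have hwn : ∀ n : ℕ, 2 ≤ n → powWt σ n ≤ 1 / 2 := fun n hn =>
    (powWt_le_inv hσ1.le (by omega)).trans (by
      rw [one_div]; exact inv_anti₀ two_pos (by exact_mod_cast hn))
  obtain ⟨κ, hκ⟩ : ∃ κ : DirichletCharacter ℂ q → ℂ, κ = fun χ =>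
      ∑ n ∈ (range (y + 1)).filter Nat.Prime, -log (1 - χ n * (powWt σ n : ℂ)) := ⟨_, rfl⟩
  have hκb : ∀ χ, ‖κ χ‖ ≤ (y + 1 : ℝ) := by
    intro χ
    rw [hκ]
    refine (norm_sum_le_of_le _ (n := fun _ => (1 : ℝ)) fun n hn => ?_).trans ?_
    · have hp := (mem_filter.1 hn).2
      have hx : ‖-(χ n * (powWt σ n : ℂ))‖ ≤ 1 / 2 := by
        rw [norm_neg, norm_mul, Complex.norm_real, Real.norm_of_nonneg (powWt_nonneg σ n)]
        exact (mul_le_of_le_one_left (powWt_nonneg σ n) (χ.norm_le_one _)).trans (hwn n hp.two_le)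
      rw [norm_neg, sub_eq_add_neg]
      exact (norm_log_one_add_half_le_self hx).trans (by linarith)
    · rw [sum_const, nsmul_eq_mul, mul_one]
      exact_mod_cast (card_filter_le _ _).trans (card_range _).le
  obtain ⟨wv, hwv⟩ : ∃ wv : ℂ → DirichletCharacter ℂ q → ℂ,
      wv = fun ζ => Function.update wt χ₀ ζ := ⟨_, rfl⟩
  obtain ⟨Z, hZdef⟩ : ∃ Z : ℂ → (ZMod q)ˣ → ℂ, Z = fun ζ a => (q.totient : ℂ)⁻¹ *
      ∑ χ : DirichletCharacter ℂ q, χ ((a⁻¹ : (ZMod q)ˣ) : ZMod q) * (wv ζ χ - κ χ) := ⟨_, rfl⟩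
  obtain ⟨K, hK⟩ : ∃ K : Set ℂ, K = Metric.closedBall W₀ 1 := ⟨_, rfl⟩
  have hwvc : ∀ χ, Continuous fun ζ => wv ζ χ := fun χ => by
    rw [hwv]
    rcases eq_or_ne χ χ₀ with rfl | h
    · simp only [Function.update_self]
      exact continuous_id
    · simp only [Function.update_of_ne h]
      exact continuous_const
  have hZc : ∀ a, Continuous fun ζ => Z ζ a := fun a => by
    rw [hZdef]
    exact continuous_const.mul (continuous_finsetSum _ fun χ _ =>
      continuous_const.mul ((hwvc χ).sub continuous_const))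
  have hZb : ∀ ζ ∈ K, ∀ a, ‖Z ζ a‖ ≤ Zmax := by
    intro ζ hζ a
    rw [hK, Metric.mem_closedBall, dist_eq_norm] at hζ
    rw [hZdef]
    simp only
    rw [norm_mul, norm_inv, Complex.norm_natCast]
    refine (mul_le_of_le_one_left (norm_nonneg _) (inv_le_one_of_one_le₀
      (Nat.one_le_cast.2 (Nat.totient_pos.2 (NeZero.pos q))))).trans ?_
    rw [hZmax]
    refine norm_sum_le_of_le _ fun χ _ => ?_
    rw [norm_mul]
    refine (mul_le_of_le_one_left (norm_nonneg _) (χ.norm_le_one _)).trans ?_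
    refine (norm_sub_le _ _).trans (add_le_add ?_ (hκb χ))
    simp only [hwv]
    rcases eq_or_ne χ χ₀ with rfl | h
    · rw [Function.update_self]
      have := norm_le_norm_add_norm_sub' ζ W₀
      linarith [norm_nonneg (wt χ)]
    · rw [Function.update_of_ne h]
      linarith [norm_nonneg W₀]
  have hreach : ∀ ζ ∈ K, Reachable' σ y (Z ζ) := by
    intro ζ hζ a
    obtain ⟨e1, e2, e3, e4⟩ := shares_spec hσ1 y a
    have hlarge := hshare a
    have hb := hZb ζ hζ a
    have hA : (0 : ℝ) ≤ classShare σ y a 2 := tsum_nonneg fun j => powWt_nonneg σ _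
    have hn1 := norm_sub_norm_le ((classShare σ y a 2 : ℝ) : ℂ) (Z ζ a)
    have hn2 := norm_sub_le (Z ζ a) ((classShare σ y a 2 : ℝ) : ℂ)
    rw [Complex.norm_real, Real.norm_of_nonneg hA, norm_sub_rev _ (Z ζ a)] at hn1
    rw [Complex.norm_real, Real.norm_of_nonneg hA] at hn2
    refine ⟨by linarith, by linarith, by linarith, ?_, by linarith⟩
    rw [abs_of_nonneg (by linarith)]
    linarith
  -- the logarithms
  obtain ⟨term', hterm'⟩ : ∃ term' : ℂ → DirichletCharacter ℂ q → ℕ → ℂ, term' = fun ζ χ n =>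
      if n.Prime then -log (1 - χ n * phaseOf σ y (Z ζ) n * (powWt σ n : ℂ)) else 0 := ⟨_, rfl⟩
  obtain ⟨remT, hremT⟩ : ∃ remT : ℂ → DirichletCharacter ℂ q → ℕ → ℂ, remT = fun ζ χ n =>
      if n.Prime ∧ y < n then -log (1 - χ n * phaseOf σ y (Z ζ) n * (powWt σ n : ℂ)) -
        χ n * phaseOf σ y (Z ζ) n * (powWt σ n : ℂ) else 0 := ⟨_, rfl⟩
  obtain ⟨r, hr⟩ : ∃ r : ℂ → DirichletCharacter ℂ q → ℂ, r = fun ζ χ => ∑' n, remT ζ χ n :=
    ⟨_, rfl⟩
  have hxle : ∀ ζ ∈ K, ∀ χ : DirichletCharacter ℂ q, ∀ n : ℕ,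
      ‖χ n * phaseOf σ y (Z ζ) n * (powWt σ n : ℂ)‖ ≤ powWt σ n := by
    intro ζ hζ χ n
    rw [norm_mul, norm_mul, norm_phaseOf (hreach ζ hζ), mul_one, Complex.norm_real,
      Real.norm_of_nonneg (powWt_nonneg σ n)]
    exact mul_le_of_le_one_left (powWt_nonneg σ n) (χ.norm_le_one _)
  have hrem : ∀ ζ ∈ K, ∀ χ n, ‖remT ζ χ n‖ ≤ bound n := by
    intro ζ hζ χ n
    rw [hremT, hbound]
    simp only
    rcases em (n.Prime ∧ y < n) with hn | hn
    · rw [if_pos hn, if_pos hn.2]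
      obtain ⟨x, hx⟩ : ∃ x, x = χ n * phaseOf σ y (Z ζ) n * (powWt σ n : ℂ) := ⟨_, rfl⟩
      have hxw : ‖x‖ ≤ powWt σ n := hx ▸ hxle ζ hζ χ n
      have hx2 : ‖-x‖ ≤ 1 / 2 := by rw [norm_neg]; exact hxw.trans (hwn n hn.1.two_le)
      rw [← hx, show -log (1 - x) - x = -(log (1 + -x) - -x) by rw [← sub_eq_add_neg]; ring,
        norm_neg]
      refine (norm_log_one_add_sub_self_le (hx2.trans_lt (by norm_num))).trans ?_
      calc ‖-x‖ ^ 2 * (1 - ‖-x‖)⁻¹ / 2 ≤ ‖-x‖ ^ 2 * 2 / 2 := by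
            gcongr
            rw [inv_le_comm₀ (by linarith) two_pos]
            linarith
        _ = ‖x‖ ^ 2 := by rw [norm_neg]; ring
        _ ≤ ((n : ℝ) ^ 2)⁻¹ := by
            rw [← inv_pow]
            exact pow_le_pow_left₀ (norm_nonneg _)
              (hxw.trans (powWt_le_inv hσ1.le hn.1.one_le)) 2
    · rw [if_neg hn, norm_zero]
      split_ifs <;> positivity
  have hrb : ∀ ζ ∈ K, ∀ χ, ‖r ζ χ‖ ≤ η := fun ζ hζ χ => by
    rw [hr]
    exact (tsum_of_norm_bounded hboundS.hasSum (hrem ζ hζ χ)).trans hboundη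
  have hrc : ∀ χ, ContinuousOn (fun ζ => r ζ χ) K := by
    intro χ
    rw [hr]
    refine continuousOn_tsum (fun n => ?_) hboundS fun n ζ hζ => hrem ζ hζ χ n
    rw [hremT]
    simp only
    rcases em (n.Prime ∧ y < n) with hn | hn
    · simp only [if_pos hn]
      have hx : ContinuousOn (fun ζ => χ n * phaseOf σ y (Z ζ) n * (powWt σ n : ℂ)) K :=
        (continuousOn_const.mul (continuousOn_phaseOf (fun a => (hZc a).continuousOn) hreach
          n)).mul continuousOn_const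
      refine ((continuousOn_const.sub hx).clog fun ζ hζ => ?_).neg.sub hx
      left
      have h' := (hxle ζ hζ χ n).trans (hwn n hn.1.two_le)
      have := (Complex.re_le_norm (χ n * phaseOf σ y (Z ζ) n * (powWt σ n : ℂ)))
      simp only [Pi.sub_apply, Complex.sub_re, Complex.one_re]
      linarith
    · simp only [if_neg hn]
      exact continuousOn_const
  have hlogsum : ∀ ζ ∈ K, ∀ χ, HasSum (term' ζ χ) (wv ζ χ + r ζ χ) := by
    intro ζ hζ χ
    have hZeq : ∑ a : (ZMod q)ˣ, χ a * Z ζ a = wv ζ χ - κ χ := by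
      have htot : (q.totient : ℂ) ≠ 0 :=
        Nat.cast_ne_zero.2 (Nat.totient_pos.2 (NeZero.pos q)).ne'
      rw [show ∑ a : (ZMod q)ˣ, χ a * Z ζ a = (q.totient : ℂ)⁻¹ *
          ∑ ψ : DirichletCharacter ℂ q,
            (∑ a : (ZMod q)ˣ, χ a * ψ ((a⁻¹ : (ZMod q)ˣ) : ZMod q)) * (wv ζ ψ - κ ψ) by
        simp only [hZdef, mul_sum, sum_mul]
        rw [sum_comm]
        exact sum_congr rfl fun ψ _ => sum_congr rfl fun a _ => by ring]
      rw [sum_eq_single χ (fun ψ _ hne => by rw [sum_units_char, if_neg hne.symm, zero_mul])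
        (fun h => absurd (mem_univ χ) h), sum_units_char, if_pos rfl]
      field_simp
    have h1 : HasSum (fun n => if n ∈ (range (y + 1)).filter Nat.Prime then
        -log (1 - χ n * (powWt σ n : ℂ)) else 0) (κ χ) := by
      have := hasSum_sum_of_ne_finset_zero (L := SummationFilter.unconditional ℕ)
        (s := (range (y + 1)).filter Nat.Prime)
        (f := fun n => if n ∈ (range (y + 1)).filter Nat.Prime then
          -log (1 - χ n * (powWt σ n : ℂ)) else 0) fun n hn => if_neg hn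
      rwa [sum_congr rfl fun n hn => if_pos hn, show (∑ n ∈ (range (y + 1)).filter Nat.Prime,
        -log (1 - χ n * (powWt σ n : ℂ))) = κ χ by rw [hκ]] at this
    have h2 : HasSum (fun n => ∑ a : (ZMod q)ˣ, χ a * Set.indicator (Set.range (classE y a))
        (fun n => phaseOf σ y (Z ζ) n * (powWt σ n : ℂ)) n) (wv ζ χ - κ χ) :=
      hZeq ▸ hasSum_sum fun a _ => (class_tsum hσ1 (hreach ζ hζ) a).mul_left _
    have h3 : HasSum (remT ζ χ) (r ζ χ) := by
      rw [hr]
      exact (Summable.of_norm_bounded hboundS (hrem ζ hζ χ)).hasSum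
    have h := (h1.add h2).add h3
    rw [show κ χ + (wv ζ χ - κ χ) + r ζ χ = wv ζ χ + r ζ χ by ring] at h
    refine h.congr_fun fun n => ?_
    rw [hterm', hremT]
    simp only
    have hclass : ∀ a : (ZMod q)ˣ, n ∈ Set.range (classE y a) ↔
        n.Prime ∧ y < n ∧ (n : ZMod q) = a := fun a => by
      rw [show classE y a = Nat.nth (classP y a) from rfl,
        Nat.range_nth_of_infinite (classP_infinite y a)]
      rfl
    rcases em n.Prime with hn | hn
    swap
    · rw [if_neg hn, if_neg (fun h => hn (mem_filter.1 h).2), if_neg (fun h => hn h.1),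
        sum_eq_zero fun a _ => by
          rw [Set.indicator_of_notMem fun h => hn ((hclass a).1 h).1, mul_zero]]
      ring
    rcases le_or_gt n y with hny | hny
    · rw [if_pos hn, if_pos (mem_filter.2 ⟨mem_range.2 (by omega), hn⟩),
        if_neg (fun h => absurd h.2 (by omega)), sum_eq_zero fun a _ => by
          rw [Set.indicator_of_notMem fun h => absurd ((hclass a).1 h).2.1 (by omega), mul_zero],
        phaseOf, dif_neg (fun h => absurd h.2.1 (by omega))]
      ring_nf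
    · rw [if_pos hn, if_neg (fun h => absurd (mem_range.1 (mem_filter.1 h).1) (by omega)),
        if_pos ⟨hn, hny⟩]
      rcases em (IsUnit (n : ZMod q)) with hu | hu
      · rw [sum_eq_single hu.unit (fun a _ hne => by
          rw [Set.indicator_of_notMem fun h => hne (Units.ext (((hclass a).1 h).2.2.symm.trans
            (IsUnit.unit_spec hu).symm)), mul_zero]) (fun h => absurd (mem_univ _) h),
          Set.indicator_of_mem ((hclass _).2 ⟨hn, hny, (IsUnit.unit_spec hu).symm⟩),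
          IsUnit.unit_spec]
        ring
      · rw [sum_eq_zero fun a _ => by
          rw [Set.indicator_of_notMem fun h => hu (((hclass a).1 h).2.2 ▸ a.isUnit), mul_zero],
          MulChar.map_nonunit _ hu]
        simp
  -- the fixed point
  obtain ⟨ζ, hζ, hfix⟩ := FA.Brouwer.exists_fixed (V := ℂ) (s := K)
    (f := fun ζ => W₀ + log (ratio (r ζ)) - r ζ χ₀)
    (hK ▸ isCompact_closedBall _ _) (hK ▸ convex_closedBall _ _)
    (hK ▸ Metric.nonempty_closedBall.2 zero_le_one)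
    ((continuousOn_const.add ((hratioC.comp_continuousOn (continuousOn_pi.2 hrc)).clog
      fun ζ hζ => (hη' _ (hrb ζ hζ)).1)).sub (hrc χ₀)) fun ζ hζ => by
      rw [hK, Metric.mem_closedBall, dist_eq_norm,
        show W₀ + log (ratio (r ζ)) - r ζ χ₀ - W₀ = log (ratio (r ζ)) - r ζ χ₀ by ring]
      exact (hη' _ (hrb ζ hζ)).2
  obtain ⟨L', hL'⟩ : ∃ L' : DirichletCharacter ℂ q → ℂ, L' = fun χ => exp (wv ζ χ + r ζ χ) :=
    ⟨_, rfl⟩
  have hzero : ∑ χ, c χ * L' χ = 0 := by
    rw [← add_sum_erase _ _ (mem_univ χ₀), ← hS, hL']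
    simp only
    have e0 : exp (wv ζ χ₀ + r ζ χ₀) = Q₀ * ratio (r ζ) := by
      simp only [hwv, Function.update_self]
      rw [show ζ + r ζ χ₀ = W₀ + log (ratio (r ζ)) by linear_combination -hfix]
      rw [exp_add, hW₀, exp_log hQ₀0,
        exp_log (slitPlane_ne_zero (hη' _ (hrb ζ hζ)).1)]
    rw [e0, hratio]
    simp only
    rw [mul_div_cancel₀ _ hQ₀0, mul_div_cancel₀ _ h0, neg_add_eq_zero]
    refine sum_congr rfl fun χ hχ => ?_
    rw [hwv]
    simp only [Function.update_of_ne (ne_of_mem_erase (hS ▸ hχ))]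
  -- the twist
  obtain ⟨Λ, hΛ⟩ := exists_linear_log_primes fun p => (phaseOf σ y (Z ζ) p).arg
  obtain ⟨tw, htw⟩ : ∃ tw : ℕ → ℂ, tw = fun n => exp ((Λ (natLog' n) : ℝ) * I) := ⟨_, rfl⟩
  refine ⟨σ, tw, hσ1, hσδ, fun n => htw ▸ norm_exp_ofReal_mul_I _,
    approachable_of_linear fun _ => ⟨Λ, fun n _ => by rw [htw]⟩, ?_⟩
  obtain ⟨F, hF⟩ : ∃ F : DirichletCharacter ℂ q → (ℕ →*₀ ℂ), ∀ χ n, F χ n =
      if n = 0 then 0 else χ n * exp ((Λ (Real.log n) : ℝ) * I) * (powWt σ n : ℂ) := by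
    refine ⟨fun χ =>
      { toFun := fun n =>
          if n = 0 then 0 else χ n * exp ((Λ (Real.log n) : ℝ) * I) * (powWt σ n : ℂ)
        map_zero' := if_pos rfl
        map_one' := by simp [powWt]
        map_mul' := fun m n => ?_ }, fun χ n => rfl⟩
    rcases eq_or_ne m 0 with rfl | hm
    · simp
    rcases eq_or_ne n 0 with rfl | hn
    · simp
    rw [if_neg hm, if_neg hn, if_neg (mul_ne_zero hm hn)]
    simp only [Nat.cast_mul, map_mul, powWt,
      Real.log_mul (Nat.cast_ne_zero.2 hm) (Nat.cast_ne_zero.2 hn), map_add,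
      Real.mul_rpow (Nat.cast_nonneg m) (Nat.cast_nonneg n), mul_inv]
    push_cast
    rw [add_mul, exp_add]
    ring
  have hFs : ∀ χ, Summable fun n => ‖F χ n‖ := fun χ =>
    Summable.of_nonneg_of_le (fun n => norm_nonneg _) (fun n => by
      rw [hF]
      split_ifs
      · rw [norm_zero]; exact powWt_nonneg σ n
      · rw [norm_mul, norm_mul, norm_exp_ofReal_mul_I, mul_one, Complex.norm_real,
          Real.norm_of_nonneg (powWt_nonneg σ n)]
        exact mul_le_of_le_one_left (powWt_nonneg σ n) (χ.norm_le_one _)) (summable_powWt hσ1)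
  have hFL : ∀ χ, ∑' n, F χ n = L' χ := by
    intro χ
    rw [← EulerProduct.exp_tsum_primes_log_eq_tsum (hFs χ), hL']
    refine congrArg exp (Eq.trans ?_ (hlogsum ζ hζ χ).tsum_eq)
    rw [← tsum_subtype_eq_of_support_subset (s := {n : ℕ | n.Prime}) (f := term' ζ χ) ?_]
    · refine tsum_congr fun p => ?_
      rw [hterm']
      simp only [if_pos (show Nat.Prime (p : ℕ) from p.2), hF,
        if_neg (show Nat.Prime (p : ℕ) from p.2).ne_zero]
      rw [hΛ ⟨p, p.2⟩]
      have := Complex.norm_mul_exp_arg_mul_I (phaseOf σ y (Z ζ) (p : ℕ))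
      rw [norm_phaseOf (hreach ζ hζ), ofReal_one, one_mul] at this
      rw [this]
    · intro n hn
      rw [Function.mem_support, hterm'] at hn
      by_contra h
      exact hn (if_neg h)
  have hterm : ∀ n, term (combCoef c) natLog' tw σ n = ∑ χ, c χ * F χ (n + 1) := by
    intro n
    rw [term, htw, combCoef, sum_mul, sum_mul]
    refine sum_congr rfl fun χ _ => ?_
    rw [hF, if_neg (Nat.succ_ne_zero n), natLog', ← exp_natLog' σ n, natLog', Complex.ofReal_exp]
    simp only [natLog']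
    push_cast
    ring_nf
  rw [twSeries, tsum_congr hterm, Summable.tsum_finsetSum (fun χ _ =>
    (((summable_nat_add_iff 1).2 (hFs χ)).of_norm).mul_left _)]
  rw [← hzero]
  refine sum_congr rfl fun χ _ => ?_
  rw [tsum_mul_left, ← hFL χ, (hFs χ).of_norm.tsum_eq_zero_add, hF χ 0, if_pos rfl, zero_add]

end FA.CasselsHurwitz
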