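import Fermat.Agent.RichertValues.Sieve
import Fermat.Agent.PrimesMinusOne.TotientSum
import Mathlib.NumberTheory.Chebyshev
import Mathlib.FieldTheory.Perfect

/-!
# Cassels' lemma: most values of a polynomial have a large prime factor

For an irreducible `f` of degree at least two, more than half of the `n` in a short interval
`(M, M + M / L]` have a prime factor of `f n` above `K M`. The primes up to `K M` carry at most
`(1 + o(1)) N log M` of `∑ log |f n|` (Mertens for the roots of `f`), and by the second moment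
almost every `n` has a share in it.
-/

set_option autoImplicit false

noncomputable section

namespace FA.CasselsHurwitz

open Finset Filter Polynomial
open FA.RichertValues
open scoped Topology

variable {f : ℤ[X]}

/-- A nonzero integer combination of `f` and its derivative. -/
theorem exists_bezout (hirr : Irreducible f) (hd : 0 < f.natDegree) :
    ∃ (u v : ℤ[X]) (R : ℕ), 0 < R ∧
      ∀ n : ℤ, u.eval n * f.eval n + v.eval n * f.derivative.eval n = R := by
  have hp : f.IsPrimitive := hirr.isPrimitive hd.ne'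
  have hq : Irreducible (f.map (Int.castRingHom ℚ)) :=
    (IsPrimitive.Int.irreducible_iff_irreducible_map_cast hp).1 hirr
  obtain ⟨a, b, hab⟩ := hq.separable
  obtain ⟨⟨s, hs⟩, hsa⟩ := IsLocalization.integerNormalization_map_to_map (nonZeroDivisors ℤ) a
  obtain ⟨⟨t, ht⟩, htb⟩ := IsLocalization.integerNormalization_map_to_map (nonZeroDivisors ℤ) b
  obtain ⟨A, hA⟩ : ∃ A, A = IsLocalization.integerNormalization (nonZeroDivisors ℤ) a := ⟨_, rfl⟩
  obtain ⟨B, hB⟩ : ∃ B, B = IsLocalization.integerNormalization (nonZeroDivisors ℤ) b := ⟨_, rfl⟩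
  simp only [← hA] at hsa
  simp only [← hB] at htb
  have hst : s * t ≠ 0 := mul_ne_zero (nonZeroDivisors.ne_zero hs) (nonZeroDivisors.ne_zero ht)
  have key : C t * A * f + C s * B * f.derivative = C (s * t) := by
    refine Polynomial.map_injective (Int.castRingHom ℚ) (RingHom.injective_int _) ?_
    simp only [Polynomial.map_add, Polynomial.map_mul, map_C, ← derivative_map]
    rw [show (Int.castRingHom ℚ) = algebraMap ℤ ℚ from rfl] at hab ⊢
    rw [hsa, htb]
    simp only [Algebra.smul_def, IsScalarTower.algebraMap_apply ℤ ℚ ℚ[X],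
      Polynomial.algebraMap_eq, map_mul]
    linear_combination (C (algebraMap ℤ ℚ s) * C (algebraMap ℤ ℚ t)) * hab
  have hev : ∀ n : ℤ, t * A.eval n * f.eval n + s * B.eval n * f.derivative.eval n = s * t :=
    fun n => by simpa using congrArg (Polynomial.eval n) key
  refine ⟨C ((s * t).sign) * C t * A, C ((s * t).sign) * C s * B, (s * t).natAbs,
    Int.natAbs_pos.2 hst, fun n => ?_⟩
  simp only [eval_mul, eval_C]
  rw [← Int.sign_mul_self_eq_natAbs, ← hev n]
  ring

theorem rootMod_prime_le (hirr : Irreducible f) (hd : 0 < f.natDegree) {p : ℕ} (hp : p.Prime) :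
    rootMod f p ≤ f.natDegree := by
  haveI : Fact p.Prime := ⟨hp⟩
  have h0 : f.map (Int.castRingHom (ZMod p)) ≠ 0 := fun h => by
    have hdvd : C (p : ℤ) ∣ f := C_dvd_iff_dvd_coeff _ _ |>.2 fun i => by
      have := congrArg (fun g => g.coeff i) h
      simp only [coeff_map, coeff_zero, eq_intCast] at this
      exact (ZMod.intCast_zmod_eq_zero_iff_dvd _ _).1 this
    have hu := hirr.isPrimitive hd.ne' _ hdvd
    exact hp.ne_one (by simpa using Int.isUnit_iff_natAbs_eq.1 hu)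
  rw [rootMod_prime_eq_card_roots f h0]
  exact (Multiset.toFinset_card_le _).trans ((card_roots' _).trans natDegree_map_le)

/-- **The roots modulo prime powers are bounded.** -/
theorem exists_rootMod_pow_le (hirr : Irreducible f) (hd : 0 < f.natDegree) :
    ∃ Q : ℕ, ∀ p : ℕ, p.Prime → ∀ k : ℕ, rootMod f (p ^ k) ≤ Q := by
  classical
  obtain ⟨u, v, R, hR, hbez⟩ := exists_bezout hirr hd
  refine ⟨R ^ 3 + f.natDegree + 1, fun p hp k => ?_⟩
  rcases Nat.eq_zero_or_pos k with rfl | hk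
  · simp [rootMod_one]
  obtain ⟨e, he, he'⟩ : ∃ e, p ^ e ∣ R ∧ ¬p ^ (e + 1) ∣ R :=
    ⟨R.factorization p, Nat.ordProj_dvd R p, Nat.pow_succ_factorization_not_dvd hR.ne' hp⟩
  have hpe : p ^ e ≤ R := Nat.le_of_dvd hR he
  rcases lt_or_ge e k with hek | hek
  swap
  · refine le_trans ((card_filter_le _ _).trans (card_range _).le) ?_
    have : R ≤ R ^ 3 := Nat.le_self_pow three_ne_zero R
    have := Nat.pow_le_pow_right hp.pos hek
    omega
  have hclose : ∀ x y : ℤ, ((p ^ k : ℕ) : ℤ) ∣ f.eval x → ((p ^ k : ℕ) : ℤ) ∣ f.eval y →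
      ((p ^ (e + 1) : ℕ) : ℤ) ∣ y - x → ((p ^ (k - e) : ℕ) : ℤ) ∣ y - x := by
    intro x y hx hy hxy
    obtain ⟨w, hw⟩ := Polynomial.binomExpansion f x (y - x)
    rw [add_sub_cancel] at hw
    obtain ⟨g, hg⟩ : ∃ g, g = f.derivative.eval x + w * (y - x) := ⟨_, rfl⟩
    have hmul : ((p ^ k : ℕ) : ℤ) ∣ (y - x) * g := by
      have : (y - x) * g = f.eval y - f.eval x := by rw [hw, hg]; ring
      exact this ▸ dvd_sub hy hx
    have hng : ¬((p ^ (e + 1) : ℕ) : ℤ) ∣ g := fun hdvd => he' (Int.natCast_dvd_natCast.1 (by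
      rw [← hbez x]
      have h' : f.derivative.eval x = g - w * (y - x) := by rw [hg]; ring
      rw [h']
      exact dvd_add (((Int.natCast_dvd_natCast.2 (pow_dvd_pow p hek)).trans hx).mul_left _)
        ((dvd_sub hdvd (hxy.mul_left _)).mul_left _)))
    rw [Int.natCast_dvd]
    rw [Int.natCast_dvd, Int.natAbs_mul] at hmul
    rw [Int.natCast_dvd] at hng
    rcases eq_or_ne (y - x).natAbs 0 with h0 | h0
    · rw [h0]
      exact dvd_zero _
    have hg0 : g.natAbs ≠ 0 := fun h => hng (h ▸ dvd_zero _)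
    rw [hp.pow_dvd_iff_le_factorization (mul_ne_zero h0 hg0), Nat.factorization_mul h0 hg0] at hmul
    rw [hp.pow_dvd_iff_le_factorization hg0] at hng
    rw [hp.pow_dvd_iff_le_factorization h0]
    simp only [Finsupp.coe_add, Pi.add_apply] at hmul
    omega
  rcases Nat.eq_zero_or_pos e with rfl | he0
  · have hle : rootMod f (p ^ k) ≤ rootMod f p := by
      refine card_le_card_of_injOn (fun x => x % p) (fun x hx => ?_) fun x hx y hy hxy => ?_
      · simp only [coe_filter, Set.mem_ofPred_eq, mem_range] at hx ⊢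
        refine ⟨Nat.mod_lt _ hp.pos, ?_⟩
        have h1 : (p : ℤ) ∣ f.eval (x : ℤ) :=
          (Int.natCast_dvd_natCast.2 (dvd_pow_self p hk.ne')).trans hx.2
        have h2 : (p : ℤ) ∣ f.eval ((x % p : ℕ) : ℤ) - f.eval (x : ℤ) := by
          refine dvd_trans ?_ (sub_dvd_eval_sub _ _ f)
          refine ⟨-((x / p : ℕ) : ℤ), ?_⟩
          have : (p : ℤ) * ((x / p : ℕ) : ℤ) + ((x % p : ℕ) : ℤ) = x := by
            exact_mod_cast Nat.div_add_mod x p
          linear_combination this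
        simpa using dvd_add h2 h1
      · simp only [coe_filter, Set.mem_ofPred_eq, mem_range] at hx hy
        simp only at hxy
        have h1 : ((p ^ (0 + 1) : ℕ) : ℤ) ∣ (y : ℤ) - x := by
          rw [zero_add, pow_one]
          exact Nat.modEq_iff_dvd.1 hxy
        have h2 := Nat.modEq_iff_dvd.2 (hclose x y hx.2 hy.2 h1)
        rw [Nat.sub_zero] at h2
        exact h2.eq_of_lt_of_lt hx.1 hy.1
    have := rootMod_prime_le hirr hd hp
    omega
  have hle : rootMod f (p ^ k) ≤ p ^ (e + 1) * p ^ e := by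
    refine le_trans (card_le_card_of_injOn (t := range (p ^ (e + 1)) ×ˢ range (p ^ e))
      (fun x => (x % p ^ (e + 1), x / p ^ (k - e))) (fun x hx => ?_) fun x hx y hy hxy => ?_)
      (by simp)
    · simp only [coe_filter, Set.mem_ofPred_eq, mem_range] at hx
      simp only [coe_product, Set.mem_prod, mem_coe, mem_range]
      refine ⟨Nat.mod_lt _ (pow_pos hp.pos _), (Nat.div_lt_iff_lt_mul (pow_pos hp.pos _)).2 ?_⟩
      rw [← pow_add, show e + (k - e) = k by omega]
      exact hx.1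
    · simp only [coe_filter, Set.mem_ofPred_eq, mem_range] at hx hy
      simp only [Prod.mk.injEq] at hxy
      have h2 : x % p ^ (k - e) = y % p ^ (k - e) :=
        Nat.modEq_iff_dvd.2 (hclose x y hx.2 hy.2 (Nat.modEq_iff_dvd.1 hxy.1))
      rw [← Nat.div_add_mod x (p ^ (k - e)), ← Nat.div_add_mod y (p ^ (k - e)), h2, hxy.2]
  refine hle.trans (le_trans ?_ (Nat.le_add_right _ (f.natDegree + 1)))
  rw [pow_succ]
  calc p ^ e * p * p ^ e ≤ R * R * R :=
        Nat.mul_le_mul (Nat.mul_le_mul hpe ((Nat.le_self_pow he0.ne' p).trans hpe)) hpe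
    _ = R ^ 3 := by ring

/-- Mertens' first theorem, from above. -/
theorem sum_log_div_primes_le (n : ℕ) :
    ∑ p ∈ (Icc 1 n).filter Nat.Prime, Real.log p / p ≤ Real.log n + 6 := by
  rcases Nat.eq_zero_or_pos n with rfl | hn
  · simp
  refine le_trans (le_trans (le_of_eq (sum_congr rfl fun p hp => ?_))
    (sum_le_sum_of_subset_of_nonneg (f := fun d => ArithmeticFunction.vonMangoldt d / d)
      (filter_subset _ _) fun d _ _ => div_nonneg ArithmeticFunction.vonMangoldt_nonneg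
        (Nat.cast_nonneg _))) ?_
  · rw [ArithmeticFunction.vonMangoldt_apply_prime (mem_filter.1 hp).2]
  have h := (abs_le.1 (FA.PrimesMinusOne.abs_sum_vonMangoldt_div_sub_le hn)).2
  rw [show Icc 1 n = Ioc 0 n from Finset.Icc_add_one_left_eq_Ioc 0 n]
  linarith

/-- **Mertens' first theorem for the roots, from above.** -/
theorem eventually_sum_rootDensity_log_le (hirr : Irreducible f) (hd : 0 < f.natDegree) {ε : ℝ}
    (hε : 0 < ε) : ∀ᶠ x : ℕ in atTop,
      ∑ p ∈ (Icc 1 x).filter Nat.Prime, rootDensity f p * Real.log p ≤ (1 + ε) * Real.log x := by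
  obtain ⟨d, hdd⟩ : ∃ d : ℝ, d = f.natDegree := ⟨_, rfl⟩
  have hd0 : 0 ≤ d := hdd ▸ Nat.cast_nonneg _
  obtain ⟨K, hK⟩ := exists_nat_ge (max 1 (4 * (d + 2) / ε))
  have hK1 : (1 : ℝ) ≤ K := (le_max_left _ _).trans hK
  have hKε : 4 * (d + 2) / ε ≤ K := (le_max_right _ _).trans hK
  obtain ⟨J, hJ⟩ : ∃ J : ℕ, J = K * K := ⟨_, rfl⟩
  have hJR : (J : ℝ) = K * K := by rw [hJ]; push_cast; rfl
  have hJ1 : (1 : ℝ) ≤ J := by rw [hJR]; nlinarith
  obtain ⟨δ, hδ⟩ : ∃ δ, δ = ε / (4 * (J + 1)) := ⟨_, rfl⟩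
  have hδ0 : 0 < δ := hδ ▸ by positivity
  obtain ⟨w, hw8, hw⟩ := exists_sum_rootDensity_le hirr hd hδ0
  filter_upwards [Real.tendsto_log_atTop.comp tendsto_natCast_atTop_atTop |>.eventually_ge_atTop
    (max (J * Real.log w) (24 * d / ε + 1)), eventually_ge_atTop 2] with x hx hx2
  simp only [Function.comp_apply] at hx
  have hxw : J * Real.log w ≤ Real.log x := (le_max_left _ _).trans hx
  have hx24 : 24 * d / ε + 1 ≤ Real.log x := (le_max_right _ _).trans hx
  obtain ⟨l, hl⟩ : ∃ l : ℝ, l = Real.log x / J := ⟨_, rfl⟩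
  have hlogx : 0 < Real.log x := Real.log_pos (by exact_mod_cast hx2)
  have hl0 : 0 < l := hl ▸ by positivity
  have hlw : Real.log w ≤ l := by rw [hl, le_div_iff₀ (by positivity)]; linarith
  obtain ⟨T, hT⟩ : ∃ T, T = (Icc 1 x).filter Nat.Prime := ⟨_, rfl⟩
  have hmap : ∀ p ∈ T, ⌊Real.log p / l⌋₊ ∈ range (J + 1) := by
    intro p hp
    rw [hT, mem_filter, mem_Icc] at hp
    rw [mem_range, Nat.lt_succ_iff]
    refine Nat.floor_le_of_le ?_
    rw [div_le_iff₀ hl0, hl, mul_div_cancel₀ _ (by positivity)]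
    exact Real.log_le_log (Nat.cast_pos.2 hp.2.pos) (Nat.cast_le.2 hp.1.2)
  rw [← hT, ← sum_fiberwise_of_maps_to hmap, Finset.sum_range_succ']
  have hrest : ∀ j ∈ range J,
      ∑ p ∈ T.filter (fun (p : ℕ) => ⌊Real.log p / l⌋₊ = j + 1), rootDensity f p * Real.log p ≤
        l * (1 + ((j : ℝ) + 1)⁻¹ + (J + 1) * δ) := by
    intro j hj
    obtain ⟨i, hi⟩ : ∃ i : ℝ, i = (j : ℝ) + 1 := ⟨_, rfl⟩
    have hi1 : 1 ≤ i := by
      have : (0 : ℝ) ≤ j := Nat.cast_nonneg _
      linarith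
    have hiJ : i ≤ J := by
      rw [hi]
      exact_mod_cast Nat.succ_le_of_lt (mem_range.1 hj)
    have hmem : ∀ p ∈ T.filter (fun (p : ℕ) => ⌊Real.log p / l⌋₊ = j + 1), p.Prime ∧
        i * l ≤ Real.log p ∧ Real.log p < (i + 1) * l := by
      intro p hp
      rw [hT, mem_filter, mem_filter] at hp
      have h0 : 0 ≤ Real.log p / l := by
        have := Real.log_natCast_nonneg p
        positivity
      obtain ⟨h1, h2⟩ := (Nat.floor_eq_iff h0).1 hp.2
      push_cast at h1 h2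
      refine ⟨hp.1.2, ?_, ?_⟩
      · rw [le_div_iff₀ hl0] at h1
        linarith [hi ▸ h1]
      · rw [div_lt_iff₀ hl0] at h2
        rw [hi]
        linarith
    have hsum := hw (T.filter fun (p : ℕ) => ⌊Real.log p / l⌋₊ = j + 1) (Real.exp (i * l))
      (Real.exp ((i + 1) * l)) (by
        refine le_trans ?_ (Real.exp_le_exp.2 ((hlw.trans (le_mul_of_one_le_left hl0.le hi1))))
        rw [Real.exp_log (by linarith)])
      (Real.exp_le_exp.2 (by nlinarith)) fun p hp => by
        obtain ⟨hpp, h1, h2⟩ := hmem p hp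
        have hp0 : (0 : ℝ) < p := Nat.cast_pos.2 hpp.pos
        exact ⟨hpp, (Real.le_log_iff_exp_le hp0).1 h1, (Real.log_lt_iff_lt_exp hp0).1 h2⟩
    rw [Real.log_exp, Real.log_exp, ← Real.log_div (by positivity) (by positivity),
      mul_div_mul_right _ _ hl0.ne'] at hsum
    have hlog : Real.log ((i + 1) / i) ≤ i⁻¹ := by
      refine (Real.log_le_sub_one_of_pos (by positivity)).trans (le_of_eq ?_)
      field_simp
      ring
    calc ∑ p ∈ T.filter (fun (p : ℕ) => ⌊Real.log p / l⌋₊ = j + 1), rootDensity f p * Real.log p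
        ≤ ∑ p ∈ T.filter (fun (p : ℕ) => ⌊Real.log p / l⌋₊ = j + 1),
            rootDensity f p * ((i + 1) * l) :=
          sum_le_sum fun p hp =>
            mul_le_mul_of_nonneg_left (hmem p hp).2.2.le (rootDensity_nonneg f p)
      _ ≤ (i⁻¹ + δ) * ((i + 1) * l) := by
          rw [← sum_mul]
          exact mul_le_mul_of_nonneg_right (by linarith) (by positivity)
      _ = l * (1 + i⁻¹ + (i + 1) * δ) := by field_simp
      _ ≤ _ := by
          rw [← hi]
          refine mul_le_mul_of_nonneg_left ?_ hl0.le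
          nlinarith
  have hzero : ∑ p ∈ T.filter (fun (p : ℕ) => ⌊Real.log p / l⌋₊ = 0), rootDensity f p * Real.log p ≤
      d * (l + 6) := by
    obtain ⟨y, hy⟩ : ∃ y : ℕ, y = ⌊Real.exp l⌋₊ := ⟨_, rfl⟩
    calc ∑ p ∈ T.filter (fun (p : ℕ) => ⌊Real.log p / l⌋₊ = 0), rootDensity f p * Real.log p
        ≤ ∑ p ∈ (Icc 1 y).filter Nat.Prime, d * (Real.log p / p) := by
          refine (sum_le_sum fun p hp => ?_).trans (sum_le_sum_of_subset_of_nonneg (fun p hp => ?_)
            fun p _ _ => mul_nonneg hd0 (by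
              have := Real.log_natCast_nonneg p
              positivity))
          · rw [hT, mem_filter, mem_filter] at hp
            rw [rootDensity_apply f hp.1.2.ne_zero, div_mul_eq_mul_div, ← mul_div_assoc]
            gcongr
            exact hdd ▸ Nat.cast_le.2 (rootMod_prime_le hirr hd hp.1.2)
          · rw [hT, mem_filter, mem_filter] at hp
            refine mem_filter.2 ⟨mem_Icc.2 ⟨hp.1.2.one_le, hy ▸ Nat.le_floor ?_⟩, hp.1.2⟩
            have h := Nat.floor_eq_zero.1 hp.2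
            rw [div_lt_one hl0, Real.log_lt_iff_lt_exp (Nat.cast_pos.2 hp.1.2.pos)] at h
            exact h.le
      _ ≤ d * (l + 6) := by
          rw [← mul_sum]
          refine mul_le_mul_of_nonneg_left ((sum_log_div_primes_le y).trans ?_) hd0
          have hy1 : 1 ≤ y := hy ▸ Nat.le_floor (by push_cast; exact Real.one_le_exp hl0.le)
          have hyl : (y : ℝ) ≤ Real.exp l := hy ▸ Nat.floor_le (Real.exp_pos _).le
          have := (Real.log_le_iff_le_exp (by exact_mod_cast hy1)).2 hyl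
          linarith
  have hH : ∑ j ∈ range J, ((j : ℝ) + 1)⁻¹ ≤ 2 * K := by
    rw [← sum_filter_add_sum_filter_not (range J) (fun j => j < K), two_mul]
    refine add_le_add ?_ ?_
    · calc ∑ j ∈ (range J).filter (fun j => j < K), ((j : ℝ) + 1)⁻¹
          ≤ ∑ j ∈ (range J).filter (fun j => j < K), (1 : ℝ) :=
            sum_le_sum fun j _ => inv_le_one_of_one_le₀ (by
              have : (0 : ℝ) ≤ j := Nat.cast_nonneg _
              linarith)
        _ ≤ K := by
            rw [sum_const, nsmul_eq_mul, mul_one]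
            exact_mod_cast (card_le_card (fun j hj => mem_range.2 (mem_filter.1 hj).2)).trans
              (card_range K).le
    · calc ∑ j ∈ (range J).filter (fun j => ¬j < K), ((j : ℝ) + 1)⁻¹
          ≤ ∑ j ∈ (range J).filter (fun j => ¬j < K), (K : ℝ)⁻¹ :=
            sum_le_sum fun j hj => inv_anti₀ (by linarith) (by
              have := not_lt.1 (mem_filter.1 hj).2
              have : (K : ℝ) ≤ j := Nat.cast_le.2 this
              linarith)
        _ ≤ J * (K : ℝ)⁻¹ := by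
            rw [sum_const, nsmul_eq_mul]
            exact mul_le_mul_of_nonneg_right
              (Nat.cast_le.2 ((card_filter_le _ _).trans (card_range J).le)) (by positivity)
        _ = K := by rw [hJR]; field_simp
  refine (add_le_add (sum_le_sum hrest) hzero).trans ?_
  rw [← mul_sum, sum_add_distrib, sum_add_distrib, sum_const, sum_const, card_range, nsmul_eq_mul,
    nsmul_eq_mul]
  have hlJ : l * J = Real.log x := by rw [hl, div_mul_cancel₀ _ (by positivity)]
  have hδJ : (J + 1 : ℝ) * δ = ε / 4 := by rw [hδ]; field_simp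
  have hlK : l * (d + 2 * K) ≤ ε / 4 * Real.log x := by
    rw [← hlJ]
    have h4 : 4 * (d + 2) ≤ ε * K := by rw [div_le_iff₀ hε] at hKε; linarith
    have h1 : d + 2 * K ≤ (d + 2) * K := by nlinarith
    have h2 : 4 * (d + 2) * K ≤ ε * K * K := mul_le_mul_of_nonneg_right h4 (by linarith)
    have h3 : d + 2 * K ≤ ε / 4 * J := by rw [hJR]; linarith
    calc l * (d + 2 * K) ≤ l * (ε / 4 * J) := mul_le_mul_of_nonneg_left h3 hl0.le
      _ = _ := by ring
  have h6 : 6 * d ≤ ε / 4 * Real.log x := by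
    have : 24 * d / ε ≤ Real.log x := by linarith
    rw [div_le_iff₀ hε] at this
    linarith
  rw [hδJ]
  have := mul_le_mul_of_nonneg_left hH hl0.le
  nlinarith

theorem abs_card_block_sub_le (f : ℤ[X]) {q : ℕ} (hq : 0 < q) (M N : ℕ) :
    |(((Ioc M (M + N)).filter fun n => q ∣ value f n).card : ℝ) - N * ((rootMod f q : ℝ) / q)| ≤
      2 * rootMod f q := by
  have h1 := abs_le.1 (abs_card_dvd_value_sub_le f hq (M + N + 1))
  have h2 := abs_le.1 (abs_card_dvd_value_sub_le f hq (M + 1))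
  have h3 : ((range (M + N + 1)).filter fun n => q ∣ value f n).card =
      ((range (M + 1)).filter fun n => q ∣ value f n).card +
        ((Ioc M (M + N)).filter fun n => q ∣ value f n).card := by
    rw [← card_union_of_disjoint]
    · congr 1
      ext n
      simp only [mem_union, mem_filter, mem_range, mem_Ioc]
      refine ⟨fun h => ?_, ?_⟩
      · rcases le_or_gt n M with h' | h'
        · exact Or.inl ⟨by omega, h.2⟩
        · exact Or.inr ⟨⟨h', by omega⟩, h.2⟩
      · rintro (h | h) <;> exact ⟨by omega, h.2⟩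
    · rw [Finset.disjoint_left]
      intro n hn hn'
      simp only [mem_filter, mem_range, mem_Ioc] at hn hn'
      omega
  rw [h3] at h1
  push_cast at h1 h2
  rw [abs_le]
  constructor <;> linarith [h1.1, h1.2, h2.1, h2.2]

/-- **The second moment.** -/
theorem card_no_prime_mul_le (hirr : Irreducible f) (hd : 0 < f.natDegree) (M N : ℕ) (P : Finset ℕ)
    (hP : ∀ p ∈ P, p.Prime) :
    (((Ioc M (M + N)).filter fun n => ∀ p ∈ P, ¬p ∣ value f n).card : ℝ) *
        (∑ p ∈ P, rootDensity f p) ^ 2 ≤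
      N * ∑ p ∈ P, rootDensity f p + 4 * (f.natDegree : ℝ) ^ 2 * (P.card : ℝ) ^ 2 *
        (1 + ∑ p ∈ P, rootDensity f p) := by
  obtain ⟨S, hS⟩ : ∃ S, S = ∑ p ∈ P, rootDensity f p := ⟨_, rfl⟩
  obtain ⟨d, hdd⟩ : ∃ d : ℝ, d = f.natDegree := ⟨_, rfl⟩
  have hd1 : 1 ≤ d := hdd ▸ Nat.one_le_cast.2 hd
  have hS0 : 0 ≤ S := hS ▸ sum_nonneg fun p _ => rootDensity_nonneg f p
  rw [← hS, ← hdd]
  obtain ⟨I, hI⟩ : ∃ I : ℕ → ℕ → ℝ, I = fun p n => if p ∣ value f n then 1 else 0 := ⟨_, rfl⟩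
  have hone : ∀ p ∈ P, |∑ n ∈ Ioc M (M + N), I p n - N * rootDensity f p| ≤ 2 * d := by
    intro p hp
    rw [hI, sum_boole, rootDensity_apply f (hP p hp).ne_zero]
    refine (abs_card_block_sub_le f (hP p hp).pos M N).trans ?_
    exact mul_le_mul_of_nonneg_left (hdd ▸ Nat.cast_le.2 (rootMod_prime_le hirr hd (hP p hp)))
      zero_le_two
  have htwo : ∀ p ∈ P, ∀ q ∈ P, p ≠ q →
      ∑ n ∈ Ioc M (M + N), I p n * I q n ≤ N * (rootDensity f p * rootDensity f q) + 2 * d ^ 2 := by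
    intro p hp q hq hpq
    have hcop : p.Coprime q := (Nat.coprime_primes (hP p hp) (hP q hq)).2 hpq
    have e : ∀ n, I p n * I q n = if p * q ∣ value f n then (1 : ℝ) else 0 := fun n => by
      rw [hI, ite_zero_mul_ite_zero, one_mul]
      exact if_congr ⟨fun h => hcop.mul_dvd_of_dvd_of_dvd h.1 h.2,
        fun h => ⟨(dvd_mul_right p q).trans h, (dvd_mul_left q p).trans h⟩⟩ rfl rfl
    rw [sum_congr rfl fun n _ => e n, sum_boole]
    have h := (abs_le.1 (abs_card_block_sub_le f (Nat.mul_pos (hP p hp).pos (hP q hq).pos) M N)).2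
    rw [rootMod_mul f hcop (hP p hp).pos (hP q hq).pos] at h
    rw [rootDensity_apply f (hP p hp).ne_zero, rootDensity_apply f (hP q hq).ne_zero,
      div_mul_div_comm]
    have h2 : ((rootMod f p * rootMod f q : ℕ) : ℝ) ≤ d ^ 2 := by
      rw [sq, Nat.cast_mul, hdd]
      exact mul_le_mul (Nat.cast_le.2 (rootMod_prime_le hirr hd (hP p hp)))
        (Nat.cast_le.2 (rootMod_prime_le hirr hd (hP q hq))) (Nat.cast_nonneg _) (Nat.cast_nonneg _)
    push_cast at h h2
    linarith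
  have hpair : ∀ p ∈ P, ∑ q ∈ P, ∑ n ∈ Ioc M (M + N), I p n * I q n ≤
      N * rootDensity f p * (1 + S) + P.card * (2 * d ^ 2) := by
    intro p hp
    calc ∑ q ∈ P, ∑ n ∈ Ioc M (M + N), I p n * I q n
        ≤ ∑ q ∈ P, ((if q = p then N * rootDensity f p else 0) +
            (N * (rootDensity f p * rootDensity f q) + 2 * d ^ 2)) := by
          refine sum_le_sum fun q hq => ?_
          rcases eq_or_ne q p with rfl | hne
          · rw [if_pos rfl, sum_congr rfl fun n _ => show I q n * I q n = I q n by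
              rw [hI]; dsimp only; split <;> simp]
            have := (abs_le.1 (hone q hq)).2
            have : (0 : ℝ) ≤ N * (rootDensity f q * rootDensity f q) :=
              mul_nonneg (Nat.cast_nonneg _) (mul_self_nonneg _)
            nlinarith
          · rw [if_neg hne, zero_add]
            exact htwo p hp q hq hne.symm
      _ = _ := by
          rw [sum_add_distrib, sum_ite_eq' P p, if_pos hp, sum_add_distrib, ← mul_sum, ← mul_sum,
            ← hS, sum_const, nsmul_eq_mul]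
          ring
  have hmain : ∑ n ∈ Ioc M (M + N), (∑ p ∈ P, I p n - S) ^ 2 ≤
      N * S + 4 * d ^ 2 * (P.card : ℝ) ^ 2 * (1 + S) := by
    have hexp : ∑ n ∈ Ioc M (M + N), (∑ p ∈ P, I p n - S) ^ 2 =
        ∑ p ∈ P, ∑ q ∈ P, ∑ n ∈ Ioc M (M + N), I p n * I q n -
          2 * S * ∑ p ∈ P, ∑ n ∈ Ioc M (M + N), I p n + N * S ^ 2 := by
      simp only [sub_sq, sum_add_distrib, sum_sub_distrib, sum_const, Nat.card_Ioc,
        Nat.add_sub_cancel_left, nsmul_eq_mul]
      rw [sum_comm (s := P) (t := Ioc M (M + N)), mul_sum]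
      congr 2
      · simp only [sq, sum_mul_sum]
        rw [sum_comm]
        exact sum_congr rfl fun p _ => sum_comm
      · exact sum_congr rfl fun n _ => by ring
    have h1 := sum_le_sum hpair
    rw [sum_add_distrib, ← sum_mul, ← mul_sum, ← hS, sum_const, nsmul_eq_mul] at h1
    have h2 : (N : ℝ) * S - P.card * (2 * d) ≤ ∑ p ∈ P, ∑ n ∈ Ioc M (M + N), I p n := by
      have := sum_le_sum (s := P) fun p hp => (abs_le.1 (hone p hp)).1
      rw [sum_sub_distrib, ← mul_sum, ← hS, sum_const, nsmul_eq_mul] at this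
      linarith
    have h3 : (P.card : ℝ) ≤ (P.card : ℝ) ^ 2 := by
      exact_mod_cast Nat.le_self_pow two_ne_zero _
    rw [hexp]
    have h4 := mul_le_mul_of_nonneg_left h2 (show (0 : ℝ) ≤ 2 * S by linarith)
    have h5 : S * (P.card * d) ≤ S * ((P.card : ℝ) ^ 2 * d ^ 2) :=
      mul_le_mul_of_nonneg_left (mul_le_mul h3 (by nlinarith) (by linarith) (sq_nonneg _)) hS0
    have h6 : (0 : ℝ) ≤ (P.card : ℝ) ^ 2 * d ^ 2 := by positivity
    linarith
  refine le_trans (le_trans ?_ (sum_le_sum_of_subset_of_nonneg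
    (filter_subset (fun n => ∀ p ∈ P, ¬p ∣ value f n) _) fun n _ _ => sq_nonneg _)) hmain
  rw [sum_congr rfl fun n hn => show (∑ p ∈ P, I p n - S) ^ 2 = S ^ 2 by
    rw [sum_eq_zero fun p hp => ?_]
    · ring
    rw [hI]
    exact if_neg ((mem_filter.1 hn).2 p hp), sum_const, nsmul_eq_mul]

theorem value_bounds (hd : 0 < f.natDegree) : ∃ S : ℝ, 1 ≤ S ∧ ∀ n : ℕ, 2 * S ≤ n →
    (n : ℝ) ^ f.natDegree / 2 ≤ value f n ∧ (value f n : ℝ) ≤ S * (n : ℝ) ^ f.natDegree := by
  obtain ⟨d, hdd⟩ : ∃ d, d = f.natDegree := ⟨_, rfl⟩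
  obtain ⟨S, hS⟩ : ∃ S : ℝ, S = ∑ i ∈ range (d + 1), |(f.coeff i : ℝ)| := ⟨_, rfl⟩
  have hlc : (1 : ℝ) ≤ |(f.coeff d : ℝ)| := by
    have : f.coeff d ≠ 0 := by
      rw [hdd, ← leadingCoeff]
      exact leadingCoeff_ne_zero.2 fun h => by simp [h] at hd
    exact_mod_cast Int.one_le_abs this
  have hS' : S = ∑ i ∈ range d, |(f.coeff i : ℝ)| + |(f.coeff d : ℝ)| := by
    rw [hS, sum_range_succ]
  have hS1 : 1 ≤ S := by
    have : 0 ≤ ∑ i ∈ range d, |(f.coeff i : ℝ)| := sum_nonneg fun _ _ => abs_nonneg _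
    linarith
  refine ⟨S, hS1, fun n hn => ?_⟩
  have hn1 : (1 : ℝ) ≤ n := by linarith
  have hv : (value f n : ℝ) = |∑ i ∈ range (d + 1), (f.coeff i : ℝ) * (n : ℝ) ^ i| := by
    rw [value, Nat.cast_natAbs, Int.cast_abs, hdd, eval_eq_sum_range]
    push_cast
    rfl
  rw [← hdd, hv]
  have hpow : ∀ i ∈ range d, |(f.coeff i : ℝ) * (n : ℝ) ^ i| ≤
      |(f.coeff i : ℝ)| * (n : ℝ) ^ (d - 1) := fun i hi => by
    rw [abs_mul, abs_of_nonneg (show (0 : ℝ) ≤ (n : ℝ) ^ i by positivity)]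
    exact mul_le_mul_of_nonneg_left (pow_le_pow_right₀ hn1 (by have := mem_range.1 hi; omega))
      (abs_nonneg _)
  constructor
  · rw [sum_range_succ]
    have h1 := (abs_sum_le_sum_abs _ _).trans (sum_le_sum hpow)
    rw [← sum_mul] at h1
    have h2 : (∑ i ∈ range d, |(f.coeff i : ℝ)|) * (n : ℝ) ^ (d - 1) ≤ (n : ℝ) ^ d / 2 := by
      calc (∑ i ∈ range d, |(f.coeff i : ℝ)|) * (n : ℝ) ^ (d - 1)
          ≤ (n / 2) * (n : ℝ) ^ (d - 1) :=
            mul_le_mul_of_nonneg_right (by linarith) (by positivity)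
        _ = (n : ℝ) ^ d / 2 := by
            have e : (n : ℝ) ^ d = (n : ℝ) ^ (d - 1) * n := by
              rw [← pow_succ, show d - 1 + 1 = d by omega]
            rw [e]
            ring
    have h3 : (n : ℝ) ^ d ≤ |(f.coeff d : ℝ) * (n : ℝ) ^ d| := by
      rw [abs_mul, abs_of_nonneg (show (0 : ℝ) ≤ (n : ℝ) ^ d by positivity)]
      exact le_mul_of_one_le_left (by positivity) hlc
    have h4 := abs_add_le (∑ i ∈ range d, (f.coeff i : ℝ) * (n : ℝ) ^ i +
      (f.coeff d : ℝ) * (n : ℝ) ^ d) (-(∑ i ∈ range d, (f.coeff i : ℝ) * (n : ℝ) ^ i))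
    rw [add_neg_eq_iff_eq_add.2 (add_comm _ _), abs_neg] at h4
    linarith
  · refine (abs_sum_le_sum_abs _ _).trans ?_
    rw [hS, sum_mul]
    refine sum_le_sum fun i hi => ?_
    rw [abs_mul, abs_of_nonneg (show (0 : ℝ) ≤ (n : ℝ) ^ i by positivity)]
    exact mul_le_mul_of_nonneg_left (pow_le_pow_right₀ hn1 (by have := mem_range.1 hi; omega))
      (abs_nonneg _)

theorem eventually_primes_card_le (K : ℕ) (hK : 1 ≤ K) :
    ∀ᶠ M : ℕ in atTop, (((Icc 1 (K * M)).filter Nat.Prime).card : ℝ) ≤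
      4 * K * M / Real.log M := by
  have hcast : Tendsto (fun M : ℕ => ((K * M : ℕ) : ℝ)) atTop atTop :=
    tendsto_natCast_atTop_atTop.comp (tendsto_id.const_mul_atTop' (by omega))
  filter_upwards [hcast.eventually (Chebyshev.eventually_primeCounting_le one_pos),
    eventually_ge_atTop 2] with M hM hM2
  rw [Nat.floor_natCast] at hM
  have hcard : (((Icc 1 (K * M)).filter Nat.Prime).card : ℝ) = Nat.primeCounting (K * M) := by
    rw [Nat.primeCounting, Nat.primeCounting', Nat.count_eq_card_filter_range]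
    congr 2
    ext p
    simp only [mem_filter, mem_Icc, mem_range]
    exact ⟨fun h => ⟨by omega, h.2⟩, fun h => ⟨⟨h.2.one_le, by omega⟩, h.2⟩⟩
  rw [hcard]
  refine hM.trans ?_
  have h4 : Real.log 4 + 1 ≤ 4 := by
    have := Real.log_le_sub_one_of_pos (show (0 : ℝ) < 4 by norm_num)
    linarith
  have hM' : (2 : ℝ) ≤ M := by exact_mod_cast hM2
  have hK' : (1 : ℝ) ≤ K := by exact_mod_cast hK
  push_cast
  rw [← mul_assoc]
  refine div_le_div₀ (by positivity) ?_ (Real.log_pos (by linarith))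
    (Real.log_le_log (by linarith) (le_mul_of_one_le_left (by linarith) hK'))
  refine mul_le_mul_of_nonneg_right (mul_le_mul_of_nonneg_right h4 (by linarith)) (by linarith)

/-- **The logarithms of the small prime powers in the values.** -/
theorem eventually_small_part_le (hirr : Irreducible f) (hd : 0 < f.natDegree) {ε : ℝ} (hε : 0 < ε)
    {L K : ℕ} (hL : 1 ≤ L) (hK : 1 ≤ K) (d' : ℕ) :
    ∀ᶠ M : ℕ in atTop, ∀ B : ℕ, B ≤ M ^ d' →
      ∑ p ∈ (Icc 1 (K * M)).filter Nat.Prime, ∑ k ∈ Icc 1 (Nat.log p B),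
        (((Ioc M (M + M / L)).filter fun n => p ^ k ∣ value f n).card : ℝ) * Real.log p ≤
      (1 + ε) * (M / L : ℕ) * Real.log M := by
  obtain ⟨Q, hQ⟩ := exists_rootMod_pow_le hirr hd
  obtain ⟨S, hS⟩ : ∃ S : ℝ, S = ∑' n : ℕ, 2 * (n : ℝ) ^ (-(3 / 2) : ℝ) := ⟨_, rfl⟩
  have hsum : Summable fun n : ℕ => 2 * (n : ℝ) ^ (-(3 / 2) : ℝ) :=
    (Real.summable_nat_rpow.2 (by norm_num)).mul_left 2
  have hS0 : 0 ≤ S := hS ▸ tsum_nonneg fun n => by positivity
  obtain ⟨C, hC⟩ : ∃ C : ℝ,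
      C = (1 + ε / 2) * Real.log K + 2 * Q * S + 2 * L * (2 * Q * (4 * K * d')) := ⟨_, rfl⟩
  have hCε : ∀ᶠ M : ℕ in atTop, C ≤ ε / 2 * Real.log M :=
    ((Real.tendsto_log_atTop.comp tendsto_natCast_atTop_atTop).const_mul_atTop
      (half_pos hε)).eventually_ge_atTop C
  filter_upwards [(tendsto_id.const_mul_atTop' (show 0 < K by omega)).eventually
      (eventually_sum_rootDensity_log_le hirr hd (half_pos hε)),
    eventually_primes_card_le K hK, hCε, eventually_ge_atTop (2 * L)] with M h1 h2 h3 h4 B hB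
  simp only [id_eq] at h1
  obtain ⟨N, hN⟩ : ∃ N : ℕ, N = M / L := ⟨_, rfl⟩
  rw [← hN]
  have hMN : M ≤ 2 * L * N := by
    have h5 := Nat.lt_mul_div_succ M (show 0 < L by omega)
    have h6 : 1 ≤ M / L := (Nat.one_le_div_iff (by omega)).2 (by omega)
    rw [hN]
    nlinarith
  obtain ⟨P, hP⟩ : ∃ P, P = (Icc 1 (K * M)).filter Nat.Prime := ⟨_, rfl⟩
  rw [← hP] at h1 h2 ⊢
  have hM2 : (2 : ℝ) ≤ M := by exact_mod_cast (show 2 ≤ M by omega)
  have hlogM : 0 < Real.log M := Real.log_pos (by linarith)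
  have hp : ∀ p ∈ P, ∑ k ∈ Icc 1 (Nat.log p B),
      (((Ioc M (M + N)).filter fun n => p ^ k ∣ value f n).card : ℝ) * Real.log p ≤
        N * (rootDensity f p * Real.log p) + 2 * Q * N * (2 * (p : ℝ) ^ (-(3 / 2) : ℝ)) +
          2 * Q * (d' * Real.log M) := by
    intro p hp
    have hpp := (mem_filter.1 (hP ▸ hp)).2
    have hp2 : (2 : ℝ) ≤ p := by exact_mod_cast hpp.two_le
    have hp0 : (0 : ℝ) < p := by linarith
    have hlogp : 0 ≤ Real.log p := Real.log_natCast_nonneg p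
    obtain ⟨J, hJ⟩ : ∃ J, J = Nat.log p B := ⟨_, rfl⟩
    rw [← hJ]
    have hterm : ∀ k ∈ Icc 1 J, (((Ioc M (M + N)).filter fun n => p ^ k ∣ value f n).card : ℝ) *
        Real.log p ≤ ((if k = 1 then N * rootDensity f p else 0) +
          (if k = 1 then 0 else (Q : ℝ) * N * ((p : ℝ)⁻¹) ^ k) + 2 * Q) * Real.log p := by
      intro k hk
      refine mul_le_mul_of_nonneg_right ?_ hlogp
      have h := (abs_le.1 (abs_card_block_sub_le f (pow_pos hpp.pos k) M N)).2
      have hr : (rootMod f (p ^ k) : ℝ) ≤ Q := Nat.cast_le.2 (hQ p hpp k)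
      split_ifs with hk1
      · subst hk1
        rw [pow_one] at h hr ⊢
        rw [rootDensity_apply f hpp.ne_zero]
        linarith
      · have h5 : (N : ℝ) * ((rootMod f (p ^ k) : ℝ) / ((p ^ k : ℕ) : ℝ)) ≤
            Q * N * ((p : ℝ)⁻¹) ^ k := by
          rw [inv_pow, Nat.cast_pow, div_eq_mul_inv, ← mul_assoc]
          refine mul_le_mul_of_nonneg_right ?_ (by positivity)
          rw [mul_comm (Q : ℝ)]
          exact mul_le_mul_of_nonneg_left hr (Nat.cast_nonneg _)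
        linarith
    refine (sum_le_sum hterm).trans ?_
    rw [← sum_mul, sum_add_distrib, sum_add_distrib, sum_const, Nat.card_Icc,
      Nat.add_sub_cancel, nsmul_eq_mul, add_mul, add_mul]
    refine add_le_add (add_le_add ?_ ?_) ?_
    · rw [sum_ite_eq' (Icc 1 J) 1, ← mul_assoc]
      split_ifs with hmem
      · exact le_rfl
      · rw [zero_mul]
        exact mul_nonneg (mul_nonneg (Nat.cast_nonneg _) (rootDensity_nonneg f p)) hlogp
    · have hgeom : ∑ k ∈ Icc 1 J, (if k = 1 then 0 else (Q : ℝ) * N * ((p : ℝ)⁻¹) ^ k) ≤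
          (Q : ℝ) * N * (2 * ((p : ℝ)⁻¹) ^ 2) := by
        have hx1 : (p : ℝ)⁻¹ ≤ 1 / 2 := by
          rw [one_div]
          exact inv_anti₀ two_pos hp2
        calc ∑ k ∈ Icc 1 J, (if k = 1 then 0 else (Q : ℝ) * N * ((p : ℝ)⁻¹) ^ k)
            = ∑ k ∈ (Icc 1 J).filter (fun k => ¬k = 1), (Q : ℝ) * N * ((p : ℝ)⁻¹) ^ k := by
              rw [sum_filter]
              exact sum_congr rfl fun k _ => by split_ifs <;> rfl
          _ ≤ ∑ k ∈ Finset.Ico 2 (J + 1), (Q : ℝ) * N * ((p : ℝ)⁻¹) ^ k :=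
              sum_le_sum_of_subset_of_nonneg (fun k hk => by
                simp only [mem_filter, mem_Icc] at hk
                simp only [mem_Ico]
                omega) fun k _ _ => by positivity
          _ = (Q : ℝ) * N * (((p : ℝ)⁻¹) ^ 2 *
                ∑ k ∈ range (J + 1 - 2), ((p : ℝ)⁻¹) ^ k) := by
              rw [sum_Ico_eq_sum_range, ← mul_sum, mul_sum _ _ (((p : ℝ)⁻¹) ^ 2)]
              exact congrArg _ (sum_congr rfl fun k _ => pow_add _ _ _)
          _ ≤ _ := by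
              refine mul_le_mul_of_nonneg_left ?_ (by positivity)
              rw [mul_comm (2 : ℝ)]
              refine mul_le_mul_of_nonneg_left ?_ (by positivity)
              have hg := geom_sum_Ico_le_of_lt_one (m := 0) (n := J + 1 - 2)
                (x := (p : ℝ)⁻¹) (by positivity) (by linarith)
              rw [pow_zero, ← range_eq_Ico] at hg
              refine hg.trans ?_
              rw [div_le_iff₀ (by linarith)]
              linarith
      refine (mul_le_mul_of_nonneg_right hgeom hlogp).trans ?_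
      have hlog : Real.log p ≤ 2 * (p : ℝ) ^ (1 / 2 : ℝ) := by
        have := Real.log_le_rpow_div hp0.le (show (0 : ℝ) < 1 / 2 by norm_num)
        linarith
      calc (Q : ℝ) * N * (2 * ((p : ℝ)⁻¹) ^ 2) * Real.log p
          ≤ (Q : ℝ) * N * (2 * ((p : ℝ)⁻¹) ^ 2) * (2 * (p : ℝ) ^ (1 / 2 : ℝ)) :=
            mul_le_mul_of_nonneg_left hlog (by positivity)
        _ = 2 * Q * N * (2 * (p : ℝ) ^ (-(3 / 2) : ℝ)) := by
            rw [show (-(3 / 2) : ℝ) = 1 / 2 - ((2 : ℕ) : ℝ) by norm_num,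
              Real.rpow_sub_natCast hp0.ne', inv_pow]
            ring
    · rw [mul_comm (J : ℝ), mul_assoc]
      refine mul_le_mul_of_nonneg_left ?_ (by positivity)
      rcases Nat.eq_zero_or_pos J with hJ0 | hJ0
      · rw [hJ0, Nat.cast_zero, zero_mul]
        positivity
      have hB0 : B ≠ 0 := fun h => by simp [h] at hJ; omega
      rw [← Real.log_pow, ← Real.log_pow]
      refine Real.log_le_log (by positivity) ?_
      exact_mod_cast (hJ ▸ Nat.pow_log_le_self p hB0).trans hB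
  refine (sum_le_sum hp).trans ?_
  rw [sum_add_distrib, sum_add_distrib, ← mul_sum, ← mul_sum, sum_const, nsmul_eq_mul]
  have e1 : Real.log ((K * M : ℕ) : ℝ) = Real.log K + Real.log M := by
    rw [Nat.cast_mul, Real.log_mul (Nat.cast_ne_zero.2 (by omega)) (by positivity)]
  rw [e1] at h1
  have h5 : ∑ p ∈ P, 2 * (p : ℝ) ^ (-(3 / 2) : ℝ) ≤ S :=
    hS ▸ hsum.sum_le_tsum _ fun n _ => by positivity
  have h6 : (P.card : ℝ) * Real.log M ≤ 4 * K * M := (le_div_iff₀ hlogM).1 h2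
  have h7 : (M : ℝ) ≤ 2 * L * N := by exact_mod_cast hMN
  have h8 : (P.card : ℝ) * (2 * Q * (d' * Real.log M)) ≤ 2 * L * (2 * Q * (4 * K * d')) * N := by
    calc (P.card : ℝ) * (2 * Q * (d' * Real.log M))
        = 2 * Q * d' * (P.card * Real.log M) := by ring
      _ ≤ 2 * Q * d' * (4 * K * (2 * L * N)) := mul_le_mul_of_nonneg_left
          (h6.trans (mul_le_mul_of_nonneg_left h7 (by positivity))) (by positivity)
      _ = _ := by ring
  have h10 := mul_le_mul_of_nonneg_left h1 (Nat.cast_nonneg N)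
  have h11 := mul_le_mul_of_nonneg_left h5 (show (0 : ℝ) ≤ 2 * Q * N by positivity)
  have h12 := mul_le_mul_of_nonneg_left h3 (Nat.cast_nonneg N)
  rw [hC] at h12
  nlinarith

theorem log_eq_sum_powers {v : ℕ} (hv : v ≠ 0) {P : Finset ℕ} (hP : ∀ p ∈ P, p.Prime)
    (hsub : v.primeFactors ⊆ P) {B : ℕ} (hB : v ≤ B) :
    Real.log v = ∑ p ∈ P, ∑ k ∈ Icc 1 (Nat.log p B),
      (if p ^ k ∣ v then Real.log p else 0) := by
  rw [Real.log_nat_eq_sum_factorization, Finsupp.sum, Nat.support_factorization,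
    ← sum_subset hsub fun p hp hnp => ?_]
  · refine sum_congr rfl fun p hp => ?_
    have hpp := Nat.prime_of_mem_primeFactors hp
    have e : (Icc 1 (Nat.log p B)).filter (fun k => p ^ k ∣ v) = Icc 1 (v.factorization p) := by
      ext k
      simp only [mem_filter, mem_Icc, hpp.pow_dvd_iff_le_factorization hv]
      refine ⟨fun h => ⟨h.1.1, h.2⟩, fun h => ⟨⟨h.1, h.2.trans ?_⟩, h.2⟩⟩
      exact Nat.le_log_of_pow_le hpp.one_lt
        ((Nat.le_of_dvd (Nat.pos_of_ne_zero hv) (Nat.ordProj_dvd v p)).trans hB)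
    rw [← sum_filter, e, sum_const, Nat.card_Icc, Nat.add_sub_cancel, nsmul_eq_mul]
  · refine sum_eq_zero fun k hk => if_neg fun h => hnp ?_
    exact Nat.mem_primeFactors.2 ⟨hP p hp, (dvd_pow_self p (by simp at hk; omega)).trans h, hv⟩

open Classical in
/-- **Cassels' lemma.** -/
theorem exists_large_prime_factor (hirr : Irreducible f) (hd : 2 ≤ f.natDegree) :
    ∃ η : ℝ, 0 < η ∧ ∀ L : ℕ, 1 ≤ L → ∀ K : ℕ, ∀ᶠ M : ℕ in atTop,
      (1 / 2 + η) * (M / L : ℕ) ≤ (((Ioc M (M + M / L)).filter fun n =>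
        ∃ p, p.Prime ∧ K * M < p ∧ p ∣ value f n).card : ℝ) := by
  classical
  obtain ⟨θ, hθ⟩ : ∃ θ : ℝ, θ = Real.exp (-13) / 16 := ⟨_, rfl⟩
  have hθ0 : 0 < θ := hθ ▸ by positivity
  have hθ1 : θ ≤ 1 / 16 := by
    rw [hθ]
    have : Real.exp (-13) ≤ 1 := Real.exp_le_one_iff.2 (by norm_num)
    linarith
  refine ⟨θ / 16, by positivity, fun L hL K₀ => ?_⟩
  obtain ⟨K, hK⟩ : ∃ K : ℕ, K = K₀ + 1 := ⟨_, rfl⟩
  have hd1 : 0 < f.natDegree := by omega
  obtain ⟨d, hdd⟩ : ∃ d : ℝ, d = f.natDegree := ⟨_, rfl⟩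
  have hd2 : 2 ≤ d := hdd ▸ Nat.ofNat_le_cast.2 hd
  obtain ⟨S, hS1, hS⟩ := value_bounds hd1
  obtain ⟨C, hC⟩ := exists_tendsto_rootSum hirr hd1
  obtain ⟨Z, hZ⟩ := Metric.tendsto_atTop.1 hC (1 / 4) (by norm_num)
  have hrt : Tendsto (fun M : ℕ => ⌊(M : ℝ) ^ θ⌋₊) atTop atTop :=
    tendsto_nat_floor_atTop.comp ((tendsto_rpow_atTop hθ0).comp tendsto_natCast_atTop_atTop)
  have hlogT : Tendsto (fun M : ℕ => Real.log (M : ℝ)) atTop atTop :=
    Real.tendsto_log_atTop.comp tendsto_natCast_atTop_atTop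
  have hrtM : Tendsto (fun M : ℕ => Real.sqrt (M : ℝ)) atTop atTop :=
    Real.tendsto_sqrt_atTop.comp tendsto_natCast_atTop_atTop
  filter_upwards [eventually_small_part_le hirr hd1 (show (0 : ℝ) < θ / 8 by positivity) hL
      (show 1 ≤ K by omega) (f.natDegree + 1),
    hrt.eventually_ge_atTop (max Z 3), hlogT.eventually_ge_atTop (16 / θ),
    hrtM.eventually_ge_atTop (640 * L * d ^ 2),
    eventually_ge_atTop (max (2 * L) (max (⌈2 * S⌉₊) (⌈S * 2 ^ f.natDegree⌉₊ + 16)))]
    with M hsmall hm hlog hsqrt hM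
  simp only [max_le_iff] at hm hM
  obtain ⟨hML, hMS, hMS'⟩ := hM
  obtain ⟨N, hN⟩ : ∃ N : ℕ, N = M / L := ⟨_, rfl⟩
  rw [← hN] at hsmall ⊢
  have hNM : N ≤ M := hN ▸ Nat.div_le_self M L
  have hMN : M ≤ 2 * L * N := by
    have h5 := Nat.lt_mul_div_succ M (show 0 < L by omega)
    have h6 : 1 ≤ M / L := (Nat.one_le_div_iff (by omega)).2 (by omega)
    rw [hN]
    nlinarith
  have hM16 : (16 : ℝ) ≤ M := by exact_mod_cast (show 16 ≤ M by omega)
  have hlogM : 0 < Real.log M := Real.log_pos (by linarith)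
  have h2S : 2 * S ≤ M := (Nat.le_ceil _).trans (by exact_mod_cast hMS)
  have hSd : S * 2 ^ f.natDegree ≤ M := (Nat.le_ceil _).trans
    (by exact_mod_cast (show ⌈S * 2 ^ f.natDegree⌉₊ ≤ M by omega))
  obtain ⟨B, hB⟩ : ∃ B, B = M ^ (f.natDegree + 1) := ⟨_, rfl⟩
  have hval : ∀ n ∈ Ioc M (M + N), value f n ≠ 0 ∧ value f n ≤ B ∧
      d * Real.log M - 1 ≤ Real.log (value f n) := by
    intro n hn
    rw [mem_Ioc] at hn
    have hn1 : (M : ℝ) ≤ n := by exact_mod_cast hn.1.le
    have hn2 : (n : ℝ) ≤ 2 * M := by exact_mod_cast (show n ≤ 2 * M by omega)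
    obtain ⟨hlo, hhi⟩ := hS n (h2S.trans hn1)
    have hpos : (0 : ℝ) < (M : ℝ) ^ f.natDegree / 2 := by positivity
    have hlo' : (M : ℝ) ^ f.natDegree / 2 ≤ value f n := le_trans (by gcongr) hlo
    refine ⟨fun h => ?_, ?_, ?_⟩
    · rw [h, Nat.cast_zero] at hlo'
      linarith
    · have h : (value f n : ℝ) ≤ (M : ℝ) ^ (f.natDegree + 1) := by
        calc (value f n : ℝ) ≤ S * (n : ℝ) ^ f.natDegree := hhi
          _ ≤ S * (2 * M) ^ f.natDegree := by gcongr
          _ = (S * 2 ^ f.natDegree) * (M : ℝ) ^ f.natDegree := by rw [mul_pow]; ring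
          _ ≤ M * (M : ℝ) ^ f.natDegree := mul_le_mul_of_nonneg_right hSd (by positivity)
          _ = _ := by ring
      rw [hB]
      exact_mod_cast h
    · refine le_trans ?_ (Real.log_le_log hpos hlo')
      rw [Real.log_div (by positivity) two_ne_zero, Real.log_pow, ← hdd]
      linarith [Real.log_le_sub_one_of_pos (show (0 : ℝ) < 2 by norm_num)]
  obtain ⟨P, hP⟩ : ∃ P, P = (Icc 1 (K * M)).filter Nat.Prime := ⟨_, rfl⟩
  have hPp : ∀ p ∈ P, p.Prime := fun p hp => (mem_filter.1 (hP ▸ hp)).2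
  obtain ⟨Sm, hSm⟩ : ∃ Sm : ℕ → ℝ, Sm = fun n => ∑ p ∈ P, ∑ k ∈ Icc 1 (Nat.log p B),
      (if p ^ k ∣ value f n then Real.log p else 0) := ⟨_, rfl⟩
  have hSm0 : ∀ n, 0 ≤ Sm n := fun n => hSm ▸ sum_nonneg fun p _ => sum_nonneg fun k _ => by
    split_ifs
    · exact Real.log_natCast_nonneg p
    · exact le_rfl
  have htotal : ∑ n ∈ Ioc M (M + N), Sm n ≤ (1 + θ / 8) * N * Real.log M := by
    refine le_trans (le_of_eq ?_) (hsmall B hB.le)
    rw [hSm, sum_comm, hP]
    refine sum_congr rfl fun p _ => ?_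
    rw [sum_comm]
    refine sum_congr rfl fun k _ => ?_
    rw [← sum_filter, sum_const, nsmul_eq_mul]
  obtain ⟨U, hU⟩ : ∃ U, U = (Ioc M (M + N)).filter fun n =>
      ¬∃ p, p.Prime ∧ K₀ * M < p ∧ p ∣ value f n := ⟨_, rfl⟩
  have hUle : ∀ n ∈ U, d * Real.log M - 1 ≤ Sm n := by
    intro n hn
    rw [hU, mem_filter] at hn
    obtain ⟨h0, hBv, hlo⟩ := hval n hn.1
    refine hlo.trans (le_of_eq ?_)
    rw [hSm]
    refine log_eq_sum_powers h0 hPp (fun p hp => ?_) hBv
    obtain ⟨hpp, hdvd, -⟩ := Nat.mem_primeFactors.1 hp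
    rw [hP, mem_filter, mem_Icc]
    refine ⟨⟨hpp.one_le, le_of_not_gt fun h => hn.2 ⟨p, hpp, ?_, hdvd⟩⟩, hpp⟩
    exact lt_of_le_of_lt (Nat.mul_le_mul_right M (by omega)) h
  obtain ⟨m, hmdef⟩ : ∃ m : ℕ, m = ⌊(M : ℝ) ^ θ⌋₊ := ⟨_, rfl⟩
  rw [← hmdef] at hm
  obtain ⟨hmZ, hm3⟩ := hm
  obtain ⟨b, hbdef⟩ : ∃ b : ℕ, b = Nat.sqrt (Nat.sqrt M) := ⟨_, rfl⟩
  have hb4 : b ^ 4 ≤ M := by
    rw [hbdef, show 4 = 2 * 2 from rfl, pow_mul]
    exact (Nat.pow_le_pow_left (Nat.sqrt_le' _) 2).trans (Nat.sqrt_le' _)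
  have hbM : b ≤ M := (Nat.le_self_pow (by norm_num) b).trans hb4
  have hb1 : (M : ℝ) ≤ (2 * b : ℝ) ^ 4 := by
    have h1 := Nat.lt_succ_sqrt' (Nat.sqrt M)
    have h2 := Nat.lt_succ_sqrt' M
    have h3 : 1 ≤ b := hbdef ▸ Nat.le_sqrt'.2 (by
      have := Nat.le_sqrt'.2 (show 1 ^ 2 ≤ M by omega)
      omega)
    rw [← hbdef] at h1
    have h4 : M < (b + 1) ^ 4 := by
      calc M < (Nat.sqrt M + 1) ^ 2 := h2
        _ ≤ ((b + 1) ^ 2) ^ 2 := Nat.pow_le_pow_left h1 2
        _ = (b + 1) ^ 4 := by ring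
    have h5 : M ≤ (2 * b) ^ 4 := h4.le.trans (Nat.pow_le_pow_left (by omega) 4)
    exact_mod_cast h5
  have hmpow : (m : ℝ) ≤ (M : ℝ) ^ θ := hmdef ▸ Nat.floor_le (by positivity)
  have hmlog : Real.log m ≤ θ * Real.log M := by
    rw [← Real.log_rpow (by linarith)]
    exact Real.log_le_log (Nat.cast_pos.2 (by omega)) hmpow
  have hblog : Real.log M / 8 ≤ Real.log b := by
    have hb0 : (0 : ℝ) < b := by
      rcases Nat.eq_zero_or_pos b with h | h
      · rw [h] at hb1
        norm_num at hb1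
        linarith
      · exact Nat.cast_pos.2 h
    have h := Real.log_le_log (by linarith) hb1
    rw [Real.log_pow, Real.log_mul two_ne_zero hb0.ne'] at h
    have h16 : 16 / θ ≥ 256 := by rw [ge_iff_le, le_div_iff₀ hθ0]; linarith
    push_cast at h
    linarith [Real.log_le_sub_one_of_pos (show (0 : ℝ) < 2 by norm_num)]
  obtain ⟨P₀, hP₀⟩ : ∃ P₀, P₀ = (Icc (m + 1) b).filter Nat.Prime := ⟨_, rfl⟩
  have hP₀p : ∀ p ∈ P₀, p.Prime := fun p hp => (mem_filter.1 (hP₀ ▸ hp)).2
  obtain ⟨L₀, hL₀⟩ : ∃ L₀, L₀ = ∑ p ∈ P₀, rootDensity f p := ⟨_, rfl⟩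
  have hmb : m < b := by
    by_contra hle
    have h1 : Real.log b ≤ Real.log m := by
      rcases Nat.eq_zero_or_pos b with h | h
      · rw [h, Nat.cast_zero, Real.log_zero]
        exact Real.log_natCast_nonneg m
      · exact Real.log_le_log (Nat.cast_pos.2 h) (Nat.cast_le.2 (not_lt.1 hle))
    have := mul_le_mul_of_nonneg_right hθ1 hlogM.le
    linarith
  have hL₀12 : 12 ≤ L₀ := by
    have h1 := abs_lt.1 (Real.dist_eq _ _ ▸ hZ b (by omega))
    have h2 := abs_lt.1 (Real.dist_eq _ _ ▸ hZ m hmZ)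
    have e : L₀ = rootSumUpTo f b - rootSumUpTo f m := by
      rw [hL₀, hP₀, rootSumUpTo, rootSumUpTo, ← sum_sdiff_eq_sub (filter_subset_filter _
        (Icc_subset_Icc_right hmb.le))]
      refine sum_congr ?_ fun p hp => ?_
      · ext p
        simp only [mem_filter, mem_Icc, Finset.mem_sdiff]
        constructor
        · exact fun h => ⟨⟨⟨by omega, h.1.2⟩, h.2⟩, fun h' => by omega⟩
        · exact fun h => ⟨⟨not_lt.1 fun h' => h.2 ⟨⟨h.1.1.1, by omega⟩, h.1.2⟩, h.1.1.2⟩, h.1.2⟩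
      · rw [rootDensity_apply f (mem_filter.1 (Finset.mem_sdiff.1 hp).1).2.ne_zero]
    have hlogm : 0 < Real.log m := Real.log_pos (by exact_mod_cast (show 1 < m by omega))
    have hlogb : Real.log M / 8 / (θ * Real.log M) ≤ Real.log b / Real.log m :=
      div_le_div₀ ((by positivity : (0:ℝ) ≤ Real.log M / 8).trans hblog) hblog hlogm hmlog
    rw [show Real.log M / 8 / (θ * Real.log M) = 1 / (8 * θ) by field_simp] at hlogb
    have h3 := Real.log_le_log (by positivity) hlogb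
    rw [Real.log_div (by linarith) hlogm.ne', show 1 / (8 * θ) = 2 * Real.exp 13 by
      rw [hθ, Real.exp_neg]; field_simp; ring, Real.log_mul two_ne_zero (Real.exp_ne_zero _),
      Real.log_exp] at h3
    have := Real.log_nonneg (show (1 : ℝ) ≤ 2 by norm_num)
    linarith
  obtain ⟨Z₀, hZ₀⟩ : ∃ Z₀, Z₀ = (Ioc M (M + N)).filter fun n => ∀ p ∈ P₀, ¬p ∣ value f n :=
    ⟨_, rfl⟩
  have hZ₀le : (Z₀.card : ℝ) ≤ N / 8 := by
    have h := card_no_prime_mul_le hirr hd1 M N P₀ hP₀p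
    rw [← hZ₀, ← hdd, ← hL₀] at h
    have hcard : (P₀.card : ℝ) ^ 2 ≤ Real.sqrt M := by
      refine Real.le_sqrt_of_sq_le ?_
      rw [← pow_mul]
      have h1 : P₀.card ≤ b := by
        rw [hP₀]
        refine (card_filter_le _ _).trans ?_
        rw [Nat.card_Icc]
        omega
      exact_mod_cast (Nat.pow_le_pow_left h1 4).trans hb4
    have hd22 : 0 ≤ d ^ 2 := sq_nonneg d
    have h1 : 640 * (d ^ 2 * (P₀.card : ℝ) ^ 2) ≤ 2 * N := by
      have hsq : Real.sqrt M * Real.sqrt M = M := Real.mul_self_sqrt (Nat.cast_nonneg M)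
      have hMN' : (M : ℝ) ≤ 2 * L * N := by exact_mod_cast hMN
      have hL' : (1 : ℝ) ≤ L := by exact_mod_cast hL
      have h2 : 640 * L * d ^ 2 * (P₀.card : ℝ) ^ 2 ≤ 2 * L * N :=
        calc 640 * L * d ^ 2 * (P₀.card : ℝ) ^ 2 ≤ Real.sqrt M * Real.sqrt M :=
              mul_le_mul hsqrt hcard (by positivity) (Real.sqrt_nonneg _)
          _ ≤ _ := hsq.le.trans hMN'
      refine le_of_mul_le_mul_left ?_ (show (0 : ℝ) < L by linarith)
      linarith
    refine le_of_mul_le_mul_right (a := L₀ ^ 2) ?_ (by positivity)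
    refine h.trans ?_
    have h12 : 12 * (L₀ * N) ≤ L₀ * (L₀ * N) :=
      mul_le_mul_of_nonneg_right hL₀12 (by positivity)
    have h13 := mul_le_mul_of_nonneg_right h1 (show (0 : ℝ) ≤ 1 + L₀ by linarith)
    have h14 : (N : ℝ) * (1 + L₀) ≤ N * (2 * L₀) :=
      mul_le_mul_of_nonneg_left (by linarith) (Nat.cast_nonneg _)
    nlinarith
  have hrest : ∀ n ∈ Ioc M (M + N), n ∉ Z₀ → θ * Real.log M ≤ Sm n := by
    intro n hn hnZ
    simp only [hZ₀, mem_filter, hn, true_and, not_forall, not_not] at hnZ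
    obtain ⟨p, hp, hpd⟩ := hnZ
    rw [hP₀, mem_filter, mem_Icc] at hp
    obtain ⟨h0, hBv, -⟩ := hval n hn
    have hlogp : θ * Real.log M ≤ Real.log p := by
      rw [← Real.log_rpow (by linarith)]
      refine Real.log_le_log (by positivity) ?_
      have h1 : (M : ℝ) ^ θ < m + 1 := hmdef ▸ Nat.lt_floor_add_one _
      have h2 : ((m + 1 : ℕ) : ℝ) ≤ p := Nat.cast_le.2 hp.1.1
      push_cast at h2
      linarith
    refine hlogp.trans ?_
    rw [hSm]
    have hpP : p ∈ P := by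
      rw [hP, mem_filter, mem_Icc]
      exact ⟨⟨hp.2.one_le, (hp.1.2.trans hbM).trans (Nat.le_mul_of_pos_left M (by omega))⟩, hp.2⟩
    have hnn : ∀ q k, 0 ≤ if q ^ k ∣ value f n then Real.log (q : ℕ) else 0 := fun q k => by
      split_ifs
      · exact Real.log_natCast_nonneg q
      · exact le_rfl
    refine le_trans (le_trans ?_ (single_le_sum (fun k _ => hnn p k)
      (mem_Icc.2 ⟨le_rfl, Nat.le_log_of_pow_le hp.2.one_lt (show p ^ 1 ≤ B by
        rw [pow_one]; exact (Nat.le_of_dvd (Nat.pos_of_ne_zero h0) hpd).trans hBv)⟩)))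
      (single_le_sum (f := fun q => ∑ k ∈ Icc 1 (Nat.log q B),
        if q ^ k ∣ value f n then Real.log (q : ℕ) else 0)
        (fun q _ => sum_nonneg fun k _ => hnn q k) hpP)
    rw [pow_one, if_pos hpd]
  have hlow : (U.card : ℝ) * (d * Real.log M - 1) +
      ((N : ℝ) - U.card - Z₀.card) * (θ * Real.log M) ≤ ∑ n ∈ Ioc M (M + N), Sm n := by
    obtain ⟨V, hV⟩ : ∃ V, V = (Ioc M (M + N) \ U) \ Z₀ := ⟨_, rfl⟩
    have hUsub : U ⊆ Ioc M (M + N) := hU ▸ filter_subset _ _
    rw [← sum_sdiff hUsub, add_comm]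
    refine add_le_add ?_ ?_
    · refine le_trans ?_ (sum_le_sum_of_subset_of_nonneg
        (hV ▸ sdiff_subset : V ⊆ Ioc M (M + N) \ U) fun n _ _ => hSm0 n)
      refine le_trans ?_ (sum_le_sum fun n hn => hrest n
        (Finset.mem_sdiff.1 (Finset.mem_sdiff.1 (hV ▸ hn)).1).1 (Finset.mem_sdiff.1 (hV ▸ hn)).2)
      rw [sum_const, nsmul_eq_mul]
      refine mul_le_mul_of_nonneg_right ?_ (by positivity)
      have h1 := card_sdiff_of_subset hUsub
      rw [Nat.card_Ioc, Nat.add_sub_cancel_left] at h1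
      have h2 : (Ioc M (M + N) \ U).card ≤ V.card + Z₀.card :=
        hV ▸ card_le_card_sdiff_add_card
      have h3 : U.card ≤ N := by
        have := card_le_card hUsub
        rwa [Nat.card_Ioc, Nat.add_sub_cancel_left] at this
      have h4 : N ≤ U.card + (V.card + Z₀.card) := by omega
      have h4' : (N : ℝ) ≤ U.card + (V.card + Z₀.card) := by exact_mod_cast h4
      linarith
    · refine le_trans (le_of_eq ?_) (sum_le_sum hUle)
      rw [sum_const, nsmul_eq_mul]
  have hfinal : (U.card : ℝ) ≤ (1 / 2 - θ / 16) * N := by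
    by_contra hlt
    rw [not_le] at hlt
    have hN' : (0 : ℝ) ≤ N := Nat.cast_nonneg N
    have hUN : (U.card : ℝ) ≤ N := by
      have := card_le_card (hU ▸ filter_subset _ _ : U ⊆ Ioc M (M + N))
      rw [Nat.card_Ioc, Nat.add_sub_cancel_left] at this
      exact_mod_cast this
    have h16 : 16 ≤ θ * Real.log M := by
      rw [div_le_iff₀ hθ0] at hlog
      linarith
    have h5 : (U.card : ℝ) ≤ θ * Real.log M * N / 16 := by
      refine hUN.trans ?_
      rw [le_div_iff₀ (by norm_num), mul_comm (N : ℝ)]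
      exact mul_le_mul_of_nonneg_right h16 hN'
    have h1 : (U.card : ℝ) * (2 * Real.log M) ≤ U.card * (d * Real.log M) :=
      mul_le_mul_of_nonneg_left (mul_le_mul_of_nonneg_right hd2 hlogM.le) (Nat.cast_nonneg _)
    have h6 := mul_le_mul_of_nonneg_right hZ₀le (show 0 ≤ θ * Real.log M by positivity)
    have h2 := mul_lt_mul_of_pos_right hlt (show 0 < (2 - θ) * Real.log M by
      have : (0 : ℝ) < 2 - θ := by linarith
      positivity)
    have h7 : 0 ≤ θ ^ 2 * (N * Real.log M) := by positivity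
    have h8 : 0 ≤ θ * (N * Real.log M) := by positivity
    linarith only [hlow, htotal, h1, h2, h5, h6, h7, h8]
  have hsplit := card_filter_add_card_filter_not (s := Ioc M (M + N))
    (fun n => ∃ p, p.Prime ∧ K₀ * M < p ∧ p ∣ value f n)
  rw [← hU, Nat.card_Ioc, Nat.add_sub_cancel_left] at hsplit
  have hsplit' := congrArg (fun k : ℕ => (k : ℝ)) hsplit
  push_cast at hsplit'
  linarith

end FA.CasselsHurwitz
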