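import Fermat.Agent.CasselsHurwitz.Tools
import Fermat.Agent.CasselsHurwitz.LargePrime

/-!
# A twist of the Hurwitz series of an irrational parameter with a zero

`log (n + α)` is outside the span over `ℚ` of the other `log (m + α)` whenever the minimal
polynomial at `-n` has a large prime factor (for transcendental `α` always). With more than half of
every short block free in this sense, the phases can be chosen block by block so that the twisted
series vanishes at a given `σ` a little to the right of one.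
-/

set_option autoImplicit false

noncomputable section

namespace FA.CasselsHurwitz

open Filter Finset Polynomial
open scoped Topology

/-- The frequencies `log (n + α)`. -/
def shiftLog (α : ℝ) (n : ℕ) : ℝ := Real.log (n + α)

/-- `log (n + α)` is outside the span of the others up to `M`. -/
def IsFree (α : ℝ) (M n : ℕ) : Prop :=
  shiftLog α n ∉ Submodule.span ℚ (shiftLog α '' {m | m ≤ M ∧ m ≠ n})

/-- More than half of every short block is free. -/
def FreeDense (α : ℝ) : Prop :=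
  ∃ η : ℝ, 0 < η ∧ ∀ L : ℕ, 1 ≤ L → ∀ᶠ M : ℕ in atTop, ∃ F : Finset ℕ,
    F ⊆ Ioc M (M + M / L) ∧ (1 / 2 + η) * (M / L : ℕ) ≤ F.card ∧
      ∀ n ∈ F, IsFree α (M + M / L) n

/-- **A large prime makes a term free.** -/
theorem isFree_of_dvd {α : ℝ} (hα : 0 < α) {g : ℤ[X]}
    (hg : ∀ h : ℤ[X], aeval α h = 0 → g ∣ h) {p M n : ℕ} (hp : p.Prime) (hpM : M < p) (hn : n ≤ M)
    (hdvd : (p : ℤ) ∣ g.eval (-(n : ℤ))) : IsFree α M n := by
  classical
  intro hmem
  obtain ⟨s, hs⟩ : ∃ s : Finset ℕ, s = (range (M + 1)).filter fun m => m ≠ n := ⟨_, rfl⟩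
  rw [show shiftLog α '' {m | m ≤ M ∧ m ≠ n} = Set.range (fun m : s => shiftLog α m) by
    ext x
    simp only [Set.mem_image, Set.mem_ofPred_eq, Set.mem_range, Subtype.exists, hs, mem_filter,
      mem_range, Nat.lt_succ_iff, exists_prop], Submodule.mem_span_range_iff_exists_fun] at hmem
  obtain ⟨q, hq⟩ := hmem
  obtain ⟨D, hD⟩ : ∃ D : ℕ, D = ∏ m, (q m).den := ⟨_, rfl⟩
  have hD0 : D ≠ 0 := hD ▸ prod_ne_zero_iff.2 fun m _ => (q m).den_nz
  have hint : ∀ m, ∃ e : ℤ, q m * D = e := fun m => by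
    obtain ⟨k, hk⟩ : (q m).den ∣ D := hD ▸ Finset.dvd_prod_of_mem _ (mem_univ m)
    exact ⟨(q m).num * k, by rw [hk, Nat.cast_mul, ← mul_assoc, Rat.mul_den_eq_num]; push_cast; rfl⟩
  choose e he using hint
  obtain ⟨A, hA⟩ : ∃ A : s → ℕ, A = fun m => (e m).toNat := ⟨_, rfl⟩
  obtain ⟨B, hB⟩ : ∃ B : s → ℕ, B = fun m => (-e m).toNat := ⟨_, rfl⟩
  have hlin : (D : ℝ) * shiftLog α n + ∑ m : s, (B m : ℝ) * shiftLog α m =
      ∑ m : s, (A m : ℝ) * shiftLog α m := by
    rw [← hq, mul_sum, ← sum_add_distrib]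
    refine sum_congr rfl fun m _ => ?_
    have h1 : ((A m : ℤ) : ℝ) - ((B m : ℤ) : ℝ) = (e m : ℝ) := by
      rw [← Int.cast_sub, hA, hB]
      simp only [Int.toNat_sub_toNat_neg]
    have h2 : (q m : ℝ) * D = (e m : ℝ) := by exact_mod_cast congrArg (fun x : ℚ => (x : ℝ)) (he m)
    push_cast at h1
    rw [Rat.smul_def]
    linear_combination (shiftLog α m) * h2 - (shiftLog α m) * h1
  have hpos : ∀ m : ℕ, (0 : ℝ) < m + α := fun m => by positivity
  have hprod : ((n : ℝ) + α) ^ D * ∏ m : s, (((m : ℕ) : ℝ) + α) ^ B m =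
      ∏ m : s, (((m : ℕ) : ℝ) + α) ^ A m := by
    have h0 : ∀ E : s → ℕ, (0 : ℝ) < ∏ m : s, (((m : ℕ) : ℝ) + α) ^ E m :=
      fun E => prod_pos fun m _ => pow_pos (hpos m) _
    refine Real.log_injOn_pos (mul_pos (pow_pos (hpos n) _) (h0 B)) (h0 A) ?_
    rw [Real.log_mul (pow_pos (hpos n) _).ne' (h0 B).ne', Real.log_pow,
      Real.log_prod (f := fun m : s => (((m : ℕ) : ℝ) + α) ^ B m)
        fun m _ => (pow_pos (hpos m) _).ne',
      Real.log_prod (f := fun m : s => (((m : ℕ) : ℝ) + α) ^ A m)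
        fun m _ => (pow_pos (hpos m) _).ne']
    simp only [Real.log_pow]
    exact hlin
  obtain ⟨h, hh⟩ : ∃ h : ℤ[X], h = (X + C (n : ℤ)) ^ D * (∏ m : s, (X + C ((m : ℕ) : ℤ)) ^ B m) -
      ∏ m : s, (X + C ((m : ℕ) : ℤ)) ^ A m := ⟨_, rfl⟩
  have h0 : aeval α h = 0 := by
    rw [hh, map_sub, map_mul, map_pow, map_prod, map_prod, sub_eq_zero]
    simpa [add_comm α] using hprod
  have hev : (p : ℤ) ∣ h.eval (-(n : ℤ)) := hdvd.trans (eval_dvd (hg h h0))
  rw [hh, eval_sub, eval_mul, eval_pow] at hev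
  simp only [eval_add, eval_X, eval_C, neg_add_cancel, zero_pow hD0, zero_mul, zero_sub,
    dvd_neg, eval_prod, eval_pow] at hev
  obtain ⟨m, -, hm⟩ := (Prime.dvd_finsetProd_iff (Nat.prime_iff_prime_int.1 hp) _).1 hev
  have hm' := (Nat.prime_iff_prime_int.1 hp).dvd_of_dvd_pow hm
  have hmem' : (m : ℕ) ∈ (range (M + 1)).filter fun m => m ≠ n := by
    rw [← hs]
    exact m.2
  obtain ⟨hmM, hmn⟩ := mem_filter.1 hmem'
  rw [mem_range] at hmM
  have hle := Int.natCast_dvd.1 hm'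
  have h1 : (-(n : ℤ) + ((m : ℕ) : ℤ)).natAbs < p := by omega
  have h2 : (-(n : ℤ) + ((m : ℕ) : ℤ)).natAbs ≠ 0 := by omega
  exact absurd (Nat.le_of_dvd (Nat.pos_of_ne_zero h2) hle) (by omega)

/-- The minimal integer polynomial of an algebraic irrational. -/
theorem exists_minimal {α : ℝ} (hirr : Irrational α) (halg : IsAlgebraic ℚ α) :
    ∃ g : ℤ[X], Irreducible g ∧ 2 ≤ g.natDegree ∧ ∀ h : ℤ[X], aeval α h = 0 → g ∣ h := by
  have hint : IsIntegral ℚ α := halg.isIntegral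
  obtain ⟨⟨b, hb⟩, hG⟩ := IsLocalization.integerNormalization_map_to_map (nonZeroDivisors ℤ)
    (minpoly ℚ α)
  obtain ⟨G, hG'⟩ : ∃ G,
      G = IsLocalization.integerNormalization (nonZeroDivisors ℤ) (minpoly ℚ α) :=
    ⟨_, rfl⟩
  simp only [← hG', Algebra.smul_def, IsScalarTower.algebraMap_apply ℤ ℚ ℚ[X],
    Polynomial.algebraMap_eq] at hG
  rw [show algebraMap ℤ ℚ = Int.castRingHom ℚ from rfl] at hG
  have hb0 : (Int.castRingHom ℚ) b ≠ 0 := by
    rw [eq_intCast, Int.cast_ne_zero]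
    exact nonZeroDivisors.ne_zero hb
  have hG0 : G ≠ 0 := fun h => by
    rw [h, Polynomial.map_zero] at hG
    exact mul_ne_zero (C_ne_zero.2 hb0) (minpoly.ne_zero hint) hG.symm
  obtain ⟨g, hg⟩ : ∃ g, g = G.primPart := ⟨_, rfl⟩
  have hgp : g.IsPrimitive := hg ▸ isPrimitive_primPart G
  have hassoc : Associated (g.map (Int.castRingHom ℚ)) (minpoly ℚ α) := by
    have hc : (Int.castRingHom ℚ) G.content ≠ 0 := by
      rw [eq_intCast, Int.cast_ne_zero]
      exact mt content_eq_zero_iff.1 hG0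
    have h1 : C ((Int.castRingHom ℚ) G.content) * g.map (Int.castRingHom ℚ) =
        C ((Int.castRingHom ℚ) b) * minpoly ℚ α := by
      rw [hg, ← map_C (f := Int.castRingHom ℚ), ← Polynomial.map_mul, ← eq_C_content_mul_primPart,
        hG]
    refine (associated_isUnit_mul_left_iff (isUnit_C.2 (Ne.isUnit hc))).1 ?_
    rw [h1]
    exact (associated_isUnit_mul_left_iff (isUnit_C.2 (Ne.isUnit hb0))).2 (Associated.refl _)
  refine ⟨g, ?_, ?_, fun h hh => ?_⟩
  · rw [IsPrimitive.Int.irreducible_iff_irreducible_map_cast hgp]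
    exact hassoc.irreducible_iff.2 (minpoly.irreducible hint)
  · have h1 : (g.map (Int.castRingHom ℚ)).natDegree = (minpoly ℚ α).natDegree :=
      natDegree_eq_of_degree_eq (degree_eq_degree_of_associated hassoc)
    rw [natDegree_map_eq_of_injective (RingHom.injective_int _)] at h1
    rw [h1, minpoly.two_le_natDegree_iff hint]
    rintro ⟨r, hr⟩
    exact hirr ⟨r, by simpa using hr⟩
  · rw [IsPrimitive.Int.dvd_iff_map_cast_dvd_map_cast g h hgp, hassoc.dvd_iff_dvd_left]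
    refine minpoly.dvd ℚ α ?_
    rw [show Int.castRingHom ℚ = algebraMap ℤ ℚ from rfl, aeval_map_algebraMap]
    exact hh

/-- **Every irrational parameter has more than half of every short block free.** -/
theorem freeDense_of_irrational {α : ℝ} (hα : 0 < α) (hirr : Irrational α) : FreeDense α := by
  classical
  by_cases halg : IsAlgebraic ℚ α
  · obtain ⟨g, hg, hd, hmin⟩ := exists_minimal hirr halg
    obtain ⟨f, hf⟩ : ∃ f : ℤ[X], f = g.comp (-X) := ⟨_, rfl⟩
    have hfe : ∀ n : ℤ, f.eval n = g.eval (-n) := fun n => by rw [hf]; simp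
    have hfirr : Irreducible f := by
      have h := (MulEquiv.irreducible_iff (Polynomial.algEquivAevalNegX (R := ℤ)) (x := g)).2 hg
      rw [hf]
      convert h using 1
      simp [Polynomial.comp, Polynomial.aeval_def]
    have hfd : 2 ≤ f.natDegree := by
      rw [hf, natDegree_comp, natDegree_neg, natDegree_X, mul_one]; exact hd
    obtain ⟨η, hη, h⟩ := exists_large_prime_factor hfirr hfd
    refine ⟨η, hη, fun L hL => ?_⟩
    filter_upwards [h L hL 2] with M hM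
    refine ⟨(Ioc M (M + M / L)).filter fun n =>
        ∃ p, p.Prime ∧ 2 * M < p ∧ p ∣ RichertValues.value f n,
      filter_subset _ _, hM, fun n hn => ?_⟩
    obtain ⟨hn', p, hp, hpM, hpd⟩ := mem_filter.1 hn
    have hdiv : M / L ≤ M := Nat.div_le_self M L
    refine isFree_of_dvd hα hmin hp (by omega) (mem_Ioc.1 hn').2 ?_
    rw [← hfe]
    exact (RichertValues.dvd_value_iff f p n).1 hpd
  · refine ⟨1 / 2, by norm_num, fun L _ => Eventually.of_forall fun M =>
      ⟨Ioc M (M + M / L), subset_rfl, ?_, fun n hn => ?_⟩⟩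
    · rw [Nat.card_Ioc, Nat.add_sub_cancel_left]
      norm_num
    · obtain ⟨p, hpM, hp⟩ := Nat.exists_infinite_primes (M + M / L + 1)
      refine isFree_of_dvd hα (g := 0) (fun h hh => ?_) hp (by omega) (mem_Ioc.1 hn).2 (by simp)
      by_contra hne
      refine halg ⟨h.map (algebraMap ℤ ℚ), fun h0 => hne ?_, ?_⟩
      · rw [Polynomial.map_eq_zero_iff (FaithfulSMul.algebraMap_injective ℤ ℚ)] at h0
        exact zero_dvd_iff.2 h0
      · rw [aeval_map_algebraMap]
        exact hh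

/-- The weights `(n + α) ^ (-σ)`. -/
def shiftWt (α σ : ℝ) (n : ℕ) : ℝ := Real.exp (-(σ * shiftLog α n))

theorem shiftWt_eq {α σ : ℝ} (hα : 0 < α) (n : ℕ) : shiftWt α σ n = ((n : ℝ) + α) ^ (-σ) := by
  rw [shiftWt, shiftLog, Real.rpow_def_of_pos (by positivity)]
  congr 1
  ring

theorem shiftWt_anti {α σ : ℝ} (hα : 0 < α) (hσ : 0 ≤ σ) {m n : ℕ} (h : m ≤ n) :
    shiftWt α σ n ≤ shiftWt α σ m :=
  Real.exp_le_exp.2 (neg_le_neg (mul_le_mul_of_nonneg_left
    (Real.log_le_log (by positivity) (by gcongr)) hσ))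

/-- The partial sum of the twisted weights. -/
def partSum (α σ : ℝ) (Λ : ℝ →ₗ[ℚ] ℝ) (M : ℕ) : ℂ :=
  ∑ n ∈ range (M + 1), (shiftWt α σ n : ℂ) * Complex.exp ((Λ (shiftLog α n) : ℂ) * Complex.I)

/-- Opposing phases. -/
theorem exists_phases (w : ℕ → ℝ) {u : ℝ} (hu : 0 ≤ u) (U : Finset ℕ)
    (hw : ∀ n ∈ U, 0 ≤ w n ∧ w n ≤ u) (T : ℂ) :
    ∃ θ : ℕ → ℝ, ‖T + ∑ n ∈ U, (w n : ℂ) * Complex.exp ((θ n : ℂ) * Complex.I)‖ ≤
      max (‖T‖ - ∑ n ∈ U, w n) u := by
  classical
  induction U using Finset.induction with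
  | empty => exact ⟨fun _ => 0, by simp⟩
  | insert k U hk ih =>
    obtain ⟨θ, hθ⟩ := ih fun n hn => hw n (mem_insert_of_mem hn)
    obtain ⟨T', hT'⟩ : ∃ T' : ℂ,
        T' = T + ∑ n ∈ U, (w n : ℂ) * Complex.exp ((θ n : ℂ) * Complex.I) := ⟨_, rfl⟩
    rw [← hT'] at hθ
    obtain ⟨hk0, hku⟩ := hw k (mem_insert_self k U)
    refine ⟨Function.update θ k (T'.arg + Real.pi), ?_⟩
    rw [sum_insert hk, sum_insert hk, Function.update_self,
      sum_congr rfl fun n hn => by rw [Function.update_of_ne (fun e : n = k => hk (e ▸ hn))],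
      show T + ((w k : ℂ) * Complex.exp (((T'.arg + Real.pi : ℝ) : ℂ) * Complex.I) +
          ∑ n ∈ U, (w n : ℂ) * Complex.exp ((θ n : ℂ) * Complex.I)) =
        T' + (w k : ℂ) * Complex.exp (((T'.arg + Real.pi : ℝ) : ℂ) * Complex.I) by rw [hT']; ring,
      Complex.ofReal_add, add_mul, Complex.exp_add, Complex.exp_pi_mul_I, mul_neg_one, mul_neg]
    have h1 : T' + -((w k : ℂ) * Complex.exp ((T'.arg : ℂ) * Complex.I)) =
        ((‖T'‖ - w k : ℝ) : ℂ) * Complex.exp ((T'.arg : ℂ) * Complex.I) := by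
      push_cast
      linear_combination -(Complex.norm_mul_exp_arg_mul_I T')
    rw [h1, norm_mul, Complex.norm_exp_ofReal_mul_I, mul_one, Complex.norm_real, Real.norm_eq_abs,
      abs_le]
    rcases le_total (‖T‖ - ∑ n ∈ U, w n) u with h | h
    · rw [max_eq_right h] at hθ
      constructor
      · linarith [le_max_right (‖T‖ - (w k + ∑ n ∈ U, w n)) u, norm_nonneg T']
      · linarith [le_max_right (‖T‖ - (w k + ∑ n ∈ U, w n)) u, norm_nonneg T']
    · rw [max_eq_left h] at hθ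
      constructor
      · linarith [le_max_right (‖T‖ - (w k + ∑ n ∈ U, w n)) u, norm_nonneg T']
      · linarith [le_max_left (‖T‖ - (w k + ∑ n ∈ U, w n)) u, norm_nonneg T']

/-- **One block.** -/
theorem exists_step {α σ : ℝ} (hα : 0 < α) (hσ0 : 0 ≤ σ) (hσ2 : σ ≤ 2) {η : ℝ} (hη : 0 < η)
    {L : ℕ} (hL : 4 ≤ η * L) {M : ℕ} (hM : 1 ≤ M) {F : Finset ℕ}
    (hF : F ⊆ Ioc M (M + M / L)) (hcard : (1 / 2 + η) * (M / L : ℕ) ≤ F.card)
    (hfree : ∀ n ∈ F, IsFree α (M + M / L) n) (Λ : ℝ →ₗ[ℚ] ℝ) :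
    ∃ Λ' : ℝ →ₗ[ℚ] ℝ, (∀ n ≤ M, Λ' (shiftLog α n) = Λ (shiftLog α n)) ∧
      ‖partSum α σ Λ' (M + M / L)‖ ≤
        max (‖partSum α σ Λ M‖ - η * (M / L : ℕ) * shiftWt α σ M) (shiftWt α σ M) := by
  classical
  obtain ⟨M', hM'⟩ : ∃ M', M' = M + M / L := ⟨_, rfl⟩
  rw [← hM'] at hF hfree ⊢
  have hdual : ∀ n ∈ F, ∃ φ : ℝ →ₗ[ℚ] ℝ, φ (shiftLog α n) = 1 ∧
      ∀ m ≤ M', m ≠ n → φ (shiftLog α m) = 0 := by
    intro n hn
    obtain ⟨φ, hφ, hker⟩ := Submodule.exists_le_ker_of_notMem (hfree n hn)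
    refine ⟨(Algebra.linearMap ℚ ℝ).comp ((φ (shiftLog α n))⁻¹ • φ), ?_, fun m hm hne => ?_⟩
    · simp [inv_mul_cancel₀ hφ]
    · have h0 : φ (shiftLog α m) = 0 :=
        LinearMap.mem_ker.1 (hker (Submodule.subset_span ⟨m, ⟨hm, hne⟩, rfl⟩))
      simp [h0]
  choose! φ hφ1 hφ0 using hdual
  obtain ⟨w, hw⟩ : ∃ w, w = shiftWt α σ := ⟨_, rfl⟩
  obtain ⟨R, hR⟩ : ∃ R, R = (Ioc M M') \ F := ⟨_, rfl⟩
  obtain ⟨T, hT⟩ : ∃ T : ℂ, T = partSum α σ Λ M +
      ∑ n ∈ R, (w n : ℂ) * Complex.exp ((Λ (shiftLog α n) : ℂ) * Complex.I) := ⟨_, rfl⟩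
  have hw0 : ∀ n, 0 ≤ w n := fun n => hw ▸ (Real.exp_pos _).le
  obtain ⟨θ, hθ⟩ := exists_phases w (hw0 M) F
    (fun n hn => ⟨hw0 n, hw ▸ shiftWt_anti hα hσ0 (mem_Ioc.1 (hF hn)).1.le⟩) T
  obtain ⟨Λ', hΛ'⟩ : ∃ Λ' : ℝ →ₗ[ℚ] ℝ,
      ∀ x, Λ' x = Λ x + ∑ n ∈ F, (θ n - Λ (shiftLog α n)) * φ n x := by
    refine ⟨Λ + ∑ n ∈ F, (LinearMap.mulLeft ℚ (θ n - Λ (shiftLog α n))).comp (φ n), fun x => ?_⟩
    simp
  have hold : ∀ n ≤ M', n ∉ F → Λ' (shiftLog α n) = Λ (shiftLog α n) := fun n hn hnF => by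
    rw [hΛ', sum_eq_zero fun m hm => by
      rw [hφ0 m hm n hn fun e => hnF (e ▸ hm), mul_zero], add_zero]
  have hnew : ∀ n ∈ F, Λ' (shiftLog α n) = θ n := fun n hn => by
    rw [hΛ', sum_eq_single n (fun m hm hne => by
      rw [hφ0 m hm n (mem_Ioc.1 (hF hn)).2 hne.symm, mul_zero]) fun h => absurd hn h, hφ1 n hn]
    ring
  have hMM : M ≤ M' := hM' ▸ Nat.le_add_right _ _
  refine ⟨Λ', fun n hn => hold n (hn.trans hMM) fun h => absurd (mem_Ioc.1 (hF h)).1 (by omega), ?_⟩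
  have hsplit : partSum α σ Λ' M' =
      T + ∑ n ∈ F, (w n : ℂ) * Complex.exp ((θ n : ℂ) * Complex.I) := by
    rw [hT, partSum, partSum, hw]
    rw [← sum_range_add_sum_Ico _ (show M + 1 ≤ M' + 1 by omega),
      Finset.Ico_add_one_add_one_eq_Ioc, ← sum_sdiff hF, add_assoc, ← hR]
    refine congr_arg₂ (· + ·) (sum_congr rfl fun n hn => ?_)
      (congr_arg₂ (· + ·) (sum_congr rfl fun n hn => ?_) (sum_congr rfl fun n hn => ?_))
    · rw [hold n (by rw [mem_range] at hn; omega) fun h => by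
        rw [mem_range] at hn; exact absurd (mem_Ioc.1 (hF h)).1 (by omega)]
    · rw [hR, Finset.mem_sdiff] at hn
      rw [hold n (mem_Ioc.1 hn.1).2 hn.2]
    · rw [hnew n hn]
  rw [hsplit]
  refine hθ.trans ?_
  rw [hw]
  refine max_le_max ?_ le_rfl
  have hTle : ‖T‖ ≤ ‖partSum α σ Λ M‖ + ∑ n ∈ R, w n := by
    rw [hT]
    refine (norm_add_le _ _).trans (add_le_add le_rfl (norm_sum_le_of_le _ fun n _ => ?_))
    rw [norm_mul, Complex.norm_exp_ofReal_mul_I, mul_one, Complex.norm_real,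
      Real.norm_of_nonneg (hw0 n)]
  obtain ⟨N, hN⟩ : ∃ N, N = M / L := ⟨_, rfl⟩
  rw [← hN] at hcard hM' ⊢
  have hRcard : (R.card : ℝ) ≤ (1 / 2 - η) * N := by
    have h1 := card_sdiff_of_subset hF
    rw [Nat.card_Ioc, ← hR, show M' - M = N by omega] at h1
    have h2 : F.card ≤ N := by
      have := card_le_card hF
      rw [Nat.card_Ioc] at this
      omega
    rw [h1, Nat.cast_sub h2]
    linarith
  obtain ⟨u, hu⟩ : ∃ u, u = shiftWt α σ M := ⟨_, rfl⟩
  have hu0 : 0 ≤ u := hu ▸ (Real.exp_pos _).le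
  have hRs : ∑ n ∈ R, w n ≤ (1 / 2 - η) * N * u := by
    refine (sum_le_sum (g := fun _ => u) fun n hn => ?_).trans ?_
    · rw [hR, Finset.mem_sdiff] at hn
      rw [hw, hu]
      exact shiftWt_anti hα hσ0 (mem_Ioc.1 hn.1).1.le
    · rw [sum_const, nsmul_eq_mul]
      exact mul_le_mul_of_nonneg_right hRcard hu0
  have hlow : (1 - η) * u ≤ shiftWt α σ M' := by
    rw [hu, shiftWt, shiftWt]
    have hL0 : (0 : ℝ) < L := by
      rcases Nat.eq_zero_or_pos L with h | h
      · rw [h] at hL; norm_num at hL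
      · exact Nat.cast_pos.2 h
    have h1 : shiftLog α M' - shiftLog α M ≤ (1 : ℝ) / L := by
      rw [shiftLog, shiftLog, ← Real.log_div (by positivity) (by positivity)]
      refine (Real.log_le_sub_one_of_pos (by positivity)).trans ?_
      rw [div_sub_one (by positivity), hM', hN]
      push_cast
      have h2 : ((M / L : ℕ) : ℝ) ≤ (M : ℝ) / L := Nat.cast_div_le
      rw [div_le_div_iff₀ (by positivity) hL0]
      rw [le_div_iff₀ hL0] at h2
      linarith
    have h3 : -(σ * shiftLog α M) - 2 / L ≤ -(σ * shiftLog α M') := by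
      have h4 : σ * (shiftLog α M' - shiftLog α M) ≤ 2 / L :=
        calc σ * (shiftLog α M' - shiftLog α M) ≤ σ * ((1 : ℝ) / L) :=
              mul_le_mul_of_nonneg_left h1 hσ0
          _ ≤ 2 * ((1 : ℝ) / L) := mul_le_mul_of_nonneg_right hσ2 (by positivity)
          _ = 2 / L := by ring
      linarith
    refine le_trans ?_ (Real.exp_le_exp.2 h3)
    rw [sub_eq_add_neg (-(σ * shiftLog α M)), Real.exp_add, mul_comm (Real.exp _)]
    refine mul_le_mul_of_nonneg_right ?_ (Real.exp_pos _).le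
    have h5 := Real.add_one_le_exp (-(2 / (L : ℝ)))
    have : 2 / (L : ℝ) ≤ η := by rw [div_le_iff₀ hL0]; linarith
    linarith
  have hFs : (1 / 2 + η) * N * u - η / 2 * N * u - η ^ 2 * N * u ≤ ∑ n ∈ F, w n := by
    rcases le_or_gt η 1 with hη1 | hη1
    · refine le_trans ?_ (sum_le_sum (f := fun _ => (1 - η) * u) fun n hn =>
        hlow.trans (hw ▸ shiftWt_anti hα hσ0 (mem_Ioc.1 (hF hn)).2))
      rw [sum_const, nsmul_eq_mul]
      refine le_trans (le_of_eq ?_) (mul_le_mul_of_nonneg_right hcard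
        (mul_nonneg (by linarith) hu0))
      ring
    · refine le_trans ?_ (sum_nonneg fun n _ => hw0 n)
      have h6 : 0 ≤ (N : ℝ) * u := by positivity
      have h7 : η ≤ η ^ 2 := by nlinarith
      nlinarith
  have hη2 : η ≤ 1 / 2 ∨ N = 0 := by
    rcases Nat.eq_zero_or_pos N with h | h
    · exact Or.inr h
    refine Or.inl ?_
    have h1 : (F.card : ℝ) ≤ N := by
      have := card_le_card hF
      rw [Nat.card_Ioc] at this
      exact_mod_cast (show F.card ≤ N by omega)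
    by_contra hc
    rw [not_le] at hc
    have : (0 : ℝ) < N := Nat.cast_pos.2 h
    nlinarith
  rw [hw] at hFs hRs hTle
  rw [← hu]
  rcases hη2 with hη2 | hη2
  · have h8 : η ^ 2 * N * u ≤ η / 2 * N * u :=
      mul_le_mul_of_nonneg_right (mul_le_mul_of_nonneg_right (by nlinarith) (Nat.cast_nonneg _)) hu0
    linarith
  · rw [hη2, Nat.cast_zero] at hFs hRs ⊢
    linarith

/-- **A twist with a zero.** -/
theorem exists_twist_zero_of_freeDense {α : ℝ} (hα : 0 < α) (hdense : FreeDense α) {δ : ℝ}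
    (hδ : 0 < δ) :
    ∃ (σ : ℝ) (c : ℕ → ℂ), 1 < σ ∧ σ < 1 + δ ∧ (∀ n, ‖c n‖ = 1) ∧
      Approachable (shiftLog α) c ∧
      (Summable fun n => shiftWt α σ n) ∧ twSeries (fun _ => 1) (shiftLog α) c σ = 0 := by
  classical
  obtain ⟨η, hη, hd⟩ := hdense
  obtain ⟨L, hL⟩ : ∃ L : ℕ, 4 ≤ η * L := by
    obtain ⟨L, hL⟩ := exists_nat_ge (4 / η)
    exact ⟨L, by rw [div_le_iff₀ hη] at hL; linarith⟩
  have hL1 : 1 ≤ L := Nat.pos_of_ne_zero fun h => by rw [h] at hL; norm_num at hL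
  obtain ⟨M₀, hM₀⟩ := eventually_atTop.1 ((hd L hL1).and ((Tendsto.atTop_mul_const hη
    (tendsto_natCast_atTop_atTop.comp (tendsto_atTop_atTop.2 fun b => ⟨b * L, fun a ha =>
      (Nat.le_div_iff_mul_le (by omega)).2 ha⟩))).eventually_ge_atTop 4))
  obtain ⟨M₁, hM₁⟩ : ∃ M₁ : ℕ, M₁ = max M₀ L := ⟨_, rfl⟩
  obtain ⟨Ms, hMs⟩ : ∃ Ms : ℕ → ℕ, Ms = fun i => (fun m => m + m / L)^[i] M₁ := ⟨_, rfl⟩
  have hMs0 : Ms 0 = M₁ := by rw [hMs]; rfl
  have hMss : ∀ i, Ms (i + 1) = Ms i + Ms i / L := fun i => by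
    rw [hMs]
    exact Function.iterate_succ_apply' _ _ _
  have hMge : ∀ i, M₁ + i ≤ Ms i := by
    intro i
    induction i with
    | zero => simp [hMs0]
    | succ i ih =>
      have : 1 ≤ Ms i / L := (Nat.one_le_div_iff (by omega)).2 (by
        have := le_max_right M₀ L
        omega)
      rw [hMss]
      omega
  have hMge' : ∀ i, M₀ ≤ Ms i ∧ L ≤ Ms i := fun i => by
    have := hMge i
    have := le_max_left M₀ L
    have := le_max_right M₀ L
    omega
  obtain ⟨A, hA⟩ : ∃ A, A = ∑ n ∈ range (M₁ + 1), (((n : ℝ) + α)⁻¹ + (((n : ℝ) + α) ^ 2)⁻¹) :=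
    ⟨_, rfl⟩
  have hdiv : ∃ I, A + 1 < η * ∑ n ∈ Ioc M₁ (Ms I), ((n : ℝ) + α)⁻¹ := by
    by_contra hcon
    push Not at hcon
    refine Real.not_summable_natCast_inv ?_
    have hs : Summable fun n : ℕ => ((n : ℝ) + α)⁻¹ := by
      refine summable_of_sum_range_le (fun n => by positivity) (fun n => ?_) (c :=
        (∑ m ∈ range (M₁ + 1), ((m : ℝ) + α)⁻¹) + (A + 1) / η)
      calc ∑ m ∈ range n, ((m : ℝ) + α)⁻¹
          ≤ ∑ m ∈ range (Ms n + 1), ((m : ℝ) + α)⁻¹ :=
            sum_le_sum_of_subset_of_nonneg (range_mono (by have := hMge n; omega))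
              fun m _ _ => by positivity
        _ = ∑ m ∈ range (M₁ + 1), ((m : ℝ) + α)⁻¹ + ∑ m ∈ Ioc M₁ (Ms n), ((m : ℝ) + α)⁻¹ := by
            rw [← sum_range_add_sum_Ico _ (show M₁ + 1 ≤ Ms n + 1 by have := hMge n; omega),
              Finset.Ico_add_one_add_one_eq_Ioc]
        _ ≤ _ := by
            refine add_le_add le_rfl ?_
            rw [le_div_iff₀ hη, mul_comm]
            exact hcon n
    refine (summable_nat_add_iff 1).1 ?_
    refine Summable.of_nonneg_of_le (fun n => by positivity) (fun n => ?_) (hs.mul_left (1 + α))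
    push_cast
    rw [inv_le_iff_one_le_mul₀ (by positivity), mul_assoc, inv_mul_eq_div, ← mul_div_assoc,
      le_div_iff₀ (by positivity), one_mul]
    have : (0 : ℝ) ≤ α * n := by positivity
    linarith
  obtain ⟨I, hI⟩ := hdiv
  have hcont : Tendsto (fun σ : ℝ => η * ∑ n ∈ Ioc M₁ (Ms I), shiftWt α σ n) (𝓝 1)
      (𝓝 (η * ∑ n ∈ Ioc M₁ (Ms I), ((n : ℝ) + α)⁻¹)) := by
    refine (tendsto_finsetSum _ fun n _ => ?_).const_mul _
    have e : ((n : ℝ) + α)⁻¹ = shiftWt α 1 n := by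
      rw [shiftWt_eq hα, Real.rpow_neg_one]
    rw [e]
    unfold shiftWt
    exact Continuous.tendsto (by fun_prop) 1
  obtain ⟨σ, ⟨hσA, hσ2, hσδ⟩, hσ1⟩ := ((((hcont.eventually (lt_mem_nhds hI)).and
    ((eventually_lt_nhds (show (1 : ℝ) < 2 by norm_num)).and
      (eventually_lt_nhds (show (1 : ℝ) < 1 + δ by linarith)))).filter_mono
    nhdsWithin_le_nhds).and (self_mem_nhdsWithin (a := (1 : ℝ)) (s := Set.Ioi 1))).exists
  replace hσ1 : 1 < σ := hσ1
  have hσ0 : 0 ≤ σ := by linarith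
  have hstep : ∀ i, ∀ Λ : ℝ →ₗ[ℚ] ℝ, ∃ Λ' : ℝ →ₗ[ℚ] ℝ,
      (∀ n ≤ Ms i, Λ' (shiftLog α n) = Λ (shiftLog α n)) ∧
      ‖partSum α σ Λ' (Ms (i + 1))‖ ≤ max (‖partSum α σ Λ (Ms i)‖ -
        η * (Ms i / L : ℕ) * shiftWt α σ (Ms i)) (shiftWt α σ (Ms i)) := by
    intro i Λ
    obtain ⟨⟨F, hF, hcard, hfree⟩, -⟩ := hM₀ _ (hMge' i).1
    rw [hMss]
    exact exists_step hα hσ0 hσ2.le hη hL (by have := (hMge' i).2; omega) hF hcard hfree Λ
  choose next hagree hbound using hstep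
  obtain ⟨Λs, hΛs⟩ : ∃ Λs : ℕ → (ℝ →ₗ[ℚ] ℝ), Λs = fun i => Nat.rec 0 (fun i Λ => next i Λ) i :=
    ⟨_, rfl⟩
  have hΛss : ∀ i, Λs (i + 1) = next i (Λs i) := fun i => by rw [hΛs]
  have hstable : ∀ i j, i ≤ j → ∀ n ≤ Ms i, Λs j (shiftLog α n) = Λs i (shiftLog α n) := by
    intro i j hij
    induction hij with
    | refl => exact fun n _ => rfl
    | @step j hij ih =>
      intro n hn
      rw [hΛss, hagree j (Λs j) n (le_trans hn (by
        have hmono : Monotone Ms := monotone_nat_of_le_succ fun k => by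
          rw [hMss]; exact Nat.le_add_right _ _
        exact hmono hij))]
      exact ih n hn
  obtain ⟨c, hc⟩ : ∃ c : ℕ → ℂ,
      c = fun n => Complex.exp ((Λs n (shiftLog α n) : ℂ) * Complex.I) := ⟨_, rfl⟩
  have hc' : ∀ i n, n ≤ Ms i → c n = Complex.exp ((Λs i (shiftLog α n) : ℂ) * Complex.I) := by
    intro i n hn
    simp only [hc]
    rcases le_total n i with h | h
    · rw [hstable n i h n (by have := hMge n; omega)]
    · rw [hstable i n h n hn]
  obtain ⟨u, hu⟩ : ∃ u : ℕ → ℝ, u = fun i => shiftWt α σ (Ms i) := ⟨_, rfl⟩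
  obtain ⟨E, hE⟩ : ∃ E : ℕ → ℝ, E = fun i => ‖partSum α σ (Λs i) (Ms i)‖ := ⟨_, rfl⟩
  have hu0 : ∀ i, 0 ≤ u i := fun i => hu ▸ (Real.exp_pos _).le
  have hrec : ∀ i, E (i + 1) ≤ max (E i - η * (Ms i / L : ℕ) * u i) (u i) := fun i => by
    rw [hE, hu]
    simp only [hΛss]
    exact hbound i (Λs i)
  have hblock : ∀ i, η * ∑ n ∈ Ioc (Ms i) (Ms (i + 1)), shiftWt α σ n ≤
      η * (Ms i / L : ℕ) * u i := by
    intro i
    rw [mul_assoc]
    refine mul_le_mul_of_nonneg_left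
      ((sum_le_sum (g := fun _ => u i) fun n hn => ?_).trans ?_) hη.le
    · rw [hu]
      exact shiftWt_anti hα hσ0 (mem_Ioc.1 hn).1.le
    · rw [sum_const, Nat.card_Ioc, hMss, Nat.add_sub_cancel_left, nsmul_eq_mul]
  have hE0 : E 0 ≤ A := by
    rw [hE, hA]
    simp only [hMs0]
    refine norm_sum_le_of_le _ fun n _ => ?_
    rw [norm_mul, Complex.norm_exp_ofReal_mul_I, mul_one, Complex.norm_real, Real.norm_eq_abs,
      abs_of_nonneg (show 0 ≤ shiftWt α σ n from (Real.exp_pos _).le), shiftWt_eq hα,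
      Real.rpow_neg (by positivity)]
    have hb : (0 : ℝ) < (n : ℝ) + α := by positivity
    rcases le_total 1 ((n : ℝ) + α) with h | h
    · refine le_add_of_le_of_nonneg (inv_anti₀ hb ?_) (by positivity)
      exact le_of_eq_of_le (Real.rpow_one _).symm (Real.rpow_le_rpow_of_exponent_le h hσ1.le)
    · refine le_add_of_nonneg_of_le (by positivity) (inv_anti₀ (by positivity) ?_)
      rw [← Real.rpow_two]
      exact Real.rpow_le_rpow_of_exponent_ge hb h hσ2.le
  have hhit : ∃ j, E (j + 1) ≤ u j := by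
    by_contra hcon
    push Not at hcon
    have hdec : ∀ i, E i ≤ A - η * ∑ n ∈ Ioc M₁ (Ms i), shiftWt α σ n := by
      intro i
      induction i with
      | zero => simpa [hMs0] using hE0
      | succ i ih =>
        have h1 : E (i + 1) ≤ E i - η * (Ms i / L : ℕ) * u i := by
          rcases le_max_iff.1 (hrec i) with h | h
          · exact h
          · exact absurd h (not_le.2 (hcon i))
        have h2 := hblock i
        rw [← sum_Ioc_consecutive _ (show M₁ ≤ Ms i by have := hMge i; omega)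
          (show Ms i ≤ Ms (i + 1) by rw [hMss]; exact Nat.le_add_right _ _), mul_add]
        linarith
    have h1 := hdec I
    have h2 : 0 ≤ E I := hE ▸ norm_nonneg _
    linarith
  obtain ⟨j, hj⟩ := hhit
  have hquarter : ∀ i, u i ≤ η * (Ms (i + 1) / L : ℕ) * u (i + 1) := by
    intro i
    have h4 : (4 : ℝ) ≤ (Ms (i + 1) / L : ℕ) * η := (hM₀ _ (hMge' (i + 1)).1).2
    have h5 : u i ≤ 4 * u (i + 1) := by
      rw [hu]
      simp only [shiftWt_eq hα]
      have hb : (0 : ℝ) < (Ms i : ℝ) + α := by positivity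
      have hb' : (0 : ℝ) < (Ms (i + 1) : ℝ) + α := by positivity
      rw [Real.rpow_neg hb.le, Real.rpow_neg hb'.le, ← div_eq_mul_inv, inv_le_comm₀ (by positivity)
        (by positivity), inv_div, div_le_iff₀' (by norm_num)]
      have h6 : (Ms (i + 1) : ℝ) + α ≤ 2 * ((Ms i : ℝ) + α) := by
        have : Ms (i + 1) ≤ 2 * Ms i := by
          rw [hMss]
          have := Nat.div_le_self (Ms i) L
          omega
        have h7 : (Ms (i + 1) : ℝ) ≤ 2 * Ms i := by exact_mod_cast this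
        linarith
      refine (Real.rpow_le_rpow hb'.le h6 hσ0).trans ?_
      rw [Real.mul_rpow two_pos.le hb.le]
      refine mul_le_mul_of_nonneg_right ?_ (by positivity)
      refine (Real.rpow_le_rpow_of_exponent_le one_le_two hσ2.le).trans (le_of_eq ?_)
      norm_num
    rw [mul_comm (η : ℝ)]
    exact h5.trans (mul_le_mul_of_nonneg_right h4 (hu0 _))
  have hafter : ∀ i, j ≤ i → E (i + 1) ≤ u i := by
    intro i hi
    induction hi with
    | refl => exact hj
    | @step i hi ih =>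
      exact (hrec (i + 1)).trans (max_le (by linarith [hquarter i, hu0 (i + 1)]) le_rfl)
  have hsum : Summable fun n => shiftWt α σ n := by
    refine ((Real.summable_one_div_nat_add_rpow α σ).2 hσ1).congr fun n => ?_
    rw [shiftWt_eq hα, abs_of_pos (by positivity), Real.rpow_neg (by positivity), one_div]
  refine ⟨σ, c, hσ1, hσδ, fun n => hc ▸ Complex.norm_exp_ofReal_mul_I _, ?_, hsum, ?_⟩
  · exact approachable_of_linear fun N => ⟨Λs N, fun n hn =>
      hc' N n (by have := hMge N; omega)⟩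
  · have hterm : ∀ n, term (fun _ => 1) (shiftLog α) c σ n = (shiftWt α σ n : ℂ) * c n := by
      intro n
      rw [term, one_mul, mul_comm, shiftWt, Complex.ofReal_exp]
      push_cast
      rfl
    have hst : Summable (term (fun _ => 1) (shiftLog α) c σ) := by
      refine Summable.of_norm_bounded hsum fun n => ?_
      rw [hterm, norm_mul, hc, Complex.norm_exp_ofReal_mul_I, mul_one, Complex.norm_real,
        Real.norm_of_nonneg (show 0 ≤ shiftWt α σ n from (Real.exp_pos _).le)]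
    have hlimM : Tendsto (fun i => Ms i + 1) atTop atTop :=
      tendsto_atTop_mono (fun i => by show i ≤ Ms i + 1; have := hMge i; omega) tendsto_id
    have h1 := hst.hasSum.tendsto_sum_nat.comp hlimM
    have h2 : Tendsto (fun i => ∑ n ∈ range (Ms i + 1), term (fun _ => 1) (shiftLog α) c σ n)
        atTop (𝓝 0) := by
      refine (tendsto_add_atTop_iff_nat 1).1 ?_
      have hu' : Tendsto u atTop (𝓝 0) := by
        rw [hu]
        exact hsum.tendsto_atTop_zero.comp (tendsto_atTop_mono (fun i => by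
          show i ≤ Ms i; have := hMge i; omega) tendsto_id)
      refine squeeze_zero_norm' ?_ hu'
      filter_upwards [eventually_ge_atTop j] with i hi
      refine le_trans (le_of_eq ?_) (hafter i hi)
      rw [hE]
      refine congrArg norm (sum_congr rfl fun n hn => ?_)
      rw [hterm, hc' (i + 1) n (by rw [mem_range] at hn; omega)]
    exact tendsto_nhds_unique h1 h2

end FA.CasselsHurwitz
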