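import Fermat.Agent.CasselsHurwitz.Irrational
import Fermat.Agent.CasselsHurwitz.Combination
import Fermat.Agent.Joint.Combination

/-!
# Zeros of the Hurwitz zeta function right of the line one

For every real `0 < a < 1` other than `1/2` and every `δ > 0` the function `ζ (s, a)` has at least
`C T` zeros with `1 < re s < 1 + δ` and `0 < im s ≤ T` (Davenport and Heilbronn for rational and
for transcendental `a`, Cassels for algebraic irrational `a`).
-/

set_option autoImplicit false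

noncomputable section

namespace FA.CasselsHurwitz

open Filter Complex Finset
open DirichletCharacter (LFunction)
open HurwitzZeta (hurwitzZeta)
open scoped Topology Real

/-- `G` has at least `C T` zeros with `1 < re s < 1 + δ` and `0 < im s ≤ T`. -/
def ManyZerosRight (G : ℂ → ℂ) (δ : ℝ) : Prop :=
  ∃ C : ℝ, 0 < C ∧ ∀ᶠ T : ℝ in atTop, ∃ S : Finset ℂ, C * T ≤ S.card ∧
    ∀ s ∈ S, 1 < s.re ∧ s.re < 1 + δ ∧ 0 < s.im ∧ s.im ≤ T ∧ G s = 0

theorem manyZerosRight_of_twist {a c : ℕ → ℂ} {lam : ℕ → ℝ} (ha : Majorised a lam)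
    (hlam : StrictMono lam) (hne : ∃ n, a n ≠ 0) (hc : ∀ n, ‖c n‖ = 1)
    (happ : Approachable lam c) {σ δ : ℝ} (h1 : 1 < σ) (h2 : σ < 1 + δ)
    (h0 : twSeries a lam c σ = 0) {G : ℂ → ℂ}
    (hG : ∀ s : ℂ, 1 < s.re → G s = twSeries a lam (fun _ => 1) s) :
    ManyZerosRight G δ := by
  obtain ⟨C, hC, hev⟩ := exists_zeros_ge ha hlam hne hc happ (σ₁ := (1 + σ) / 2) (σ₂ := 1 + δ)
    (by linarith) (by linarith) h2 h0 hG
  refine ⟨C, hC, hev.mono fun T ⟨S, hS, hS'⟩ => ⟨S, hS, fun s hs => ?_⟩⟩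
  obtain ⟨e1, e2, e3⟩ := hS' s hs
  exact ⟨by linarith, e2, e3⟩

section combination

variable {q : ℕ} [NeZero q]

theorem charComb_eq_twSeries (c : DirichletCharacter ℂ q → ℂ) {s : ℂ} (hs : 1 < s.re) :
    FA.Joint.charComb c s = twSeries (combCoef c) natLog' (fun _ => 1) s := by
  have hterm : ∀ (χ : DirichletCharacter ℂ q) (n : ℕ),
      LSeries.term (fun k => χ k) s (n + 1) =
        χ ((n + 1 : ℕ) : ZMod q) * cexp (-(s * natLog' n)) := by
    intro χ n
    rw [LSeries.term_of_ne_zero (Nat.succ_ne_zero n), natLog',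
      Complex.cpow_def_of_ne_zero (Nat.cast_ne_zero.2 (Nat.succ_ne_zero n)),
      show ((n + 1 : ℕ) : ℂ) = (((n + 1 : ℕ) : ℝ) : ℂ) by push_cast; ring,
      ← Complex.ofReal_log (Nat.cast_nonneg _), div_eq_mul_inv, ← Complex.exp_neg, mul_comm s]
  have hL : ∀ χ : DirichletCharacter ℂ q,
      HasSum (fun n => χ ((n + 1 : ℕ) : ZMod q) * cexp (-(s * natLog' n))) (LFunction χ s) := by
    intro χ
    have h : HasSum (LSeries.term (fun k => χ k) s) (LFunction χ s) := by
      rw [DirichletCharacter.LFunction_eq_LSeries χ hs]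
      exact (ZMod.LSeriesSummable_of_one_lt_re χ hs).hasSum
    have h' := (hasSum_nat_add_iff' 1).2 h
    rw [sum_range_one, LSeries.term_zero, sub_zero] at h'
    exact h'.congr_fun fun n => (hterm χ n).symm
  refine (HasSum.tsum_eq ?_).symm
  refine ((hasSum_sum fun χ _ => (hL χ).mul_left (c χ)).congr_fun fun n => ?_)
  rw [term, combCoef, mul_one, sum_mul]
  exact sum_congr rfl fun χ _ => mul_assoc _ _ _

/-- **A combination with two non-zero coefficients vanishes right of the line one.** -/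
theorem manyZerosRight_charComb {c : DirichletCharacter ℂ q → ℂ}
    {χ₀ χ₁ : DirichletCharacter ℂ q} (h01 : χ₀ ≠ χ₁) (h0 : c χ₀ ≠ 0) (h1 : c χ₁ ≠ 0) {δ : ℝ}
    (hδ : 0 < δ) : ManyZerosRight (FA.Joint.charComb c) δ := by
  obtain ⟨σ, tw, hσ1, hσδ, htw, happ, hz⟩ := exists_twist_zero_comb h01 h0 h1 hδ
  exact manyZerosRight_of_twist (majorised_comb c) strictMono_natLog'
    (exists_combCoef_ne_zero h0) htw happ hσ1 hσδ hz fun s hs => charComb_eq_twSeries c hs

end combination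

theorem hurwitzZeta_eq_twSeries {α : ℝ} (h0 : 0 < α) (h1 : α ≤ 1) {s : ℂ} (hs : 1 < s.re) :
    hurwitzZeta (α : UnitAddCircle) s = twSeries (fun _ => 1) (shiftLog α) (fun _ => 1) s := by
  refine (HasSum.tsum_eq ?_).symm
  refine (HurwitzZeta.hasSum_hurwitzZeta_of_one_lt_re ⟨h0.le, h1⟩ hs).congr_fun fun n => ?_
  have hpos : 0 < (n : ℝ) + α := by positivity
  rw [term, one_mul, one_mul, shiftLog, Complex.ofReal_log hpos.le, one_div,
    Complex.cpow_def_of_ne_zero (by exact_mod_cast hpos.ne'), ← Complex.exp_neg]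
  push_cast
  ring_nf

theorem majorised_shiftLog {α : ℝ} (hα : 0 < α) : Majorised (fun _ => 1) (shiftLog α) := by
  intro σ hσ
  refine ((Real.summable_one_div_nat_add_rpow α σ).2 hσ).congr fun n => ?_
  rw [norm_one, one_mul, ← shiftWt, shiftWt_eq hα, abs_of_pos (by positivity),
    Real.rpow_neg (by positivity), one_div]

theorem strictMono_shiftLog {α : ℝ} (hα : 0 < α) : StrictMono (shiftLog α) := fun m n h =>
  Real.log_lt_log (by positivity) (add_lt_add_left (Nat.cast_lt.2 h) α)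

/-- **Irrational parameters.** -/
theorem manyZerosRight_hurwitz_irrational {α : ℝ} (h0 : 0 < α) (h1 : α ≤ 1) (hirr : Irrational α)
    {δ : ℝ} (hδ : 0 < δ) : ManyZerosRight (hurwitzZeta (α : UnitAddCircle)) δ := by
  obtain ⟨σ, c, hσ1, hσδ, hc, happ, -, hz⟩ :=
    exists_twist_zero_of_freeDense h0 (freeDense_of_irrational h0 hirr) hδ
  exact manyZerosRight_of_twist (majorised_shiftLog h0) (strictMono_shiftLog h0)
    ⟨0, one_ne_zero⟩ hc happ hσ1 hσδ hz fun s hs => hurwitzZeta_eq_twSeries h0 h1 hs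

/-- **Parameters in a class prime to `q ≥ 3`.** -/
theorem manyZerosRight_hurwitz_class {q : ℕ} [NeZero q] {a : ZMod q} (ha : IsUnit a) (hq : 3 ≤ q)
    {δ : ℝ} (hδ : 0 < δ) : ManyZerosRight (hurwitzZeta (ZMod.toAddCircle a)) δ := by
  have : Fact (2 < q) := ⟨by omega⟩
  obtain ⟨χ, hχ⟩ := DirichletCharacter.exists_apply_ne_one_of_hasEnoughRootsOfUnity ℂ
    (n := q) (ZMod.neg_one_ne_one (n := q))
  have hu : IsUnit a⁻¹ := IsUnit.of_mul_eq_one a (ZMod.inv_mul_of_unit a ha)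
  have hne : ∀ ψ : DirichletCharacter ℂ q, ψ a⁻¹ ≠ 0 := fun ψ => (hu.map ψ).ne_zero
  obtain ⟨C, hC, hev⟩ := manyZerosRight_charComb
    (c := fun ψ : DirichletCharacter ℂ q => ψ a⁻¹) (χ₀ := 1) (χ₁ := χ)
    (fun h => hχ (by rw [← h, MulChar.one_apply isUnit_one.neg])) (hne 1) (hne χ) hδ
  refine ⟨C, hC, hev.mono fun T ⟨S, hS, hS'⟩ => ⟨S, hS, fun s hs => ?_⟩⟩
  obtain ⟨e1, e2, e3, e4, e5⟩ := hS' s hs
  exact ⟨e1, e2, e3, e4, by rw [FA.Joint.hurwitzZeta_eq_charComb ha, e5, mul_zero]⟩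

/-- **Zeros of `ζ (s, a)` right of the line one.** -/
theorem manyZerosRight_hurwitz {α : ℝ} (h0 : 0 < α) (h1 : α < 1) (h2 : α ≠ 1 / 2) {δ : ℝ}
    (hδ : 0 < δ) : ManyZerosRight (hurwitzZeta (α : UnitAddCircle)) δ := by
  by_cases hirr : Irrational α
  · exact manyZerosRight_hurwitz_irrational h0 h1.le hirr hδ
  simp only [Irrational, Set.mem_range, not_not] at hirr
  obtain ⟨a, rfl⟩ := hirr
  have ha0 : 0 < a := Rat.cast_pos.1 h0
  have ha1 : a < 1 := by exact_mod_cast h1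
  obtain ⟨b, hb⟩ : ∃ b : ℕ, a.num = b := ⟨a.num.toNat, (Int.toNat_of_nonneg
    (Rat.num_nonneg.2 ha0.le)).symm⟩
  have hb0 : 0 < b := by
    have := Rat.num_pos.2 ha0
    omega
  have hbq : b < a.den := by
    have h := Rat.num_lt_denom_iff.2 ha1
    rw [hb] at h
    exact_mod_cast h
  have hcop : b.Coprime a.den := by
    have h := a.reduced
    rwa [hb, Int.natAbs_natCast] at h
  have hq : 3 ≤ a.den := by
    rcases Nat.lt_or_ge a.den 3 with h | h
    · refine absurd ?_ h2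
      have hd : a.den = 2 := by omega
      have hn : b = 1 := by omega
      rw [Rat.cast_def, hb, hd, hn]
      norm_num
    · exact h
  have : NeZero a.den := ⟨a.den_nz⟩
  have h := manyZerosRight_hurwitz_class (q := a.den)
    ((ZMod.isUnit_iff_coprime b a.den).2 hcop) hq hδ
  rwa [ZMod.toAddCircle_natCast, show (b : ℝ) / (a.den : ℝ) = (a : ℝ) by
    rw [Rat.cast_def, hb, Int.cast_natCast]] at h

theorem hurwitzZeta_one_ne_zero {s : ℂ} (hs : 1 < s.re) :
    hurwitzZeta ((1 : ℝ) : UnitAddCircle) s ≠ 0 := by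
  rw [show ((1 : ℝ) : UnitAddCircle) = 0 from AddCircle.coe_period 1, HurwitzZeta.hurwitzZeta_zero]
  exact riemannZeta_ne_zero_of_one_le_re hs.le

theorem hurwitzZeta_half_ne_zero {s : ℂ} (hs : 1 < s.re) :
    hurwitzZeta ((1 / 2 : ℝ) : UnitAddCircle) s ≠ 0 := by
  have h := FA.Joint.hurwitzZeta_eq_charComb (q := 2) (a := 1) isUnit_one s
  rw [show (1 : ZMod 2) = ((1 : ℕ) : ZMod 2) from Nat.cast_one.symm,
    ZMod.toAddCircle_natCast, Nat.cast_one, Nat.cast_ofNat] at h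
  rw [h]
  have : Subsingleton (DirichletCharacter ℂ 2) := ⟨fun χ ψ => MulChar.ext fun u => by
    rw [show u = 1 from Subsingleton.elim _ _]
    simp⟩
  have hc : ∀ f : DirichletCharacter ℂ 2 → ℂ, ∑ χ : DirichletCharacter ℂ 2, f χ = f 1 :=
    fun f => Fintype.sum_subsingleton f 1
  rw [FA.Joint.charComb, hc]
  refine mul_ne_zero (div_ne_zero ?_ ?_) (mul_ne_zero (by simp) ?_)
  · exact fun h => two_ne_zero (Complex.cpow_eq_zero_iff (2 : ℂ) s |>.1 h).1
  · simp [Nat.totient_prime Nat.prime_two]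
  · exact DirichletCharacter.LFunction_ne_zero_of_one_le_re 1
      (.inr fun h => by rw [h, Complex.one_re] at hs; exact lt_irrefl _ hs) hs.le

end FA.CasselsHurwitz
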