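import Fermat.Agent.KroneckerApprox.Torus
import Fermat.Agent.Voronin.Bagchi

/-!
# Twisted Dirichlet series and the zeros they force

A general Dirichlet series `∑ a n exp (- s λ n)`, absolutely convergent for `re s > 1`, is close on
compact sets, at heights of bounded gaps, to each of its twists by phases which its vertical shifts
approach. So one zero of such a twist gives at least `C T` zeros of the series.
-/

set_option autoImplicit false

noncomputable section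

namespace FA.CasselsHurwitz

open Filter Complex Finset
open scoped Topology Real

variable {a c : ℕ → ℂ} {lam : ℕ → ℝ}

/-- The term of a twisted series. -/
def term (a : ℕ → ℂ) (lam : ℕ → ℝ) (c : ℕ → ℂ) (s : ℂ) (n : ℕ) : ℂ :=
  a n * c n * cexp (-(s * lam n))

/-- The twisted series. -/
def twSeries (a : ℕ → ℂ) (lam : ℕ → ℝ) (c : ℕ → ℂ) (s : ℂ) : ℂ := ∑' n, term a lam c s n

/-- Absolute convergence right of the line one. -/
def Majorised (a : ℕ → ℂ) (lam : ℕ → ℝ) : Prop :=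
  ∀ σ : ℝ, 1 < σ → Summable fun n => ‖a n‖ * Real.exp (-(σ * lam n))

/-- Phases which the vertical shifts approach. -/
def Approachable (lam : ℕ → ℝ) (c : ℕ → ℂ) : Prop :=
  ∀ N : ℕ, ∀ ε : ℝ, 0 < ε → ∃ t : ℝ, ∀ n < N, ‖cexp (-((t * lam n : ℝ) * I)) - c n‖ < ε

/-- The majorant on a strip. -/
def majTerm (a : ℕ → ℂ) (lam : ℕ → ℝ) (σ₀ σ₁ : ℝ) (n : ℕ) : ℝ :=
  ‖a n‖ * (Real.exp (-(σ₀ * lam n)) + Real.exp (-(σ₁ * lam n)))

theorem summable_majTerm (h : Majorised a lam) {σ₀ σ₁ : ℝ} (h0 : 1 < σ₀) (h1 : 1 < σ₁) :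
    Summable (majTerm a lam σ₀ σ₁) :=
  ((h σ₀ h0).add (h σ₁ h1)).congr fun n => by rw [majTerm, mul_add]

theorem exp_le_majorant {σ₀ σ₁ x : ℝ} (h : σ₀ ≤ x) (h' : x ≤ σ₁) (l : ℝ) :
    Real.exp (-(x * l)) ≤ Real.exp (-(σ₀ * l)) + Real.exp (-(σ₁ * l)) := by
  rcases le_total 0 l with hl | hl
  · exact le_add_of_le_of_nonneg (Real.exp_le_exp.2 (by nlinarith)) (Real.exp_pos _).le
  · exact le_add_of_nonneg_of_le (Real.exp_pos _).le (Real.exp_le_exp.2 (by nlinarith))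

theorem norm_exp_neg_mul (s : ℂ) (l : ℝ) : ‖cexp (-(s * l))‖ = Real.exp (-(s.re * l)) := by
  rw [Complex.norm_exp]
  simp

theorem norm_term_le (hc : ∀ n, ‖c n‖ ≤ 1) {σ₀ σ₁ : ℝ} {s : ℂ} (h : σ₀ ≤ s.re) (h' : s.re ≤ σ₁)
    (n : ℕ) : ‖term a lam c s n‖ ≤ majTerm a lam σ₀ σ₁ n := by
  rw [term, norm_mul, norm_mul, norm_exp_neg_mul, majTerm]
  exact mul_le_mul (mul_le_of_le_one_right (norm_nonneg _) (hc n)) (exp_le_majorant h h' _)
    (Real.exp_pos _).le (norm_nonneg _)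

theorem summable_term (ha : Majorised a lam) (hc : ∀ n, ‖c n‖ ≤ 1) {s : ℂ} (hs : 1 < s.re) :
    Summable (term a lam c s) :=
  .of_norm_bounded (summable_majTerm ha hs hs) (norm_term_le hc le_rfl le_rfl)

/-- Two twists that agree for a while are close. -/
theorem norm_twSeries_sub_le (ha : Majorised a lam) {c' : ℕ → ℂ} (hc : ∀ n, ‖c n‖ ≤ 1)
    (hc' : ∀ n, ‖c' n‖ ≤ 1) {σ₀ σ₁ : ℝ} (h0 : 1 < σ₀) (h01 : σ₀ ≤ σ₁) {N : ℕ} {ε : ℝ}
    (hε : 0 ≤ ε) (hN : ∀ n < N, ‖c n - c' n‖ ≤ ε) {s : ℂ} (h : σ₀ ≤ s.re) (h' : s.re ≤ σ₁) :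
    ‖twSeries a lam c s - twSeries a lam c' s‖ ≤ ε * ∑' n, majTerm a lam σ₀ σ₁ n +
      2 * ∑' n, majTerm a lam σ₀ σ₁ (n + N) := by
  have hs : 1 < s.re := h0.trans_le h
  have hm := summable_majTerm ha h0 (h0.trans_le h01)
  have hm0 : ∀ n, 0 ≤ majTerm a lam σ₀ σ₁ n := fun n => by rw [majTerm]; positivity
  have hd := (summable_term ha hc hs).sub (summable_term ha hc' hs)
  rw [twSeries, twSeries, ← (summable_term ha hc hs).tsum_sub (summable_term ha hc' hs),
    ← hd.sum_add_tsum_nat_add N]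
  refine (norm_add_le _ _).trans (add_le_add ?_ ?_)
  · calc ‖∑ n ∈ range N, (term a lam c s n - term a lam c' s n)‖
        ≤ ∑ n ∈ range N, ε * majTerm a lam σ₀ σ₁ n := norm_sum_le_of_le _ fun n hn => by
          rw [term, term, ← sub_mul, ← mul_sub, norm_mul, norm_mul, norm_exp_neg_mul, majTerm,
            mul_comm ‖a n‖ ‖c n - c' n‖, mul_assoc]
          exact mul_le_mul (hN n (mem_range.1 hn))
            (mul_le_mul_of_nonneg_left (exp_le_majorant h h' _) (norm_nonneg _))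
            (mul_nonneg (norm_nonneg _) (Real.exp_pos _).le) hε
      _ = ε * ∑ n ∈ range N, majTerm a lam σ₀ σ₁ n := (mul_sum _ _ _).symm
      _ ≤ _ := mul_le_mul_of_nonneg_left (hm.sum_le_tsum _ fun n _ => hm0 n) hε
  · refine tsum_of_norm_bounded (((summable_nat_add_iff N).2 hm).hasSum.mul_left 2) fun n => ?_
    rw [two_mul]
    exact (norm_sub_le _ _).trans (add_le_add (norm_term_le hc h h' _) (norm_term_le hc' h h' _))

theorem differentiableOn_twSeries (ha : Majorised a lam) (hc : ∀ n, ‖c n‖ ≤ 1) :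
    DifferentiableOn ℂ (twSeries a lam c) {s | 1 < s.re} := by
  intro s hs
  simp only [Set.mem_ofPred_eq] at hs
  obtain ⟨σ₀, h1, h2⟩ := exists_between hs
  obtain ⟨U, hU⟩ : ∃ U : Set ℂ, U = Complex.re ⁻¹' Set.Ioo σ₀ (s.re + 1) := ⟨_, rfl⟩
  have hUo : IsOpen U := hU ▸ isOpen_Ioo.preimage Complex.continuous_re
  have hd : DifferentiableOn ℂ (fun w => ∑' n, term a lam c w n) U :=
    differentiableOn_tsum_of_summable_norm (summable_majTerm ha h1 (by linarith : 1 < s.re + 1))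
      (fun n => Differentiable.differentiableOn (by unfold term; fun_prop)) hUo fun n w hw => by
        rw [hU] at hw
        exact norm_term_le hc hw.1.le hw.2.le n
  refine (hd.differentiableAt (hUo.mem_nhds ?_)).differentiableWithinAt
  rw [hU]
  exact ⟨h2, by linarith⟩

theorem twSeries_shift (s : ℂ) (t : ℝ) :
    twSeries a lam (fun _ => 1) (s + t * I) =
      twSeries a lam (fun n => cexp (-((t * lam n : ℝ) * I))) s := by
  refine tsum_congr fun n => ?_
  simp only [term, mul_one, mul_assoc, ← Complex.exp_add]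
  congr 2
  push_cast
  ring

theorem norm_phase (x : ℝ) : ‖cexp (-(x * I))‖ = 1 := by
  rw [Complex.norm_exp]
  simp

/-- **Almost periods.** -/
theorem exists_almostPeriod (lam : ℕ → ℝ) (N : ℕ) {ε : ℝ} (hε : 0 < ε) :
    ∃ L : ℝ, 0 ≤ L ∧ ∀ x : ℝ, ∃ τ : ℝ, x ≤ τ ∧ τ ≤ x + L ∧
      ∀ n < N, ‖cexp (-((τ * lam n : ℝ) * I)) - 1‖ < ε := by
  obtain ⟨γ, hγ⟩ : ∃ γ : ℝ → Fin N → ℂ,
      γ = fun t (n : Fin N) => cexp (-((t * lam n : ℝ) * I)) := ⟨_, rfl⟩
  have htb : TotallyBounded (Set.range γ) :=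
    (isCompact_closedBall (0 : Fin N → ℂ) 1).totallyBounded.subset (Set.range_subset_iff.2 fun t =>
      mem_closedBall_zero_iff.2 ((pi_norm_le_iff_of_nonneg zero_le_one).2 fun n => by
        rw [hγ]; exact (norm_phase _).le))
  obtain ⟨F, hFs, hF, hcov⟩ := Metric.finite_approx_of_totallyBounded htb ε hε
  choose! τ hτ using fun y (hy : y ∈ F) => hFs hy
  obtain ⟨J, hJ⟩ := (hF.image fun y => |τ y|).bddAbove
  have hγ0 : γ 0 ∈ Set.range γ := ⟨0, rfl⟩
  obtain ⟨y0, hy0, -⟩ := Set.mem_iUnion₂.1 (hcov hγ0)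
  have hJ0 : 0 ≤ J := (abs_nonneg _).trans (hJ ⟨y0, hy0, rfl⟩)
  refine ⟨2 * J, by linarith, fun x => ?_⟩
  obtain ⟨y, hy, hdist⟩ := Set.mem_iUnion₂.1 (hcov ⟨x + J, rfl⟩)
  have hb := abs_le.1 (hJ ⟨y, hy, rfl⟩)
  refine ⟨x + J - τ y, by linarith, by linarith, fun n hn => ?_⟩
  rw [Metric.mem_ball] at hdist
  have h := (dist_le_pi_dist (γ (x + J)) y ⟨n, hn⟩).trans_lt hdist
  rw [← hτ y hy, hγ, dist_eq_norm] at h
  simp only at h
  have e : cexp (-(((x + J - τ y) * lam n : ℝ) * I)) - 1 =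
      cexp ((τ y * lam n : ℝ) * I) *
        (cexp (-(((x + J) * lam n : ℝ) * I)) - cexp (-((τ y * lam n : ℝ) * I))) := by
    rw [mul_sub, ← Complex.exp_add, ← Complex.exp_add, add_neg_cancel, Complex.exp_zero]
    congr 2
    push_cast
    ring
  rw [e, norm_mul, Complex.norm_exp_ofReal_mul_I, one_mul]
  exact h

/-- Phases given on each initial segment by a linear map over `ℚ` are approached. -/
theorem approachable_of_linear
    (h : ∀ N : ℕ, ∃ Λ : ℝ →ₗ[ℚ] ℝ, ∀ n < N, c n = cexp ((Λ (lam n) : ℝ) * I)) :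
    Approachable lam c := by
  intro N ε hε
  obtain ⟨Λ, hΛ⟩ := h N
  obtain ⟨V, hV⟩ : ∃ V : Submodule ℚ ℝ, V = Submodule.span ℚ (lam '' Set.Iio N) := ⟨_, rfl⟩
  have : FiniteDimensional ℚ V := hV ▸ FiniteDimensional.span_of_finite ℚ
    ((Set.finite_Iio N).image lam)
  obtain ⟨b, hb⟩ : ∃ b : Module.Basis (Fin (Module.finrank ℚ V)) ℚ V, b = Module.finBasis ℚ V :=
    ⟨_, rfl⟩
  obtain ⟨d, hd⟩ : ∃ d, d = Module.finrank ℚ V := ⟨_, rfl⟩
  have hmem : ∀ n : Fin N, lam n ∈ V := fun n => hV ▸ Submodule.subset_span ⟨n, n.2, rfl⟩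
  obtain ⟨r, hr⟩ : ∃ r : Fin N → Fin (Module.finrank ℚ V) → ℚ,
      r = fun (n : Fin N) j => b.repr ⟨lam n, hmem n⟩ j := ⟨_, rfl⟩
  obtain ⟨D, hD⟩ : ∃ D : ℕ, D = ∏ n, ∏ j, (r n j).den := ⟨_, rfl⟩
  have hD0 : D ≠ 0 :=
    hD ▸ prod_ne_zero_iff.2 fun n _ => prod_ne_zero_iff.2 fun j _ => (r n j).den_nz
  have hint : ∀ n j, ∃ e : ℤ, r n j * D = e := fun n j => by
    obtain ⟨k, hk⟩ : (r n j).den ∣ D := hD ▸ (Finset.dvd_prod_of_mem _ (mem_univ j)).trans
      (Finset.dvd_prod_of_mem (fun n => ∏ j, (r n j).den) (mem_univ n))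
    exact ⟨(r n j).num * k, by
      rw [hk, Nat.cast_mul, ← mul_assoc, Rat.mul_den_eq_num]; push_cast; rfl⟩
  choose e he using hint
  obtain ⟨u, hu⟩ : ∃ u : Fin (Module.finrank ℚ V) → ℝ, u = fun j => (D : ℚ)⁻¹ • (b j : ℝ) :=
    ⟨_, rfl⟩
  have hlam : ∀ n : Fin N, lam n = ∑ j, (e n j : ℝ) * u j := fun n => by
    have := congrArg (Subtype.val) (b.sum_repr ⟨lam n, hmem n⟩)
    simp only [AddSubmonoidClass.coe_finsetSum, SetLike.val_smul] at this
    conv_lhs => rw [← this]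
    refine sum_congr rfl fun j _ => ?_
    have he' : ((e n j : ℚ) : ℝ) = (r n j : ℝ) * D := by rw [← he n j]; push_cast; rfl
    simp only [hu, Rat.smul_def]
    rw [show (r n j : ℝ) = (b.repr ⟨lam n, hmem n⟩ j : ℝ) by rw [hr]] at he'
    rw [Rat.cast_intCast] at he'
    rw [he']
    push_cast
    field_simp
  have hind : ∀ m : Fin (Module.finrank ℚ V) → ℤ,
      ∑ j, (m j : ℝ) * (u j / (2 * π)) = 0 → m = 0 := by
    intro m hm
    have h2 : ∑ j, ((m j : ℚ) * (D : ℚ)⁻¹) • b j = 0 := by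
      refine Subtype.ext ?_
      simp only [AddSubmonoidClass.coe_finsetSum, SetLike.val_smul, ZeroMemClass.coe_zero]
      rw [show (0 : ℝ) = (2 * π) * ∑ j, (m j : ℝ) * (u j / (2 * π)) by rw [hm, mul_zero],
        mul_sum]
      refine sum_congr rfl fun j _ => ?_
      simp only [hu, Rat.smul_def]
      push_cast
      field_simp
    funext j
    have := Fintype.linearIndependent_iff.1 b.linearIndependent _ h2 j
    simpa [hD0] using this
  obtain ⟨S, hS⟩ : ∃ S : ℝ, S = 1 + ∑ n, ∑ j, |(e n j : ℝ)| := ⟨_, rfl⟩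
  have hS0 : 0 < S := hS ▸ by positivity
  obtain ⟨t, -, p, hp⟩ := KroneckerApprox.exists_approx_flow hind
    (fun j => -(Λ (u j)) / (2 * π)) (ε := ε / (2 * π * S)) (by positivity) 0
  refine ⟨t, fun n hn => ?_⟩
  obtain ⟨x, hx⟩ : ∃ x : ℝ, x = -∑ j, (e ⟨n, hn⟩ j : ℝ) * (t * u j - 2 * π * p j + Λ (u j)) :=
    ⟨_, rfl⟩
  have hΛlam : Λ (lam n) = ∑ j, (e ⟨n, hn⟩ j : ℝ) * Λ (u j) := by
    rw [show lam n = lam (⟨n, hn⟩ : Fin N) from rfl, hlam, map_sum]
    refine sum_congr rfl fun j _ => ?_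
    rw [← zsmul_eq_mul, map_zsmul, zsmul_eq_mul]
  obtain ⟨P, hP⟩ : ∃ P : ℤ, P = ∑ j, e ⟨n, hn⟩ j * p j := ⟨_, rfl⟩
  have hphase : cexp (-((t * lam n : ℝ) * I)) = c n * cexp (x * I) := by
    rw [hΛ n hn, ← Complex.exp_add, Complex.exp_eq_exp_iff_exists_int]
    refine ⟨-P, ?_⟩
    have hx' : t * lam n = -x + 2 * π * (P : ℝ) - Λ (lam n) := by
      rw [hΛlam, hx, show lam n = lam (⟨n, hn⟩ : Fin N) from rfl, hlam, neg_neg, hP, mul_sum,
        Int.cast_sum, mul_sum, ← sum_add_distrib, ← sum_sub_distrib]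
      exact sum_congr rfl fun j _ => by push_cast; ring
    rw [hx']
    push_cast
    ring
  have hcn : ‖c n‖ = 1 := by rw [hΛ n hn, Complex.norm_exp_ofReal_mul_I]
  rw [hphase, show c n * cexp (x * I) - c n = c n * (cexp (x * I) - 1) by ring, norm_mul, hcn,
    one_mul, mul_comm (x : ℂ) I]
  refine (Real.norm_exp_I_mul_ofReal_sub_one_le).trans_lt ?_
  rw [Real.norm_eq_abs, hx, abs_neg]
  calc |∑ j, (e ⟨n, hn⟩ j : ℝ) * (t * u j - 2 * π * p j + Λ (u j))|
      ≤ ∑ j, |(e ⟨n, hn⟩ j : ℝ)| * (ε / S) := by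
        refine (abs_sum_le_sum_abs _ _).trans (sum_le_sum fun j _ => ?_)
        rw [abs_mul]
        refine mul_le_mul_of_nonneg_left ?_ (abs_nonneg _)
        have h := mul_le_mul_of_nonneg_left (hp j).le Real.two_pi_pos.le
        rw [← abs_of_pos Real.two_pi_pos, ← abs_mul, abs_of_pos Real.two_pi_pos] at h
        refine le_trans (le_of_eq (congrArg abs ?_)) (h.trans (le_of_eq ?_))
        · field_simp
          ring
        · field_simp
    _ ≤ (∑ m, ∑ j, |(e m j : ℝ)|) * (ε / S) := by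
        rw [← sum_mul]
        exact mul_le_mul_of_nonneg_right (single_le_sum
          (f := fun m => ∑ j, |(e m j : ℝ)|) (fun m _ => by positivity) (mem_univ _))
          (by positivity)
    _ < ε := by
        rw [mul_div, div_lt_iff₀ hS0, hS]
        nlinarith

/-- A twist is not identically zero. -/
theorem exists_twSeries_ne_zero (ha : Majorised a lam) (hc : ∀ n, ‖c n‖ = 1) (hlam : StrictMono lam)
    (hne : ∃ n, a n ≠ 0) : ∃ s : ℂ, 1 < s.re ∧ twSeries a lam c s ≠ 0 := by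
  classical
  obtain ⟨k, hk⟩ : ∃ k, k = Nat.find hne := ⟨_, rfl⟩
  have hak : a k ≠ 0 := hk ▸ Nat.find_spec hne
  have hlow : ∀ n < k, a n = 0 := fun n hn => by
    by_contra h
    exact Nat.find_min hne (hk ▸ hn) h
  obtain ⟨g, hg⟩ : ∃ g, g = lam (k + 1) - lam k := ⟨_, rfl⟩
  have hg0 : 0 < g := hg ▸ sub_pos.2 (hlam k.lt_succ_self)
  obtain ⟨B, hB⟩ : ∃ B, B = ∑' n, ‖a n‖ * Real.exp (-(2 * lam n)) := ⟨_, rfl⟩
  have hB0 : 0 ≤ B := hB ▸ tsum_nonneg fun n => by positivity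
  have hlim : Tendsto (fun x : ℝ => B * Real.exp (-(x * g))) atTop (𝓝 0) := by
    simpa using (Real.tendsto_exp_neg_atTop_nhds_zero.comp
      (tendsto_id.atTop_mul_const hg0)).const_mul B
  obtain ⟨x, hx, hx0⟩ := ((hlim.eventually (gt_mem_nhds (show
    (0 : ℝ) < ‖a k‖ * Real.exp (-(2 * lam k)) by positivity))).and (eventually_ge_atTop 0)).exists
  obtain ⟨s, hs⟩ : ∃ s : ℂ, s = ((2 + x : ℝ) : ℂ) := ⟨_, rfl⟩
  have hsre : s.re = 2 + x := by rw [hs]; simp
  have hs1 : 1 < s.re := by linarith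
  refine ⟨s, hs1, fun h0 => ?_⟩
  have hsum := summable_term ha (fun n => (hc n).le) hs1
  have hrest : twSeries a lam c s = term a lam c s k +
      ∑' n, if n = k then 0 else term a lam c s n := by
    rw [twSeries, hsum.tsum_eq_add_tsum_ite k]
  have hbound : ‖∑' n, if n = k then 0 else term a lam c s n‖ ≤
      Real.exp (-(x * lam (k + 1))) * B := by
    rw [hB]
    refine tsum_of_norm_bounded ((ha 2 one_lt_two).hasSum.mul_left _) fun n => ?_
    rcases eq_or_ne n k with rfl | hn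
    · simp only [if_true, norm_zero]
      positivity
    rw [if_neg hn, term, norm_mul, norm_mul, hc, mul_one, norm_exp_neg_mul, hsre]
    rcases lt_or_gt_of_ne hn with hn' | hn'
    · simp [hlow n hn']
    rw [show -((2 + x) * lam n) = -(x * lam n) + -(2 * lam n) by ring, Real.exp_add,
      ← mul_assoc, mul_comm ‖a n‖, mul_assoc]
    refine mul_le_mul_of_nonneg_right (Real.exp_le_exp.2 ?_) (by positivity)
    have := hlam.monotone (show k + 1 ≤ n by omega)
    nlinarith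
  rw [h0] at hrest
  have heq : ‖term a lam c s k‖ ≤ Real.exp (-(x * lam (k + 1))) * B := by
    rw [eq_neg_of_add_eq_zero_left hrest.symm, norm_neg]
    exact hbound
  rw [term, norm_mul, norm_mul, hc, mul_one, norm_exp_neg_mul, hsre] at heq
  have h3 : ‖a k‖ * Real.exp (-((2 + x) * lam k)) =
      Real.exp (-(x * lam k)) * (‖a k‖ * Real.exp (-(2 * lam k))) := by
    rw [show -((2 + x) * lam k) = -(x * lam k) + -(2 * lam k) by ring, Real.exp_add]
    ring
  have h4 : Real.exp (-(x * lam (k + 1))) * B =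
      Real.exp (-(x * lam k)) * (B * Real.exp (-(x * g))) := by
    rw [hg, mul_comm B, ← mul_assoc, ← Real.exp_add]
    ring_nf
  rw [h3, h4] at heq
  exact absurd (le_of_mul_le_mul_left heq (Real.exp_pos _)) (not_le.2 hx)

/-- **One zero of an approachable twist gives `C T` zeros of the series.** -/
theorem exists_zeros_ge (ha : Majorised a lam) (hlam : StrictMono lam) (hne : ∃ n, a n ≠ 0)
    (hc : ∀ n, ‖c n‖ = 1) (happ : Approachable lam c) {σ σ₁ σ₂ : ℝ} (h1 : 1 < σ₁) (hσ₁ : σ₁ < σ)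
    (hσ₂ : σ < σ₂) (h0 : twSeries a lam c σ = 0) {G : ℂ → ℂ}
    (hG : ∀ s : ℂ, 1 < s.re → G s = twSeries a lam (fun _ => 1) s) :
    ∃ C : ℝ, 0 < C ∧ ∀ᶠ T : ℝ in atTop, ∃ S : Finset ℂ, C * T ≤ S.card ∧
      ∀ s ∈ S, σ₁ < s.re ∧ s.re < σ₂ ∧ 0 < s.im ∧ s.im ≤ T ∧ G s = 0 := by
  have hc' : ∀ n, ‖c n‖ ≤ 1 := fun n => (hc n).le
  have hσmem : (σ : ℂ) ∈ {s : ℂ | 1 < s.re} := by simp only [Set.mem_ofPred_eq, ofReal_re]; linarith
  have hconv : Convex ℝ {s : ℂ | 1 < s.re} := convex_halfSpace_re_gt 1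
  have hopen : IsOpen {s : ℂ | 1 < s.re} := isOpen_lt continuous_const Complex.continuous_re
  have han := (differentiableOn_twSeries ha hc').analyticOnNhd hopen
  rcases (han _ hσmem).eventually_eq_zero_or_eventually_ne_zero with hz | hnz
  · obtain ⟨s, hs, hsne⟩ := exists_twSeries_ne_zero ha hc hlam hne
    exact absurd (han.eqOn_zero_of_preconnected_of_eventuallyEq_zero hconv.isPreconnected hσmem hz
      hs) hsne
  rw [eventually_nhdsWithin_iff, Metric.eventually_nhds_iff] at hnz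
  obtain ⟨ρ, hρ, hρ'⟩ := hnz
  obtain ⟨r, hr, hrρ, hr1, hr2⟩ : ∃ r : ℝ, 0 < r ∧ r < ρ ∧ r < σ - σ₁ ∧ r < σ₂ - σ := by
    obtain ⟨r, hr0, hr1⟩ := exists_between (show (0 : ℝ) < min ρ (min (σ - σ₁) (σ₂ - σ)) by
      simp only [lt_min_iff]
      exact ⟨hρ, by linarith, by linarith⟩)
    simp only [lt_min_iff] at hr1
    exact ⟨r, hr0, hr1.1, hr1.2.1, hr1.2.2⟩
  have hball : ∀ z ∈ Metric.closedBall (σ : ℂ) r,
      σ - r ≤ z.re ∧ z.re ≤ σ + r ∧ -r ≤ z.im ∧ z.im ≤ r := by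
    intro z hz
    rw [Metric.mem_closedBall, dist_eq_norm] at hz
    have h3 := abs_le.1 ((Complex.abs_re_le_norm _).trans hz)
    have h4 := abs_le.1 ((Complex.abs_im_le_norm _).trans hz)
    simp only [sub_re, ofReal_re, sub_im, ofReal_im, sub_zero] at h3 h4
    exact ⟨by linarith [h3.1], by linarith [h3.2], h4.1, h4.2⟩
  have hsub : Metric.closedBall (σ : ℂ) r ⊆ {s : ℂ | 1 < s.re} := fun z hz => by
    simp only [Set.mem_ofPred_eq]
    linarith [(hball z hz).1]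
  obtain ⟨z₀, hz₀, hmin⟩ := (isCompact_sphere (σ : ℂ) r).exists_isMinOn
    ⟨(σ + r : ℝ), by simp [abs_of_pos hr]⟩
    (continuous_norm.comp_continuousOn ((differentiableOn_twSeries ha hc').continuousOn.mono
      (Metric.sphere_subset_closedBall.trans hsub)))
  obtain ⟨m, hm⟩ : ∃ m, m = ‖twSeries a lam c z₀‖ := ⟨_, rfl⟩
  have hm0 : 0 < m := by
    rw [hm, norm_pos_iff]
    rw [Metric.mem_sphere] at hz₀
    refine hρ' (hz₀ ▸ hrρ) fun h => ?_
    simp only [Set.mem_singleton_iff] at h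
    rw [h, dist_self] at hz₀
    exact hr.ne hz₀
  obtain ⟨A, hA⟩ : ∃ A, A = ∑' n, majTerm a lam (σ - r) (σ + r) n := ⟨_, rfl⟩
  have hA0 : 0 ≤ A := hA ▸ tsum_nonneg fun n => by rw [majTerm]; positivity
  obtain ⟨N, hN⟩ := (Metric.tendsto_atTop.1 (tendsto_sum_nat_add (majTerm a lam (σ - r) (σ + r)))
    (m / 16) (by positivity))
  have hN' : ∑' n, majTerm a lam (σ - r) (σ + r) (n + N) < m / 16 := by
    have := hN N le_rfl
    rw [dist_zero_right, Real.norm_eq_abs] at this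
    exact (le_abs_self _).trans_lt this
  obtain ⟨ε, hε⟩ : ∃ ε, ε = m / (8 * (A + 1)) := ⟨_, rfl⟩
  have hε0 : 0 < ε := hε ▸ by positivity
  obtain ⟨t₀, ht₀⟩ := happ N (ε / 2) (half_pos hε0)
  obtain ⟨L, hL0, hL⟩ := exists_almostPeriod lam N (half_pos hε0)
  obtain ⟨W, hW⟩ : ∃ W, W = L + 2 * r + 1 := ⟨_, rfl⟩
  have hW0 : 0 < W := by linarith
  have hz : ∀ j : ℕ, ∃ z : ℂ, σ₁ < z.re ∧ z.re < σ₂ ∧ (j : ℝ) * W < z.im ∧
      z.im < (j + 1) * W ∧ G z = 0 := by
    intro j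
    obtain ⟨τ, hτ1, hτ2, hτ⟩ := hL ((j : ℝ) * W + r + 1 / 2 - t₀)
    obtain ⟨t, ht⟩ : ∃ t, t = t₀ + τ := ⟨_, rfl⟩
    have hclose : ∀ n < N, ‖cexp (-((t * lam n : ℝ) * I)) - c n‖ ≤ ε := by
      intro n hn
      have e : cexp (-((t * lam n : ℝ) * I)) =
          cexp (-((t₀ * lam n : ℝ) * I)) * cexp (-((τ * lam n : ℝ) * I)) := by
        rw [← Complex.exp_add, ht]
        congr 1
        push_cast
        ring
      rw [e, show cexp (-((t₀ * lam n : ℝ) * I)) * cexp (-((τ * lam n : ℝ) * I)) - c n =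
        cexp (-((t₀ * lam n : ℝ) * I)) * (cexp (-((τ * lam n : ℝ) * I)) - 1) +
          (cexp (-((t₀ * lam n : ℝ) * I)) - c n) by ring]
      refine (norm_add_le _ _).trans ?_
      rw [norm_mul, norm_phase, one_mul]
      linarith [ht₀ n hn, hτ n hn]
    obtain ⟨w, hw, hw0⟩ := FA.Voronin.exists_zero_of_near hr
      (G := fun z => twSeries a lam (fun n => cexp (-((t * lam n : ℝ) * I))) z)
      (g := twSeries a lam c) (m := m)
      ((differentiableOn_twSeries ha fun n => (norm_phase _).le).mono hsub) h0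
      (fun z hz => hm ▸ isMinOn_iff.1 hmin z hz) fun z hz => by
        refine (norm_twSeries_sub_le ha (fun n => (norm_phase _).le) hc' (by linarith)
          (by linarith) hε0.le hclose (hball z hz).1 (hball z hz).2.1).trans_lt ?_
        have : ε * A ≤ m / 8 := by
          rw [hε, div_mul_eq_mul_div, div_le_div_iff₀ (by positivity) (by norm_num)]
          nlinarith
        rw [← hA]
        linarith
    obtain ⟨b1, b2, b3, b4⟩ := hball w hw
    rw [← twSeries_shift] at hw0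
    refine ⟨w + t * I, ?_, ?_, ?_, ?_, ?_⟩
    · simp only [add_re, mul_re, I_re, I_im, ofReal_re, ofReal_im]
      linarith
    · simp only [add_re, mul_re, I_re, I_im, ofReal_re, ofReal_im]
      linarith
    · simp only [add_im, mul_im, I_re, I_im, ofReal_re, ofReal_im]
      linarith
    · simp only [add_im, mul_im, I_re, I_im, ofReal_re, ofReal_im]
      linarith
    · rw [hG _ (by simp only [add_re, mul_re, I_re, I_im, ofReal_re, ofReal_im]; linarith)]
      exact hw0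
  choose z hz1 hz2 hz3 hz4 hz5 using hz
  have hinj : Function.Injective z := by
    intro i j hij
    by_contra hne'
    rcases lt_or_gt_of_ne hne' with h | h
    · have h' : ((i : ℝ) + 1) * W ≤ j * W := mul_le_mul_of_nonneg_right (by exact_mod_cast h) hW0.le
      linarith [hz4 i, hz3 j, congrArg Complex.im hij]
    · have h' : ((j : ℝ) + 1) * W ≤ i * W := mul_le_mul_of_nonneg_right (by exact_mod_cast h) hW0.le
      linarith [hz4 j, hz3 i, congrArg Complex.im hij]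
  refine ⟨1 / (2 * W), by positivity, ?_⟩
  filter_upwards [eventually_ge_atTop (2 * W)] with T hT
  obtain ⟨J, hJ⟩ : ∃ J : ℕ, J = ⌊T / W⌋₊ := ⟨_, rfl⟩
  have hTW : 2 ≤ T / W := (le_div_iff₀ hW0).2 hT
  refine ⟨(range J).image z, ?_, fun s hs => ?_⟩
  · rw [card_image_of_injective _ hinj, card_range, one_div_mul_eq_div,
      show T / (2 * W) = T / W / 2 by ring]
    have := Nat.lt_floor_add_one (T / W)
    rw [← hJ] at this
    linarith
  · obtain ⟨j, hj, rfl⟩ := mem_image.1 hs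
    have hjT : ((j : ℝ) + 1) * W ≤ T := by
      have h' : ((j + 1 : ℕ) : ℝ) ≤ T / W :=
        (Nat.cast_le.2 (Nat.succ_le_of_lt (mem_range.1 hj))).trans
          (hJ ▸ Nat.floor_le (by positivity))
      rw [le_div_iff₀ hW0] at h'
      push_cast at h'
      linarith
    refine ⟨hz1 j, hz2 j, lt_of_le_of_lt ?_ (hz3 j), by linarith [hz4 j], hz5 j⟩
    positivity

end FA.CasselsHurwitz
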